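import Fermat.Agent.S53.RepBasic

/-!
# S53 / WP-B1: Burnside's theorem for absolutely irreducible 2-dimensional representations

We show that the matrices of an absolutely irreducible 2-dimensional residual representation
span the full matrix algebra.  The proof has three steps:

* `Burnside.irr_matrix`: absolute irreducibility, transported to the matrix form over the
  algebraic closure `K` of `k`: no subspace of `K²` other than `⊥`, `⊤` is stable under all
  the matrices `(matRep ρbar b σ).map (algebraMap k K)`;
* `Burnside.span_eq_top_of_irr`: Burnside's theorem for a monoid of `2 × 2` matrices over an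
  algebraically closed field acting irreducibly;
* `Burnside.span_eq_top_of_map`: descent of the spanning property from `K` to `k`.
-/

set_option autoImplicit false

namespace Fermat.Agent.S53

namespace Burnside

section MatrixBurnside

variable {K : Type} [Field K] {G : Type} [Monoid G]

/-- The linear span of the image of a monoid homomorphism is closed under multiplication. -/
theorem span_mul_mem (R : G →* M2 K) {x y : M2 K}
    (hx : x ∈ Submodule.span K (Set.range R)) (hy : y ∈ Submodule.span K (Set.range R)) :
    x * y ∈ Submodule.span K (Set.range R) := by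
  induction hx using Submodule.span_induction with
  | mem x hx =>
    obtain ⟨g, rfl⟩ := hx
    induction hy using Submodule.span_induction with
    | mem y hy =>
      obtain ⟨h, rfl⟩ := hy
      rw [← map_mul]
      exact Submodule.subset_span ⟨g * h, rfl⟩
    | zero => rw [mul_zero]; exact Submodule.zero_mem _
    | add y z _ _ hy hz => rw [mul_add]; exact Submodule.add_mem _ hy hz
    | smul c y _ hy => rw [mul_smul_comm]; exact Submodule.smul_mem _ c hy
  | zero => rw [zero_mul]; exact Submodule.zero_mem _
  | add x z _ _ hx hz => rw [add_mul]; exact Submodule.add_mem _ hx hz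
  | smul c x _ hx => rw [smul_mul_assoc]; exact Submodule.smul_mem _ c hx

/-- **Burnside's theorem** for `2 × 2` matrices over an algebraically closed field: a monoid of
matrices leaving no subspace other than `⊥` and `⊤` stable spans the full matrix algebra. -/
theorem span_eq_top_of_irr [IsAlgClosed K] (R : G →* M2 K)
    (hirr : ∀ W : Submodule K (Fin 2 → K),
      (∀ g : G, ∀ x ∈ W, (R g).mulVec x ∈ W) → W = ⊥ ∨ W = ⊤) :
    Submodule.span K (Set.range R) = ⊤ := by
  set B : Submodule K (M2 K) := Submodule.span K (Set.range R) with hB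
  have hone : (1 : M2 K) ∈ B := Submodule.subset_span ⟨1, map_one R⟩
  have hmul : ∀ {x y : M2 K}, x ∈ B → y ∈ B → x * y ∈ B := fun hx hy => span_mul_mem R hx hy
  have hR : ∀ g : G, R g ∈ B := fun g => Submodule.subset_span ⟨g, rfl⟩
  -- Step 1: some `R g₀` has a nonzero lower left entry (else the first coordinate line is
  -- stable).
  obtain ⟨g₀, hg₀⟩ : ∃ g₀ : G, R g₀ 1 0 ≠ 0 := by
    by_contra hcon
    push Not at hcon
    let W : Submodule K (Fin 2 → K) :=
      { carrier := {w | w 1 = 0}
        add_mem' := by
          intro w w' hw hw'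
          change w 1 = 0 at hw
          change w' 1 = 0 at hw'
          change (w + w') 1 = 0
          rw [Pi.add_apply, hw, hw', add_zero]
        zero_mem' := rfl
        smul_mem' := by
          intro c w hw
          change w 1 = 0 at hw
          change (c • w) 1 = 0
          rw [Pi.smul_apply, hw, smul_zero] }
    have hW : ∀ g : G, ∀ x ∈ W, (R g).mulVec x ∈ W := by
      intro g x hx
      change x 1 = 0 at hx
      change (R g).mulVec x 1 = 0
      simp [Matrix.mulVec, dotProduct, Fin.sum_univ_two, hcon g, hx]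
    rcases hirr W hW with h | h
    · have h1 : (![1, 0] : Fin 2 → K) ∈ W := by
        change (![1, 0] : Fin 2 → K) 1 = 0
        simp
      rw [h] at h1
      have h2 := congrFun ((Submodule.mem_bot K).1 h1) 0
      simp at h2
    · have h1 : (![0, 1] : Fin 2 → K) ∈ W := by rw [h]; trivial
      change (![0, 1] : Fin 2 → K) 1 = 0 at h1
      simp at h1
  -- Step 2: an eigenvalue `μ` of `R g₀`.
  obtain ⟨μ, hμ⟩ : ∃ μ : K, (R g₀ - μ • (1 : M2 K)).det = 0 := by
    obtain ⟨μ, hμ⟩ := IsAlgClosed.exists_root (R g₀).charpoly (by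
      rw [Matrix.charpoly_degree_eq_dim]; simp)
    refine ⟨μ, ?_⟩
    rw [Polynomial.IsRoot.def, Matrix.eval_charpoly] at hμ
    rw [Matrix.det_fin_two] at hμ ⊢
    simp at hμ ⊢
    linear_combination hμ
  set x : M2 K := R g₀ - μ • (1 : M2 K) with hx
  have hxB : x ∈ B := Submodule.sub_mem _ (hR g₀) (Submodule.smul_mem _ _ hone)
  have hx10 : x 1 0 ≠ 0 := by simpa [hx] using hg₀
  -- Step 3: `x` has rank one.
  set v : Fin 2 → K := fun i => x i 0 with hv
  set φ : Fin 2 → K := fun j => x 1 j / x 1 0 with hφ
  have hxv : x = Matrix.vecMulVec v φ := by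
    rw [Matrix.det_fin_two] at hμ
    ext i j
    fin_cases i <;> fin_cases j
    · simp [Matrix.vecMulVec_apply, hv, hφ, hx10]
    · simp [Matrix.vecMulVec_apply, hv, hφ]
      field_simp
      linear_combination -hμ
    · simp [Matrix.vecMulVec_apply, hv, hφ, hx10]
    · simp [Matrix.vecMulVec_apply, hv, hφ]
      field_simp
  have hv0 : v ≠ 0 := fun h => hx10 (congrFun h 1)
  -- Step 4: `B` acts transitively on the (nonzero) column vector `v`.
  have htrans : ∀ w : Fin 2 → K, ∃ b ∈ B, b.mulVec v = w := by
    let W : Submodule K (Fin 2 → K) :=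
      { carrier := {w | ∃ b ∈ B, b.mulVec v = w}
        add_mem' := by
          rintro _ _ ⟨b, hb, rfl⟩ ⟨b', hb', rfl⟩
          exact ⟨b + b', B.add_mem hb hb', Matrix.add_mulVec _ _ _⟩
        zero_mem' := ⟨0, B.zero_mem, Matrix.zero_mulVec _⟩
        smul_mem' := by
          rintro c _ ⟨b, hb, rfl⟩
          exact ⟨c • b, B.smul_mem c hb, Matrix.smul_mulVec _ _ _⟩ }
    have hW : ∀ g : G, ∀ w ∈ W, (R g).mulVec w ∈ W := by
      rintro g _ ⟨b, hb, rfl⟩
      exact ⟨R g * b, hmul (hR g) hb, (Matrix.mulVec_mulVec _ _ _).symm⟩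
    have hvW : v ∈ W := ⟨1, hone, Matrix.one_mulVec v⟩
    rcases hirr W hW with h | h
    · rw [h] at hvW
      exact absurd ((Submodule.mem_bot K).1 hvW) hv0
    · intro w
      have hw : w ∈ W := by rw [h]; trivial
      exact hw
  -- Step 5: `B` acts transitively (on the right) on the row vector `φ`.
  have hdual : ∀ ψ : Fin 2 → K, ∃ b ∈ B, Matrix.vecMul φ b = ψ := by
    let Z : Submodule K (Fin 2 → K) :=
      { carrier := {w | ∀ b ∈ B, φ ⬝ᵥ b.mulVec w = 0}
        add_mem' := by
          intro w w' hw hw' b hb
          rw [Matrix.mulVec_add, dotProduct_add, hw b hb, hw' b hb, add_zero]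
        zero_mem' := by
          intro b _
          rw [Matrix.mulVec_zero, dotProduct_zero]
        smul_mem' := by
          intro c w hw b hb
          rw [Matrix.mulVec_smul, dotProduct_smul, hw b hb, smul_zero] }
    have hZ : ∀ g : G, ∀ w ∈ Z, (R g).mulVec w ∈ Z := by
      intro g w hw b hb
      rw [Matrix.mulVec_mulVec]
      exact hw _ (hmul hb (hR g))
    have hZbot : Z = ⊥ := by
      rcases hirr Z hZ with h | h
      · exact h
      · exfalso
        have h1 : (![1, 0] : Fin 2 → K) ∈ Z := by rw [h]; trivial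
        have h2 := h1 1 hone
        rw [Matrix.one_mulVec] at h2
        have h3 : φ ⬝ᵥ ![1, 0] = 1 := by
          rw [dotProduct, Fin.sum_univ_two]
          change x 1 0 / x 1 0 * 1 + x 1 1 / x 1 0 * 0 = 1
          rw [mul_one, mul_zero, add_zero, div_self hx10]
        rw [h3] at h2
        exact one_ne_zero h2
    let Φ : Submodule K (Fin 2 → K) :=
      { carrier := {ψ | ∃ b ∈ B, Matrix.vecMul φ b = ψ}
        add_mem' := by
          rintro _ _ ⟨b, hb, rfl⟩ ⟨b', hb', rfl⟩
          exact ⟨b + b', B.add_mem hb hb', Matrix.vecMul_add _ _ _⟩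
        zero_mem' := ⟨0, B.zero_mem, Matrix.vecMul_zero _⟩
        smul_mem' := by
          rintro c _ ⟨b, hb, rfl⟩
          exact ⟨c • b, B.smul_mem c hb, Matrix.vecMul_smul _ _ _⟩ }
    have hΦ : Φ = ⊤ := by
      by_contra hne
      obtain ⟨f, hf0, hf⟩ := Φ.exists_le_ker_of_lt_top (lt_top_iff_ne_top.2 hne)
      have hfw : ∀ ψ : Fin 2 → K, f ψ = ψ ⬝ᵥ fun j => f (Pi.single j 1) := by
        intro ψ
        have hψ : ψ = ∑ j, ψ j • (Pi.single j (1 : K) : Fin 2 → K) := by
          ext a
          fin_cases a <;> simp [Fin.sum_univ_two]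
        conv_lhs => rw [hψ]
        simp [dotProduct, Fin.sum_univ_two]
      have hwZ : (fun j => f (Pi.single j 1)) ∈ Z := by
        intro b hb
        rw [Matrix.dotProduct_mulVec, ← hfw]
        exact hf ⟨b, hb, rfl⟩
      rw [hZbot] at hwZ
      have hw0 : (fun j => f (Pi.single j 1)) = (0 : Fin 2 → K) := (Submodule.mem_bot K).1 hwZ
      apply hf0
      apply LinearMap.ext
      intro ψ
      rw [hfw, hw0, dotProduct_zero, LinearMap.zero_apply]
    intro ψ
    have hψ : ψ ∈ Φ := by rw [hΦ]; trivial
    exact hψ
  -- Step 6: `B` contains all matrices of rank at most one.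
  have hrank : ∀ w ψ : Fin 2 → K, Matrix.vecMulVec w ψ ∈ B := by
    intro w ψ
    obtain ⟨b₁, hb₁, rfl⟩ := htrans w
    obtain ⟨b₂, hb₂, rfl⟩ := hdual ψ
    have h1 : Matrix.vecMulVec (b₁.mulVec v) (Matrix.vecMul φ b₂) = b₁ * x * b₂ := by
      rw [hxv, Matrix.mul_vecMulVec, Matrix.vecMulVec_mul]
    rw [h1]
    exact hmul (hmul hb₁ hxB) hb₂
  -- Step 7: hence `B` is everything.
  rw [eq_top_iff]
  intro m _
  rw [Matrix.matrix_eq_sum_single m]
  refine Submodule.sum_mem _ fun i _ => Submodule.sum_mem _ fun j _ => ?_
  have h1 : Matrix.single i j (m i j) = m i j • Matrix.vecMulVec (Pi.single i 1) (Pi.single j 1) := by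
    rw [← Matrix.single_eq_single_vecMulVec_single, Matrix.smul_single, smul_eq_mul, mul_one]
  rw [h1]
  exact Submodule.smul_mem _ _ (hrank _ _)

end MatrixBurnside

section Descent

variable {k K : Type} [Field k] [Field K] [Algebra k K]

/-- Descent of the spanning property along a field extension `K/k`: if the images in `M2 K`
of a set `S` of matrices over `k` span `M2 K` over `K`, then `S` spans `M2 k` over `k`. -/
theorem span_eq_top_of_map (S : Set (M2 k))
    (h : Submodule.span K ((fun m : M2 k => m.map (algebraMap k K)) '' S) = ⊤) :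
    Submodule.span k S = ⊤ := by
  by_contra hne
  obtain ⟨f, hf0, hf⟩ := (Submodule.span k S).exists_le_ker_of_lt_top (lt_top_iff_ne_top.2 hne)
  -- every functional on `M2 k` is a linear combination of the entries
  have hfsum : ∀ m : M2 k, f m = ∑ i, ∑ j, m i j * f (Matrix.single i j 1) := by
    intro m
    conv_lhs => rw [Matrix.matrix_eq_sum_single m]
    rw [map_sum]
    refine Finset.sum_congr rfl fun i _ => ?_
    rw [map_sum]
    refine Finset.sum_congr rfl fun j _ => ?_
    have h1 : Matrix.single i j (m i j) = m i j • Matrix.single i j (1 : k) := by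
      rw [Matrix.smul_single, smul_eq_mul, mul_one]
    rw [h1, map_smul, smul_eq_mul]
  -- the extension of `f` to `M2 K`
  let fK : M2 K →ₗ[K] K :=
    { toFun := fun y => ∑ i, ∑ j, y i j * algebraMap k K (f (Matrix.single i j 1))
      map_add' := by
        intro y z
        simp only [Matrix.add_apply, add_mul, Finset.sum_add_distrib]
      map_smul' := by
        intro c y
        simp only [Matrix.smul_apply, smul_eq_mul, RingHom.id_apply, Finset.mul_sum, mul_assoc] }
  have hfK : ∀ m : M2 k, fK (m.map (algebraMap k K)) = algebraMap k K (f m) := by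
    intro m
    change ∑ i, ∑ j, (m.map (algebraMap k K)) i j * algebraMap k K (f (Matrix.single i j 1)) = _
    rw [hfsum m]
    simp only [Matrix.map_apply, map_sum, map_mul]
  have hker : Submodule.span K ((fun m : M2 k => m.map (algebraMap k K)) '' S) ≤
      LinearMap.ker fK := by
    rw [Submodule.span_le]
    rintro _ ⟨m, hm, rfl⟩
    change fK (m.map (algebraMap k K)) = 0
    rw [hfK, show f m = 0 from hf (Submodule.subset_span hm), map_zero]
  rw [h] at hker
  have hzero : ∀ i j, f (Matrix.single i j 1) = 0 := by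
    intro i j
    have h1 : fK ((Matrix.single i j (1 : k)).map (algebraMap k K)) = 0 := hker trivial
    rw [hfK] at h1
    exact (map_eq_zero (algebraMap k K)).1 h1
  apply hf0
  apply LinearMap.ext
  intro m
  rw [hfsum m, LinearMap.zero_apply]
  exact Finset.sum_eq_zero fun i _ => Finset.sum_eq_zero fun j _ => by rw [hzero, mul_zero]

end Descent

section Transport

open TensorProduct

variable {k : Type} [Field k]

/-- Absolute irreducibility in matrix form: no subspace of `K²` (`K` the algebraic closure of
`k`) other than `⊥` and `⊤` is stable under the matrices of `ρbar`, viewed over `K`. -/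
theorem irr_matrix (ρbar : ResidualGaloisRep k) (habs : ρbar.IsAbsolutelyIrreducible)
    (b : Module.Basis (Fin 2) k ρbar.V)
    (W : Submodule (AlgebraicClosure k) (Fin 2 → AlgebraicClosure k))
    (hW : ∀ σ : Gal, ∀ x ∈ W,
      (mapRep (algebraMap k (AlgebraicClosure k)) (matRep ρbar b) σ).mulVec x ∈ W) :
    W = ⊥ ∨ W = ⊤ := by
  let bK : Module.Basis (Fin 2) (AlgebraicClosure k) (AlgebraicClosure k ⊗[k] ρbar.V) :=
    Algebra.TensorProduct.basis (AlgebraicClosure k) b
  let e : (AlgebraicClosure k ⊗[k] ρbar.V) ≃ₗ[AlgebraicClosure k] (Fin 2 → AlgebraicClosure k) :=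
    bK.equivFun
  have key : ∀ (σ : Gal) (y : AlgebraicClosure k ⊗[k] ρbar.V),
      e ((ρbar.ρ σ).baseChange (AlgebraicClosure k) y) =
        (mapRep (algebraMap k (AlgebraicClosure k)) (matRep ρbar b) σ).mulVec (e y) := by
    intro σ y
    rw [mapRep_apply, matRep_apply, ← LinearMap.toMatrix_baseChange]
    exact (LinearMap.toMatrix_mulVec_repr bK bK _ y).symm
  have hstab : ∀ σ : Gal, ∀ y ∈ W.comap e.toLinearMap,
      (ρbar.baseChange (AlgebraicClosure k)).ρ σ y ∈ W.comap e.toLinearMap := by
    intro σ y hy
    rw [Submodule.mem_comap] at hy ⊢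
    change e ((ρbar.ρ σ).baseChange (AlgebraicClosure k) y) ∈ W
    rw [key]
    exact hW σ _ hy
  rcases habs (W.comap e.toLinearMap) hstab with h | h
  · left
    rw [eq_bot_iff]
    intro w hw
    have h1 : e.symm w ∈ W.comap e.toLinearMap := by
      rw [Submodule.mem_comap]
      change e (e.symm w) ∈ W
      rw [LinearEquiv.apply_symm_apply]
      exact hw
    rw [h] at h1
    have h2 : e.symm w = 0 := (Submodule.mem_bot _).1 h1
    rw [Submodule.mem_bot]
    rw [← LinearEquiv.apply_symm_apply e w, h2, map_zero]
  · right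
    rw [eq_top_iff]
    intro w _
    have h1 : e.symm w ∈ W.comap e.toLinearMap := by rw [h]; trivial
    rw [Submodule.mem_comap] at h1
    change e (e.symm w) ∈ W at h1
    rw [LinearEquiv.apply_symm_apply] at h1
    exact h1

end Transport

end Burnside

/-- If `ρbar` is absolutely irreducible then the matrices of `ρbar` (in any basis) span the
full matrix algebra `M2 k`. -/
theorem burnside_of_absIrr {k : Type} [Field k] (ρbar : ResidualGaloisRep k)
    (habs : ρbar.IsAbsolutelyIrreducible) (b : Module.Basis (Fin 2) k ρbar.V) :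
    Submodule.span k (Set.range (matRep ρbar b)) = ⊤ := by
  apply Burnside.span_eq_top_of_map (K := AlgebraicClosure k)
  have h := Burnside.span_eq_top_of_irr
    (mapRep (algebraMap k (AlgebraicClosure k)) (matRep ρbar b))
    (Burnside.irr_matrix ρbar habs b)
  rw [← h]
  congr 1
  ext y
  constructor
  · rintro ⟨_, ⟨σ, rfl⟩, rfl⟩
    exact ⟨σ, rfl⟩
  · rintro ⟨σ, rfl⟩
    exact ⟨_, ⟨σ, rfl⟩, rfl⟩

end Fermat.Agent.S53
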