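import Fermat.Agent.S53.Translate

/-!
# S53 / WP-B2: residual representations, the base point, and tangent finiteness in matrix
terms

Interface theorems: `residual_isEquiv_iff`, `Pm_base`, `Pm_tangent`.
All auxiliary declarations live in the sub-namespace `Fermat.Agent.S53.Residual`.
-/

set_option autoImplicit false

namespace Fermat.Agent.S53

open IsLocalRing

namespace Residual

open scoped TensorProduct

/-! ### Residual representations in matrix form -/

/-- Two residual representations with chosen bases are isomorphic iff their matrix forms are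
conjugate. -/
theorem isEquiv_iff_matrix {κ : Type} [Field κ] (ρ₁ ρ₂ : ResidualGaloisRep κ)
    (b₁ : Module.Basis (Fin 2) κ ρ₁.V) (b₂ : Module.Basis (Fin 2) κ ρ₂.V) :
    ρ₁.IsEquiv ρ₂ ↔ ∃ g : (M2 κ)ˣ, ∀ σ : Gal,
      (g : M2 κ) * LinearMap.toMatrix b₁ b₁ (ρ₁.ρ σ) =
        LinearMap.toMatrix b₂ b₂ (ρ₂.ρ σ) * (g : M2 κ) := by
  constructor
  · rintro ⟨e⟩
    refine ⟨⟨LinearMap.toMatrix b₁ b₂ e.toLinearEquiv.toLinearMap,
      LinearMap.toMatrix b₂ b₁ e.toLinearEquiv.symm.toLinearMap, ?_, ?_⟩, fun σ => ?_⟩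
    · rw [← LinearMap.toMatrix_comp]; simp
    · rw [← LinearMap.toMatrix_comp]; simp
    · show LinearMap.toMatrix b₁ b₂ e.toLinearEquiv.toLinearMap * _ =
        _ * LinearMap.toMatrix b₁ b₂ e.toLinearEquiv.toLinearMap
      rw [← LinearMap.toMatrix_comp, ← LinearMap.toMatrix_comp]
      congr 1
      ext x
      simp [e.map_apply]
  · rintro ⟨g, hg⟩
    refine ⟨⟨LinearEquiv.ofLinearMap (Matrix.toLin b₁ b₂ (g : M2 κ))
      (Matrix.toLin b₂ b₁ (↑g⁻¹ : M2 κ)) ?_ ?_, fun σ x => ?_⟩⟩
    · rw [← Matrix.toLin_mul]; simp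
    · rw [← Matrix.toLin_mul]; simp
    · have h := congrArg (Matrix.toLin b₁ b₂) (hg σ)
      rw [Matrix.toLin_mul b₁ b₁ b₂, Matrix.toLin_mul b₁ b₂ b₂, Matrix.toLin_toMatrix,
        Matrix.toLin_toMatrix] at h
      exact LinearMap.congr_fun h x

/-- The matrix of the base change of `v ↦ M *ᵥ v` in the base-changed standard basis. -/
theorem toMatrix_baseChange_toEnd {A : Type} [CommRing A] (κ : Type) [CommRing κ] [Algebra A κ]
    (M : M2 A) :
    LinearMap.toMatrix (Algebra.TensorProduct.basis κ (Pi.basisFun A (Fin 2)))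
      (Algebra.TensorProduct.basis κ (Pi.basisFun A (Fin 2)))
      ((toEnd A M).baseChange κ) = M.map (algebraMap A κ) := by
  rw [LinearMap.toMatrix_baseChange]
  congr 1
  show LinearMap.toMatrix (Pi.basisFun A (Fin 2)) (Pi.basisFun A (Fin 2)) (Matrix.toLin' M) = M
  rw [LinearMap.toMatrix_eq_toMatrix', LinearMap.toMatrix'_toLin']

/-- The standard basis of the residual space of `ofMatrix r`. -/
noncomputable def resBasis {A : Type} [CommRing A] [IsLocalRing A] (r : Gal →* M2 A)
    (hc : IsCts r) : Module.Basis (Fin 2) (ResidueField A) (ofMatrix r hc).residual.V :=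
  Algebra.TensorProduct.basis (ResidueField A) (Pi.basisFun A (Fin 2))

/-- In the standard basis, the residual representation of `ofMatrix r` is given by the
reduction of `r`. -/
theorem toMatrix_resBasis {A : Type} [CommRing A] [IsLocalRing A] (r : Gal →* M2 A)
    (hc : IsCts r) (σ : Gal) :
    LinearMap.toMatrix (resBasis r hc) (resBasis r hc) ((ofMatrix r hc).residual.ρ σ) =
      (r σ).map (residue A) :=
  toMatrix_baseChange_toEnd (ResidueField A) (r σ)

/-- The basis of the base change of a residual representation along a field homomorphism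
induced by a basis. -/
noncomputable def bcBasis {k κ : Type} [Field k] [Field κ] (ψ : k →+* κ)
    (ρbar : ResidualGaloisRep k) (b : Module.Basis (Fin 2) k ρbar.V) :
    Module.Basis (Fin 2) κ (ρbar.baseChangeAlong ψ).V :=
  letI : Algebra k κ := ψ.toAlgebra
  Algebra.TensorProduct.basis κ b

/-- In the induced basis, the base change of `ρbar` along `ψ` is given by the image under `ψ`
of the matrix form of `ρbar`. -/
theorem toMatrix_bcBasis {k κ : Type} [Field k] [Field κ] (ψ : k →+* κ)
    (ρbar : ResidualGaloisRep k) (b : Module.Basis (Fin 2) k ρbar.V) (σ : Gal) :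
    LinearMap.toMatrix (bcBasis ψ ρbar b) (bcBasis ψ ρbar b) ((ρbar.baseChangeAlong ψ).ρ σ) =
      (matRep ρbar b σ).map ψ := by
  let _ : Algebra k κ := ψ.toAlgebra
  show LinearMap.toMatrix (Algebra.TensorProduct.basis κ b) (Algebra.TensorProduct.basis κ b)
    ((ρbar.ρ σ).baseChange κ) = _
  rw [LinearMap.toMatrix_baseChange]
  rfl

/-- The residual representation of `ofMatrix r` is isomorphic to the base change of `ρbar`
along `ψ` iff the reduction of `r` is conjugate to the image of the matrix form of `ρbar`. -/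
theorem residual_isEquiv_iff_matrix {k : Type} [Field k] (ρbar : ResidualGaloisRep k)
    (b : Module.Basis (Fin 2) k ρbar.V) {A : Type} [CommRing A] [IsLocalRing A]
    (ψ : k →+* ResidueField A) (r : Gal →* M2 A) (hc : IsCts r) :
    (ofMatrix r hc).residual.IsEquiv (ρbar.baseChangeAlong ψ) ↔
      ∃ g : (M2 (ResidueField A))ˣ, ∀ σ : Gal,
        (g : M2 (ResidueField A)) * (r σ).map (residue A) =
          (matRep ρbar b σ).map ψ * (g : M2 (ResidueField A)) := by
  rw [isEquiv_iff_matrix _ _ (resBasis r hc) (bcBasis ψ ρbar b)]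
  simp only [toMatrix_resBasis, toMatrix_bcBasis]

/-! ### Strict lifts and reduction -/

/-- A strict lift is the same as a representation whose reduction is the image of `rbar`. -/
theorem isLift_iff {𝒪 : Type} [CommRing 𝒪] [IsLocalRing 𝒪]
    (rbar : Gal →* M2 (ResidueField 𝒪)) {A : Type} [CommRing A] [IsLocalRing A]
    [Algebra 𝒪 A] [IsLocalHom (algebraMap 𝒪 A)] (r : Gal →* M2 A) :
    IsLift rbar r ↔ ∀ σ : Gal,
      (r σ).map (residue A) = (rbar σ).map (ResidueField.map (algebraMap 𝒪 A)) := by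
  constructor
  · intro h σ
    ext i j
    obtain ⟨c, hc, hu⟩ := h σ i j
    simp only [Matrix.map_apply]
    rw [← hc, ResidueField.map_residue]
    have h0 : residue A (r σ i j - algebraMap 𝒪 A c) = 0 := (residue_eq_zero_iff _).2 hu
    rwa [map_sub, sub_eq_zero] at h0
  · intro h σ i j
    obtain ⟨c, hc⟩ := residue_surjective (rbar σ i j)
    refine ⟨c, hc, ?_⟩
    have h1 := congrFun (congrFun (h σ) i) j
    simp only [Matrix.map_apply] at h1
    rw [← hc, ResidueField.map_residue] at h1
    have h0 : residue A (r σ i j - algebraMap 𝒪 A c) = 0 := by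
      rw [map_sub, sub_eq_zero]; exact h1
    exact (residue_eq_zero_iff _).1 h0

/-- Invertible matrices over the residue field lift to invertible matrices. -/
theorem exists_unit_lift {A : Type} [CommRing A] [IsLocalRing A]
    (g : (M2 (ResidueField A))ˣ) :
    ∃ G : (M2 A)ˣ, (G : M2 A).map (residue A) = (g : M2 (ResidueField A)) := by
  have h : ∀ i j, ∃ a : A, residue A a = (g : M2 (ResidueField A)) i j :=
    fun i j => residue_surjective _
  choose G hG using h
  have hmap : (Matrix.of G : M2 A).map (residue A) = (g : M2 (ResidueField A)) := by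
    ext i j
    simp [hG]
  have hunit : IsUnit (Matrix.of G : M2 A) := by
    rw [Matrix.isUnit_iff_isUnit_det]
    apply isUnit_of_map_unit (residue A)
    rw [RingHom.map_det]
    have : (residue A).mapMatrix (Matrix.of G : M2 A) = (g : M2 (ResidueField A)) := hmap
    rw [this, ← Matrix.isUnit_iff_isUnit_det]
    exact g.isUnit
  exact ⟨hunit.unit, hmap⟩

/-- Conjugation of a matrix representation by an invertible matrix. -/
noncomputable def conjRep {A : Type} [CommRing A] (g : (M2 A)ˣ) (r : Gal →* M2 A) :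
    Gal →* M2 A where
  toFun σ := (g : M2 A) * r σ * (↑g⁻¹ : M2 A)
  map_one' := by simp
  map_mul' σ τ := by
    rw [map_mul]
    simp only [mul_assoc, Units.inv_mul_cancel_left]

theorem conjRep_apply {A : Type} [CommRing A] (g : (M2 A)ˣ) (r : Gal →* M2 A) (σ : Gal) :
    conjRep g r σ = (g : M2 A) * r σ * (↑g⁻¹ : M2 A) := rfl

theorem conj_conjRep {A : Type} [CommRing A] (g : (M2 A)ˣ) (r : Gal →* M2 A) :
    Conj r (conjRep g r) :=
  ⟨g, fun σ => by rw [conjRep_apply, Units.inv_mul_cancel_right]⟩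

/-! ### The base point -/

/-- The residue field of `𝒪` is an artinian test algebra. -/
theorem isArtinianTestAlgebra_residueField {𝒪 : Type} [CommRing 𝒪] [IsLocalRing 𝒪] :
    GaloisRep.IsArtinianTestAlgebra 𝒪 (ResidueField 𝒪) where
  isLocalHom := by
    rw [ResidueField.algebraMap_eq]
    infer_instance
  residue_surjective := by
    intro x
    obtain ⟨y, rfl⟩ := residue_surjective x
    obtain ⟨c, rfl⟩ := residue_surjective y
    exact ⟨c, rfl⟩
  isArtinian := inferInstance

/-- The matrix form of a residual representation is continuous. -/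
theorem isCts_matRep {k : Type} [Field k] (ρbar : ResidualGaloisRep k)
    (b : Module.Basis (Fin 2) k ρbar.V) : IsCts (matRep ρbar b) := by
  intro n
  obtain ⟨L, hL, h1⟩ := ρbar.factorsThroughFiniteLevel
  refine ⟨L, hL, fun σ hσ i j => ?_⟩
  have : matRep ρbar b σ = 1 := by
    rw [matRep_apply, h1 σ hσ]
    exact LinearMap.toMatrix_one b
  rw [this, sub_self]
  exact Ideal.zero_mem _

/-- `ofMatrix (matRep ρbar b)` is isomorphic to `ρbar` viewed as an adic representation. -/
theorem isEquiv_ofMatrix_matRep {k : Type} [Field k] (ρbar : ResidualGaloisRep k)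
    (b : Module.Basis (Fin 2) k ρbar.V) (hc : IsCts (matRep ρbar b)) :
    (GaloisRepAdic.ofResidualGaloisRep ρbar).IsEquiv (ofMatrix (matRep ρbar b) hc) :=
  ⟨{ toLinearEquiv := b.equivFun
     map_apply := fun σ x => by
       show b.repr (ρbar.ρ σ x) = (LinearMap.toMatrix b b (ρbar.ρ σ)).mulVec (b.repr x)
       rw [LinearMap.toMatrix_mulVec_repr] }⟩

/-! ### Tangent finiteness -/

/-- Isomorphic `ofMatrix` representations come from conjugate matrix representations. -/
theorem conj_of_isEquiv_ofMatrix {A : Type} [CommRing A] [IsLocalRing A] (r r' : Gal →* M2 A)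
    (hc : IsCts r) (hc' : IsCts r') (h : (ofMatrix r hc).IsEquiv (ofMatrix r' hc')) :
    Conj r r' := by
  obtain ⟨e⟩ := h
  obtain ⟨E, hE⟩ : ∃ E : (Fin 2 → A) ≃ₗ[A] (Fin 2 → A),
      ∀ (σ : Gal) (x : Fin 2 → A), E ((r σ).mulVec x) = (r' σ).mulVec (E x) :=
    ⟨e.toLinearEquiv, e.map_apply⟩
  refine ⟨⟨LinearMap.toMatrix' E.toLinearMap, LinearMap.toMatrix' E.symm.toLinearMap, ?_, ?_⟩,
    fun σ => ?_⟩
  · rw [← LinearMap.toMatrix'_comp]; simp
  · rw [← LinearMap.toMatrix'_comp]; simp
  · apply Matrix.toLin'.injective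
    show Matrix.toLin' (LinearMap.toMatrix' E.toLinearMap * r σ) =
      Matrix.toLin' (r' σ * LinearMap.toMatrix' E.toLinearMap)
    rw [Matrix.toLin'_mul, Matrix.toLin'_mul, Matrix.toLin'_toMatrix']
    refine LinearMap.ext fun x => ?_
    simp only [LinearMap.comp_apply, Matrix.toLin'_apply]
    exact hE σ x

/-- A finite quotient bounds the size of families of pairwise inequivalent elements. -/
theorem card_le_of_finite_quotient {X : Type 1} (s : Setoid X) (hfin : Finite (Quotient s)) :
    ∃ N : ℕ, ∀ (ι : Type) [Fintype ι] (F : ι → X),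
      (∀ i j, s.r (F i) (F j) → i = j) → Fintype.card ι ≤ N := by
  refine ⟨Nat.card (Quotient s), fun ι _ F hF => ?_⟩
  rw [← Nat.card_eq_fintype_card]
  refine Nat.card_le_card_of_injective (fun i => Quotient.mk s (F i)) (fun i j hij => ?_)
  exact hF i j (Quotient.exact hij)

/-- The canonical structure map `𝒪 → k[ε]` is a local homomorphism. -/
theorem isLocalHom_algebraMap_dualNumber {𝒪 : Type} [CommRing 𝒪] [IsLocalRing 𝒪] :
    IsLocalHom (algebraMap 𝒪 (DualNumber (ResidueField 𝒪))) := by
  refine ⟨fun a ha => ?_⟩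
  have h1 : IsUnit (TrivSqZeroExt.fst (algebraMap 𝒪 (DualNumber (ResidueField 𝒪)) a)) :=
    TrivSqZeroExt.isUnit_iff_isUnit_fst.1 ha
  have h2 : TrivSqZeroExt.fst (algebraMap 𝒪 (DualNumber (ResidueField 𝒪)) a) = residue 𝒪 a :=
    rfl
  rw [h2] at h1
  exact isUnit_of_map_unit (residue 𝒪) a h1

/-- The canonical `𝒪`-algebra structure on `k[ε]` agrees with the one used in the definition
of `GaloisRep.TangentFinite`. -/
theorem algebra_dualNumber_eq {𝒪 : Type} [CommRing 𝒪] [IsLocalRing 𝒪] :
    (TrivSqZeroExt.algebra' 𝒪 (ResidueField 𝒪) (ResidueField 𝒪) :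
      Algebra 𝒪 (DualNumber (ResidueField 𝒪))) =
    ((algebraMap (ResidueField 𝒪) (DualNumber (ResidueField 𝒪))).comp
      (algebraMap 𝒪 (ResidueField 𝒪))).toAlgebra :=
  Algebra.algebra_ext _ _ (fun _ => rfl)

/-- The map on residue fields induced by `𝒪 → k[ε]` is the composite `k → k[ε] → k[ε]/𝔪` used
in the definition of `GaloisRep.TangentFinite`. -/
theorem residueField_map_dualNumber {𝒪 : Type} [CommRing 𝒪] [IsLocalRing 𝒪]
    [IsLocalHom (algebraMap 𝒪 (DualNumber (ResidueField 𝒪)))] :
    ResidueField.map (algebraMap 𝒪 (DualNumber (ResidueField 𝒪))) =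
      (IsLocalRing.residue (DualNumber (ResidueField 𝒪))).comp
        (algebraMap (ResidueField 𝒪) (DualNumber (ResidueField 𝒪))) := by
  refine RingHom.ext fun x => ?_
  obtain ⟨c, rfl⟩ := residue_surjective x
  rw [ResidueField.map_residue]
  rfl

end Residual

variable {𝒪 : Type} [CommRing 𝒪] [IsLocalRing 𝒪]
  (ρbar : ResidualGaloisRep (ResidueField 𝒪))
  (b : Module.Basis (Fin 2) (ResidueField 𝒪) ρbar.V)

/-- The residual representation of `ofMatrix r` is isomorphic to the base change of `ρbar`
iff `r` is conjugate to a strict lift of the matrix form of `ρbar`. -/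
theorem residual_isEquiv_iff {A : Type} [CommRing A] [IsLocalRing A] [Algebra 𝒪 A]
    [IsLocalHom (algebraMap 𝒪 A)] (r : Gal →* M2 A) (hc : IsCts r) :
    (ofMatrix r hc).residual.IsEquiv
        (ρbar.baseChangeAlong (ResidueField.map (algebraMap 𝒪 A))) ↔
      ∃ r' : Gal →* M2 A, Conj r r' ∧ IsLift (matRep ρbar b) r' := by
  rw [Residual.residual_isEquiv_iff_matrix ρbar b]
  constructor
  · rintro ⟨g, hg⟩
    obtain ⟨G, hG⟩ := Residual.exists_unit_lift g
    refine ⟨Residual.conjRep G r, Residual.conj_conjRep G r, ?_⟩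
    rw [Residual.isLift_iff]
    intro σ
    have hG' : (residue A).mapMatrix (G : M2 A) = (g : M2 (ResidueField A)) := hG
    have h1 : (residue A).mapMatrix (G : M2 A) * (residue A).mapMatrix (↑G⁻¹ : M2 A) = 1 := by
      rw [← map_mul, Units.mul_inv, map_one]
    show (residue A).mapMatrix ((G : M2 A) * r σ * (↑G⁻¹ : M2 A)) = _
    rw [map_mul, map_mul, hG']
    have h2 : (g : M2 (ResidueField A)) * (residue A).mapMatrix (r σ) =
        (matRep ρbar b σ).map (ResidueField.map (algebraMap 𝒪 A)) *
          (g : M2 (ResidueField A)) := hg σ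
    rw [h2, mul_assoc, ← hG', h1, mul_one]
  · rintro ⟨r', ⟨G, hG⟩, hlift⟩
    rw [Residual.isLift_iff] at hlift
    refine ⟨Units.map ((residue A).mapMatrix : M2 A →+* M2 (ResidueField A)).toMonoidHom G,
      fun σ => ?_⟩
    have h := congrArg ((residue A).mapMatrix : M2 A →+* M2 (ResidueField A)) (hG σ)
    rw [map_mul, map_mul] at h
    rw [← hlift σ]
    exact h

variable (𝒟 : ∀ ⦃A : Type⦄ [CommRing A] [IsLocalRing A] [Algebra 𝒪 A], GaloisRepAdic A → Prop)

/-- The base point: the matrix form of `ρbar` over the residue field satisfies `Pm`. -/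
theorem Pm_base (h𝒟 : GaloisRep.IsDeformationCondition 𝒪 𝒟)
    (hbar : 𝒟 (GaloisRepAdic.ofResidualGaloisRep ρbar)) :
    Pm 𝒪 𝒟 (ResidueField 𝒪) (matRep ρbar b) :=
  ⟨inferInstance, Residual.isCts_matRep ρbar b,
    h𝒟.of_isEquiv Residual.isArtinianTestAlgebra_residueField
      (Residual.isEquiv_ofMatrix_matRep ρbar b _) hbar⟩

set_option linter.unusedVariables false in
/-- Tangent finiteness in matrix terms (over `DualNumber k` with its canonical
`𝒪`-algebra structure). -/
theorem Pm_tangent (h𝒟 : GaloisRep.IsDeformationCondition 𝒪 𝒟)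
    (hfin : GaloisRep.TangentFinite 𝒪 ρbar 𝒟) :
    ∃ N : ℕ, ∀ (ι : Type) [Fintype ι]
      (f : ι → (Gal →* M2 (DualNumber (ResidueField 𝒪)))),
      (∀ i, IsLift (matRep ρbar b) (f i)) →
      (∀ i, Pm 𝒪 𝒟 (DualNumber (ResidueField 𝒪)) (f i)) →
      (∀ i j, Conj (f i) (f j) → i = j) → Fintype.card ι ≤ N := by
  -- `hfin` unfolds to the finiteness of a quotient of the type of deformations over `k[ε]`
  obtain ⟨N, hN⟩ := Residual.card_le_of_finite_quotient _ hfin
  refine ⟨N, fun ι _ f hlift hP hinj => ?_⟩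
  have hP' : ∀ i, ∃ hc : IsCts (f i), 𝒟 (ofMatrix (f i) hc) := fun i => by
    obtain ⟨_, hc, h⟩ := hP i
    exact ⟨hc, h⟩
  choose hc hcond using hP'
  have hloc : IsLocalHom (algebraMap 𝒪 (DualNumber (ResidueField 𝒪))) :=
    Residual.isLocalHom_algebraMap_dualNumber
  -- the residual condition, for the `k`-algebra structure on the residue field of `k[ε]` used
  -- in `GaloisRep.TangentFinite`
  have hres : ∀ i, (ofMatrix (f i) (hc i)).residual.IsEquiv
      (ρbar.baseChangeAlong ((IsLocalRing.residue (DualNumber (ResidueField 𝒪))).comp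
        (algebraMap (ResidueField 𝒪) (DualNumber (ResidueField 𝒪))))) := fun i => by
    rw [← Residual.residueField_map_dualNumber]
    exact (residual_isEquiv_iff ρbar b (f i) (hc i)).2 ⟨f i, Conj.refl _, hlift i⟩
  -- the condition `𝒟`, for the `𝒪`-algebra structure on `k[ε]` used in
  -- `GaloisRep.TangentFinite`
  refine hN ι (fun i => ⟨ofMatrix (f i) (hc i),
    (Residual.algebra_dualNumber_eq (𝒪 := 𝒪)) ▸ hcond i, hres i⟩)
    (fun i j hij => hinj i j ?_)
  exact Residual.conj_of_isEquiv_ofMatrix (f i) (f j) (hc i) (hc j) hij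

end Fermat.Agent.S53
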