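import Fermat.Agent.S53.TestAlg
import Fermat.Agent.S53.Burnside
import Fermat.Agent.S53.Residual

/-!
# S53 / WP-C: the concrete condition `Pm 𝒪 𝒟` satisfies the abstract requirements `IsDef`

Given a deformation condition `𝒟` (in the sense of `GaloisRep.IsDeformationCondition`), the
matrix condition `Pm 𝒪 𝒟` ("`A` is local, `r` is adically continuous and `ofMatrix r` satisfies
`𝒟`") is invariant under conjugation, stable under push-forward, descends along injections and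
glues over fibre products over the residue field.  Together with the base point, tangent
finiteness and Burnside's theorem (from the other work packages) this gives
`IsDef (matRep ρbar b) (Pm 𝒪 𝒟)`.
-/

set_option autoImplicit false

namespace Fermat.Agent.S53

open IsLocalRing

namespace IsDefPm

section General

variable {𝒪 : Type} [CommRing 𝒪] [IsLocalRing 𝒪]

/-- An `𝒪`-algebra map between test algebras is a local homomorphism. -/
theorem isLocalHom_of_isTest {A B : Type} [CommRing A] [Algebra 𝒪 A] [CommRing B] [Algebra 𝒪 B]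
    (hA : IsTest 𝒪 A) (hB : IsTest 𝒪 B) (φ : A →ₐ[𝒪] B) :
    IsLocalHom (φ : A →+* B) :=
  ⟨fun a ha => by
    by_contra hna
    exact IsTest.not_isUnit_map hA hB φ a hna ha⟩

/-- The maximal ideal of a test algebra is nilpotent. -/
theorem exists_maximalIdeal_pow {A : Type} [CommRing A] [Algebra 𝒪 A] [IsLocalRing A]
    (hA : IsTest 𝒪 A) : ∃ n : ℕ, maximalIdeal A ^ n = ⊥ := by
  obtain ⟨n, hn⟩ := hA.exists_nilradical_pow
  exact ⟨n, by rw [← hA.nilradical_eq_maximalIdeal]; exact hn⟩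

/-- An `𝒪`-algebra map from a test algebra to the residue field of `𝒪` sends
`x = c + (nilpotent)` to the residue of `c`. -/
theorem algHom_resK_apply {F : Type} [CommRing F] [Algebra 𝒪 F]
    (χ : F →ₐ[𝒪] ResidueField 𝒪) (x : F) (c : 𝒪) (hnil : IsNilpotent (x - algebraMap 𝒪 F c)) :
    χ x = algebraMap 𝒪 (ResidueField 𝒪) c := by
  have h0 : χ (x - algebraMap 𝒪 F c) = 0 := (hnil.map χ).eq_zero
  rw [map_sub, AlgHom.commutes, sub_eq_zero] at h0
  exact h0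

/-- Any two `𝒪`-algebra maps from a test algebra to the residue field of `𝒪` agree. -/
theorem algHom_resK_eq {F : Type} [CommRing F] [Algebra 𝒪 F] (hF : IsTest 𝒪 F)
    (φ ψ : F →ₐ[𝒪] ResidueField 𝒪) : φ = ψ := by
  ext x
  obtain ⟨c, hc⟩ := hF.exists_sub_nilpotent x
  rw [algHom_resK_apply φ x c hc, algHom_resK_apply ψ x c hc]

end General

section Fields

variable {𝒪 : Type} [CommRing 𝒪] [IsLocalRing 𝒪]
variable (𝒟 : ∀ ⦃A : Type⦄ [CommRing A] [IsLocalRing A] [Algebra 𝒪 A], GaloisRepAdic A → Prop)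

omit [IsLocalRing 𝒪] in
/-- `Pm` is invariant under conjugation. -/
theorem Pm_conj (h𝒟 : GaloisRep.IsDeformationCondition 𝒪 𝒟)
    {A : Type} [CommRing A] [Algebra 𝒪 A] (hA : IsTest 𝒪 A)
    (r r' : Gal →* M2 A) (hconj : Conj r r') (h : Pm 𝒪 𝒟 A r) : Pm 𝒪 𝒟 A r' := by
  obtain ⟨hloc, hc, hD⟩ := h
  obtain ⟨_, hA'⟩ := hA
  have hc' : IsCts r' := IsCts.of_conj hconj hc
  exact ⟨hloc, hc', h𝒟.of_isEquiv hA' ((isEquiv_ofMatrix_iff r r' hc hc').2 hconj) hD⟩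

/-- `Pm` is stable under push-forward along algebra maps of test algebras. -/
theorem Pm_map (h𝒟 : GaloisRep.IsDeformationCondition 𝒪 𝒟)
    {A B : Type} [CommRing A] [Algebra 𝒪 A] [CommRing B] [Algebra 𝒪 B]
    (hA : IsTest 𝒪 A) (hB : IsTest 𝒪 B) (φ : A →ₐ[𝒪] B) (r : Gal →* M2 A)
    (h : Pm 𝒪 𝒟 A r) : Pm 𝒪 𝒟 B (mapRep (φ : A →+* B) r) := by
  obtain ⟨hlocA, hc, hD⟩ := h
  have hloc : IsLocalHom (φ : A →+* B) := isLocalHom_of_isTest hA hB φ
  obtain ⟨_, hA'⟩ := hA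
  obtain ⟨hlocB, hB'⟩ := hB
  have hc' : IsCts (mapRep (φ : A →+* B) r) := hc.map _ hloc
  exact ⟨hlocB, hc', h𝒟.of_isEquiv hB' (baseChangeAlong_ofMatrix _ hloc r hc hc')
    (h𝒟.baseChangeAlong hA' hB' φ hloc hD)⟩

/-- `Pm` descends along injective algebra maps of test algebras. -/
theorem Pm_descend (h𝒟 : GaloisRep.IsDeformationCondition 𝒪 𝒟)
    {A B : Type} [CommRing A] [Algebra 𝒪 A] [CommRing B] [Algebra 𝒪 B]
    (hA : IsTest 𝒪 A) (hB : IsTest 𝒪 B) (φ : A →ₐ[𝒪] B) (hinj : Function.Injective φ)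
    (r : Gal →* M2 A) (h : Pm 𝒪 𝒟 B (mapRep (φ : A →+* B) r)) : Pm 𝒪 𝒟 A r := by
  obtain ⟨hlocB, hc', hD⟩ := h
  have hloc : IsLocalHom (φ : A →+* B) := isLocalHom_of_isTest hA hB φ
  have hmax : ∃ n : ℕ, maximalIdeal B ^ n = ⊥ := exists_maximalIdeal_pow hB
  obtain ⟨hlocA, hA'⟩ := hA
  obtain ⟨_, hB'⟩ := hB
  have hc : IsCts r := IsCts.of_map (φ : A →+* B) hinj hmax hc'
  exact ⟨hlocA, hc, h𝒟.of_baseChangeAlong_injective hA' hB' φ hloc hinj
    (h𝒟.of_isEquiv hB' (isEquiv_symm (baseChangeAlong_ofMatrix _ hloc r hc hc')) hD)⟩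

/-- `Pm` glues over fibre products over the residue field. -/
theorem Pm_fib (h𝒟 : GaloisRep.IsDeformationCondition 𝒪 𝒟)
    {A B F : Type} [CommRing A] [Algebra 𝒪 A] [CommRing B] [Algebra 𝒪 B]
    [CommRing F] [Algebra 𝒪 F] (hA : IsTest 𝒪 A) (hB : IsTest 𝒪 B) (hF : IsTest 𝒪 F)
    (pA : F →ₐ[𝒪] A) (pB : F →ₐ[𝒪] B)
    (hinj : Function.Injective (fun x : F => (pA x, pB x)))
    (hsurj : ∀ (a : A) (b : B), (∃ c : 𝒪, ¬ IsUnit (a - algebraMap 𝒪 A c) ∧
          ¬ IsUnit (b - algebraMap 𝒪 B c)) → ∃ x : F, pA x = a ∧ pB x = b)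
    (t : Gal →* M2 F) (htA : Pm 𝒪 𝒟 A (mapRep (pA : F →+* A) t))
    (htB : Pm 𝒪 𝒟 B (mapRep (pB : F →+* B) t)) : Pm 𝒪 𝒟 F t := by
  obtain ⟨hlocA, hcA, hDA⟩ := htA
  obtain ⟨hlocB, hcB, hDB⟩ := htB
  -- the projections are local, and the maximal ideals of `A`, `B` are nilpotent
  have hpA : IsLocalHom (pA : F →+* A) := isLocalHom_of_isTest hF hA pA
  have hpB : IsLocalHom (pB : F →+* B) := isLocalHom_of_isTest hF hB pB
  have hmaxA : ∃ n : ℕ, maximalIdeal A ^ n = ⊥ := exists_maximalIdeal_pow hA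
  have hmaxB : ∃ n : ℕ, maximalIdeal B ^ n = ⊥ := exists_maximalIdeal_pow hB
  -- the residue maps to `k = ResidueField 𝒪`, which agree on `F`
  obtain ⟨εA, hεA⟩ := hA.exists_resK
  obtain ⟨εB, hεB⟩ := hB.exists_resK
  have hcomp : εA.comp pA = εB.comp pB := algHom_resK_eq hF _ _
  obtain ⟨_, hA'⟩ := hA
  obtain ⟨_, hB'⟩ := hB
  obtain ⟨hlocF, hF'⟩ := hF
  obtain ⟨_, hK'⟩ := isTest_residueField (𝒪 := 𝒪)
  -- continuity of `t`
  have hct : IsCts t :=
    IsCts.of_map_prod (pA : F →+* A) (pB : F →+* B) hinj hmaxA hmaxB hcA hcB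
  refine ⟨hlocF, hct, ?_⟩
  refine h𝒟.of_fibreProduct hA' hB' hK' hF' εA εB pA pB hpA hpB hcomp hinj ?_
    (h𝒟.of_isEquiv hA' (isEquiv_symm (baseChangeAlong_ofMatrix _ hpA t hct hcA)) hDA)
    (h𝒟.of_isEquiv hB' (isEquiv_symm (baseChangeAlong_ofMatrix _ hpB t hct hcB)) hDB)
  -- `F` surjects onto the fibre product `A ×ₖ B`
  intro a b hab
  obtain ⟨c, hc⟩ := residue_surjective (εA a)
  have hc' : algebraMap 𝒪 (ResidueField 𝒪) c = εA a := hc
  refine hsurj a b ⟨c, ?_, ?_⟩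
  · rw [← hεA, map_sub, AlgHom.commutes, hc', sub_self]
  · rw [← hεB, map_sub, AlgHom.commutes, hc', hab, sub_self]

end Fields

end IsDefPm

variable {𝒪 : Type} [CommRing 𝒪] [IsLocalRing 𝒪] [Finite (ResidueField 𝒪)]

theorem isDef_Pm (ρbar : ResidualGaloisRep (ResidueField 𝒪))
    (b : Module.Basis (Fin 2) (ResidueField 𝒪) ρbar.V)
    (𝒟 : ∀ ⦃A : Type⦄ [CommRing A] [IsLocalRing A] [Algebra 𝒪 A], GaloisRepAdic A → Prop)
    (habs : ρbar.IsAbsolutelyIrreducible)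
    (h𝒟 : GaloisRep.IsDeformationCondition 𝒪 𝒟)
    (hbar : 𝒟 (GaloisRepAdic.ofResidualGaloisRep ρbar))
    (hfin : GaloisRep.TangentFinite 𝒪 ρbar 𝒟) :
    IsDef (matRep ρbar b) (Pm 𝒪 𝒟) := by
  -- (the finiteness of the residue field is part of the interface; it is not needed here)
  have _hk : Finite (ResidueField 𝒪) := inferInstance
  exact
    { conj := fun _ _ _ hA r r' hconj h => IsDefPm.Pm_conj 𝒟 h𝒟 hA r r' hconj h
      map := fun _ _ _ _ _ _ hA hB φ r h => IsDefPm.Pm_map 𝒟 h𝒟 hA hB φ r h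
      descend := fun _ _ _ _ _ _ hA hB φ hinj r h => IsDefPm.Pm_descend 𝒟 h𝒟 hA hB φ hinj r h
      fib := fun _ _ _ _ _ _ _ _ _ hA hB hF pA pB hinj hsurj t htA htB =>
        IsDefPm.Pm_fib 𝒟 h𝒟 hA hB hF pA pB hinj hsurj t htA htB
      base := Pm_base ρbar b 𝒟 h𝒟 hbar
      tangent := Pm_tangent ρbar b 𝒟 h𝒟 hfin
      burnside := burnside_of_absIrr ρbar habs b }

end Fermat.Agent.S53
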