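import Fermat.Agent.S53.RepBasic

/-!
# S53 / WP-A: dictionary between matrix representations and `GaloisRepAdic`
-/

set_option autoImplicit false

namespace Fermat.Agent.S53

open IsLocalRing

namespace Translate

/-- Entrywise: `φ(M) - 1 = φ(M - 1)`. -/
theorem sub_one_map_apply {A B : Type} [CommRing A] [CommRing B] (φ : A →+* B) (M : M2 A)
    (i j : Fin 2) : (M.map φ - 1) i j = φ ((M - 1) i j) := by
  simp only [Matrix.sub_apply, Matrix.map_apply, Matrix.one_apply, map_sub]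
  split_ifs <;> simp

/-- A local homomorphism maps `𝔪_A ^ n` into `𝔪_B ^ n`. -/
theorem map_maximalIdeal_pow_le {A B : Type} [CommRing A] [IsLocalRing A] [CommRing B]
    [IsLocalRing B] (φ : A →+* B) (hφ : IsLocalHom φ) (n : ℕ) :
    (maximalIdeal A ^ n).map φ ≤ maximalIdeal B ^ n := by
  rw [Ideal.map_pow]
  exact Ideal.pow_right_mono (Ideal.map_le_iff_le_comap.mpr fun a ha =>
    Ideal.mem_comap.mpr (haveI := hφ; map_nonunit φ a ha)) n

/-- The coordinates of an element of `I • ⊤` with respect to a basis lie in `I`. -/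
theorem repr_mem_of_mem_smul_top {A : Type} [CommRing A] {V : Type} [AddCommGroup V]
    [Module A V] (b : Module.Basis (Fin 2) A V) (I : Ideal A) {w : V}
    (hw : w ∈ I • (⊤ : Submodule A V)) (i : Fin 2) : b.repr w i ∈ I := by
  refine Submodule.smul_induction_on (p := fun w => b.repr w i ∈ I) hw ?_ ?_
  · intro a ha v _
    rw [map_smul, Finsupp.smul_apply, smul_eq_mul]
    exact Ideal.mul_mem_right _ _ ha
  · intro x y hx hy
    rw [map_add, Finsupp.add_apply]
    exact Ideal.add_mem _ hx hy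

/-- A matrix representation whose push-forward along an injective ring homomorphism is trivial
at `σ` is trivial at `σ`. -/
theorem eq_one_of_mapRep_eq_one {A B : Type} [CommRing A] [CommRing B] (φ : A →+* B)
    (hinj : Function.Injective φ) {r : Gal →* M2 A} {σ : Gal} (h : mapRep φ r σ = 1) :
    r σ = 1 := by
  ext i j
  apply hinj
  have h3 := congrFun (congrFun h i) j
  rw [mapRep_apply_apply] at h3
  rw [h3, Matrix.one_apply, Matrix.one_apply]
  split_ifs <;> simp

end Translate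

variable {A B : Type} [CommRing A] [IsLocalRing A] [CommRing B] [IsLocalRing B]

theorem isEquiv_refl (ρ : GaloisRepAdic A) : ρ.IsEquiv ρ := ⟨GaloisRepAdic.Equiv.refl ρ⟩

theorem isEquiv_symm {ρ ρ' : GaloisRepAdic A} (h : ρ.IsEquiv ρ') : ρ'.IsEquiv ρ :=
  h.elim fun e => ⟨e.symm⟩

theorem isEquiv_trans {ρ ρ' ρ'' : GaloisRepAdic A} (h : ρ.IsEquiv ρ') (h' : ρ'.IsEquiv ρ'') :
    ρ.IsEquiv ρ'' :=
  h.elim fun e => h'.elim fun e' => ⟨e.trans e'⟩

theorem isEquiv_baseChangeAlong (φ : A →+* B) (hφ : IsLocalHom φ) {ρ ρ' : GaloisRepAdic A}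
    (h : ρ.IsEquiv ρ') : (ρ.baseChangeAlong φ hφ).IsEquiv (ρ'.baseChangeAlong φ hφ) :=
  h.elim fun e => ⟨e.baseChangeAlong φ hφ⟩

/-- Isomorphism of the attached adic representations is conjugacy of matrix representations.
-/
theorem isEquiv_ofMatrix_iff (r r' : Gal →* M2 A) (hc : IsCts r) (hc' : IsCts r') :
    (ofMatrix r hc).IsEquiv (ofMatrix r' hc') ↔ Conj r r' := by
  constructor
  · rintro ⟨e⟩
    let f : (Fin 2 → A) ≃ₗ[A] (Fin 2 → A) := e.toLinearEquiv
    have hf : ∀ (σ : Gal) (v : Fin 2 → A), f ((r σ).mulVec v) = (r' σ).mulVec (f v) :=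
      fun σ v => e.map_apply σ v
    let g : M2 A := LinearMap.toMatrix' (f : (Fin 2 → A) →ₗ[A] (Fin 2 → A))
    let g' : M2 A := LinearMap.toMatrix' (f.symm : (Fin 2 → A) →ₗ[A] (Fin 2 → A))
    have h1 : g * g' = 1 := by
      rw [← LinearMap.toMatrix'_comp, LinearEquiv.comp_coe, LinearEquiv.symm_trans_self,
        LinearEquiv.refl_toLinearMap, LinearMap.toMatrix'_id]
    have h2 : g' * g = 1 := by
      rw [← LinearMap.toMatrix'_comp, LinearEquiv.comp_coe, LinearEquiv.self_trans_symm,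
        LinearEquiv.refl_toLinearMap, LinearMap.toMatrix'_id]
    refine ⟨⟨g, g', h1, h2⟩, fun σ => ?_⟩
    apply Matrix.toLin'.injective
    apply LinearMap.ext
    intro v
    show Matrix.toLin' (g * r σ) v = Matrix.toLin' (r' σ * g) v
    rw [Matrix.toLin'_mul, Matrix.toLin'_mul, LinearMap.comp_apply, LinearMap.comp_apply,
      Matrix.toLin'_toMatrix', Matrix.toLin'_apply, Matrix.toLin'_apply]
    exact hf σ v
  · rintro ⟨g, hg⟩
    have h1 : Matrix.toLin' (g : M2 A) ∘ₗ Matrix.toLin' (↑g⁻¹ : M2 A) = LinearMap.id := by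
      rw [← Matrix.toLin'_mul, Units.mul_inv, Matrix.toLin'_one]
    have h2 : Matrix.toLin' (↑g⁻¹ : M2 A) ∘ₗ Matrix.toLin' (g : M2 A) = LinearMap.id := by
      rw [← Matrix.toLin'_mul, Units.inv_mul, Matrix.toLin'_one]
    let f : (Fin 2 → A) ≃ₗ[A] (Fin 2 → A) :=
      LinearEquiv.ofLinearMap (Matrix.toLin' (g : M2 A)) (Matrix.toLin' (↑g⁻¹ : M2 A)) h1 h2
    have hf : ∀ (σ : Gal) (v : Fin 2 → A), f ((r σ).mulVec v) = (r' σ).mulVec (f v) := by
      intro σ v
      show (g : M2 A).mulVec ((r σ).mulVec v) = (r' σ).mulVec ((g : M2 A).mulVec v)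
      rw [Matrix.mulVec_mulVec, Matrix.mulVec_mulVec, hg σ]
    exact ⟨⟨f, hf⟩⟩

/-- Every adic representation is isomorphic to one coming from a matrix representation. -/
theorem exists_isEquiv_ofMatrix (ρ : GaloisRepAdic A) :
    ∃ (r : Gal →* M2 A) (hc : IsCts r), ρ.IsEquiv (ofMatrix r hc) := by
  let b : Module.Basis (Fin 2) A ρ.V := Module.finBasisOfFinrankEq A ρ.V ρ.finrank_eq
  let r : Gal →* M2 A := (LinearMap.toMatrixAlgEquiv b).toAlgHom.toRingHom.toMonoidHom.comp ρ.ρ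
  have hr : ∀ σ, r σ = LinearMap.toMatrix b b (ρ.ρ σ) := fun σ => rfl
  have hc : IsCts r := by
    intro n
    obtain ⟨L, hL, h⟩ := ρ.isAdicContinuous n
    refine ⟨L, hL, fun σ hσ i j => ?_⟩
    have h1 : (r σ - 1) i j = b.repr (ρ.ρ σ (b j) - b j) i := by
      rw [Matrix.sub_apply, hr, LinearMap.toMatrix_apply, map_sub, Finsupp.sub_apply,
        Matrix.one_apply, Module.Basis.repr_self, Finsupp.single_apply]
      simp only [eq_comm]
    rw [h1]
    exact Translate.repr_mem_of_mem_smul_top b _ (h σ hσ (b j)) i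
  have key : ∀ (σ : Gal) (x : ρ.V), b.equivFun (ρ.ρ σ x) = (r σ).mulVec (b.equivFun x) := by
    intro σ x
    rw [hr]
    exact (LinearMap.toMatrix_mulVec_repr b b (ρ.ρ σ) x).symm
  exact ⟨r, hc, ⟨⟨b.equivFun, key⟩⟩⟩

theorem IsCts.of_conj {r r' : Gal →* M2 A} (h : Conj r r') (hc : IsCts r) : IsCts r' := by
  obtain ⟨g, hg⟩ := h
  intro n
  obtain ⟨L, hL, h⟩ := hc n
  refine ⟨L, hL, fun σ hσ i j => ?_⟩
  have h1 : r' σ - 1 = (g : M2 A) * (r σ - 1) * (↑g⁻¹ : M2 A) := by
    rw [mul_sub, sub_mul, hg σ, mul_one, mul_assoc, Units.mul_inv, mul_one]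
  rw [h1]
  simp only [Matrix.mul_apply]
  exact Ideal.sum_mem _ fun k _ => Ideal.mul_mem_right _ _
    (Ideal.sum_mem _ fun l _ => Ideal.mul_mem_left _ _ (h σ hσ l k))

theorem IsCts.map (φ : A →+* B) (hφ : IsLocalHom φ) {r : Gal →* M2 A} (hc : IsCts r) :
    IsCts (mapRep φ r) := by
  intro n
  obtain ⟨L, hL, h⟩ := hc n
  refine ⟨L, hL, fun σ hσ i j => ?_⟩
  rw [mapRep_apply, Translate.sub_one_map_apply]
  exact Translate.map_maximalIdeal_pow_le φ hφ n (Ideal.mem_map_of_mem φ (h σ hσ i j))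

/-- Over a ring with nilpotent maximal ideal, continuity means factoring through a finite
level. -/
theorem isCts_iff_of_nilpotent {n : ℕ} (hA : maximalIdeal A ^ n = ⊥) (r : Gal →* M2 A) :
    IsCts r ↔ ∃ L : IntermediateField ℚ (AlgebraicClosure ℚ), FiniteDimensional ℚ L ∧
      ∀ σ : Gal, (∀ x ∈ L, σ x = x) → r σ = 1 := by
  constructor
  · intro hc
    obtain ⟨L, hL, h⟩ := hc n
    refine ⟨L, hL, fun σ hσ => ?_⟩
    rw [← sub_eq_zero]
    ext i j
    have := h σ hσ i j
    rw [hA] at this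
    simpa using this
  · rintro ⟨L, hL, h⟩ m
    refine ⟨L, hL, fun σ hσ i j => ?_⟩
    rw [h σ hσ, sub_self]
    exact Ideal.zero_mem _

theorem IsCts.of_map (φ : A →+* B) (hinj : Function.Injective φ)
    (hB : ∃ n : ℕ, maximalIdeal B ^ n = ⊥) {r : Gal →* M2 A} (hc : IsCts (mapRep φ r)) :
    IsCts r := by
  obtain ⟨n, hn⟩ := hB
  obtain ⟨L, hL, h⟩ := (isCts_iff_of_nilpotent hn _).1 hc
  intro m
  refine ⟨L, hL, fun σ hσ i j => ?_⟩
  rw [Translate.eq_one_of_mapRep_eq_one φ hinj (h σ hσ), sub_self]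
  exact Ideal.zero_mem _

/-- Joint version: continuity can be checked after two jointly injective maps to rings with
nilpotent maximal ideals. -/
theorem IsCts.of_map_prod {F : Type} [CommRing F] [IsLocalRing F] (pA : F →+* A)
    (pB : F →+* B) (hinj : Function.Injective (fun x : F => (pA x, pB x)))
    (hA : ∃ n : ℕ, maximalIdeal A ^ n = ⊥) (hB : ∃ n : ℕ, maximalIdeal B ^ n = ⊥)
    {t : Gal →* M2 F} (hcA : IsCts (mapRep pA t))
    (hcB : IsCts (mapRep pB t)) : IsCts t := by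
  obtain ⟨n, hn⟩ := hA
  obtain ⟨n', hn'⟩ := hB
  obtain ⟨L, hL, h⟩ := (isCts_iff_of_nilpotent hn _).1 hcA
  obtain ⟨L', hL', h'⟩ := (isCts_iff_of_nilpotent hn' _).1 hcB
  intro m
  have hfin : FiniteDimensional ℚ (L ⊔ L' : IntermediateField ℚ (AlgebraicClosure ℚ)) :=
    IntermediateField.finiteDimensional_sup L L'
  refine ⟨L ⊔ L', hfin, fun σ hσ i j => ?_⟩
  have h1 : t σ = 1 := by
    have h2 := h σ (fun x hx => hσ x ((le_sup_left : L ≤ L ⊔ L') hx))
    have h2' := h' σ (fun x hx => hσ x ((le_sup_right : L' ≤ L ⊔ L') hx))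
    ext i j
    apply hinj
    have h3 := congrFun (congrFun h2 i) j
    have h3' := congrFun (congrFun h2' i) j
    rw [mapRep_apply_apply] at h3 h3'
    simp only [Prod.mk.injEq]
    rw [h3, h3', Matrix.one_apply, Matrix.one_apply, Matrix.one_apply]
    split_ifs <;> simp
  rw [h1, sub_self]
  exact Ideal.zero_mem _

open scoped TensorProduct in
/-- Base change of `ofMatrix r` along `φ` is `ofMatrix (mapRep φ r)`. -/
theorem baseChangeAlong_ofMatrix (φ : A →+* B) (hφ : IsLocalHom φ) (r : Gal →* M2 A)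
    (hc : IsCts r) (hc' : IsCts (mapRep φ r)) :
    ((ofMatrix r hc).baseChangeAlong φ hφ).IsEquiv
      (ofMatrix (mapRep φ r) hc') := by
  let _ : Algebra A B := φ.toAlgebra
  let e : B ⊗[A] (Fin 2 → A) ≃ₗ[B] (Fin 2 → B) := TensorProduct.piScalarRight A B B (Fin 2)
  have he : ∀ (b : B) (v : Fin 2 → A), e (b ⊗ₜ[A] v) = fun j => φ (v j) * b := by
    intro b v
    rw [TensorProduct.piScalarRight_apply, TensorProduct.piScalarRightHom_tmul]
    rfl
  have key : ∀ (σ : Gal) (x : B ⊗[A] (Fin 2 → A)),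
      e ((toEnd A (r σ)).baseChange B x) = ((mapRep φ r) σ).mulVec (e x) := by
    intro σ x
    induction x using TensorProduct.induction_on with
    | zero => simp only [map_zero, Matrix.mulVec_zero]
    | tmul b v =>
      rw [LinearMap.baseChange_tmul, he, he]
      funext i
      simp only [toEnd_apply, Matrix.mulVec, dotProduct, mapRep_apply_apply,
        map_sum, map_mul, Finset.sum_mul, mul_assoc]
    | add x y hx hy => simp only [map_add, hx, hy, Matrix.mulVec_add]
  exact ⟨⟨e, key⟩⟩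

end Fermat.Agent.S53
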