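import Fermat.Agent.S53.TestAlg
import Fermat.Agent.S53.Translate

/-!
# S53 / WP-H1: the limit representation over the pro-ring of a universal tower
-/

set_option autoImplicit false
set_option linter.unusedSectionVars false

namespace Fermat.Agent.S53

open IsLocalRing

namespace LimRep

section Sep

variable {𝒪 : Type} [CommRing 𝒪]

/-- The kernel of `p n` is the power `𝔪 ^ (n + 1)` of the maximal ideal. -/
theorem mem_pow_of_p_eq_zero {T : Tower 𝒪} (Rg : ProRing T) {n : ℕ} {z : Rg.R}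
    (h : Rg.p n z = 0) : z ∈ maximalIdeal Rg.R ^ (n + 1) := by
  have h1 : z ∈ RingHom.ker (Rg.p n : Rg.R →+* T.U n) := h
  rwa [Rg.ker_p n] at h1

/-- The projections of a pro-ring jointly separate points. -/
theorem eq_of_forall_p_eq {T : Tower 𝒪} (Rg : ProRing T) {x y : Rg.R}
    (h : ∀ n, Rg.p n x = Rg.p n y) : x = y := by
  have hmem : ∀ n : ℕ, x - y ∈ maximalIdeal Rg.R ^ n := by
    intro n
    have h0 : Rg.p n (x - y) = 0 := by rw [map_sub, h n, sub_self]
    exact Ideal.pow_le_pow_right (Nat.le_succ n) (mem_pow_of_p_eq_zero Rg h0)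
  have hbot : (⨅ i : ℕ, maximalIdeal Rg.R ^ i) = ⊥ :=
    Ideal.iInf_pow_eq_bot_of_isLocalRing _ (IsLocalRing.maximalIdeal.isMaximal _).ne_top
  have h2 : x - y ∈ (⊥ : Ideal Rg.R) := by
    rw [← hbot]
    exact (Ideal.mem_iInf).2 hmem
  exact sub_eq_zero.1 ((Ideal.mem_bot).1 h2)

/-- Matrix version: two matrices over the pro-ring with equal images at all levels are equal.
-/
theorem matrix_eq_of_forall_map_eq {T : Tower 𝒪} (Rg : ProRing T) {M N : M2 Rg.R}
    (h : ∀ n, M.map (Rg.p n) = N.map (Rg.p n)) : M = N := by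
  ext i j
  apply eq_of_forall_p_eq Rg
  intro n
  have := congrArg (fun X : M2 (T.U n) => X i j) (h n)
  simpa using this

end Sep

end LimRep

variable {𝒪 : Type} [CommRing 𝒪] [IsLocalRing 𝒪] [Finite (ResidueField 𝒪)]
variable {rbar : Gal →* M2 (ResidueField 𝒪)}

/-- The compatible system `T.r n` glues to a matrix representation over the limit ring. -/
theorem exists_limRep {P : MCond 𝒪} (T : UnivTower rbar P) (Rg : ProRing T.toTower) :
    ∃ rR : Gal →* M2 Rg.R, ∀ n, mapRep (Rg.p n : Rg.R →+* T.U n) rR = T.r n := by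
  classical
  have hcompat : ∀ (σ : Gal) (i j : Fin 2) (n : ℕ),
      T.π n (T.r (n + 1) σ i j) = T.r n σ i j := by
    intro σ i j n
    have := congrArg (fun t : Gal →* M2 (T.U n) => t σ i j) (T.compat n)
    simpa [mapRep_apply_apply] using this
  choose f hf using fun (σ : Gal) (i j : Fin 2) =>
    Rg.lift (fun n => T.r n σ i j) (hcompat σ i j)
  have hmap : ∀ (σ : Gal) (n : ℕ),
      (Matrix.of (f σ) : M2 Rg.R).map (Rg.p n) = T.r n σ := by
    intro σ n
    ext i j
    exact hf σ i j n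
  refine ⟨{ toFun := fun σ => Matrix.of (f σ), map_one' := ?_, map_mul' := ?_ }, ?_⟩
  · apply LimRep.matrix_eq_of_forall_map_eq Rg
    intro n
    rw [hmap, map_one, Matrix.map_one _ (map_zero _) (map_one _)]
  · intro σ τ
    apply LimRep.matrix_eq_of_forall_map_eq Rg
    intro n
    rw [hmap, Matrix.map_mul, hmap, hmap, map_mul]
  · intro n
    ext σ i j
    exact hf σ i j n

theorem limRep_isLift {P : MCond 𝒪} (T : UnivTower rbar P) (Rg : ProRing T.toTower)
    (rR : Gal →* M2 Rg.R) (h : ∀ n, mapRep (Rg.p n : Rg.R →+* T.U n) rR = T.r n) :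
    IsLift rbar rR := by
  have h0 : IsLift rbar (mapRep (Rg.p 0 : Rg.R →+* T.U 0) rR) := by
    rw [h 0]
    exact (T.isUniv 0).isLift
  exact IsLift.of_map (Rg.p 0) h0

variable {𝒟 : ∀ ⦃A : Type⦄ [CommRing A] [IsLocalRing A] [Algebra 𝒪 A], GaloisRepAdic A → Prop}

theorem limRep_isCts (T : UnivTower rbar (Pm 𝒪 𝒟)) (Rg : ProRing T.toTower)
    (rR : Gal →* M2 Rg.R) (h : ∀ n, mapRep (Rg.p n : Rg.R →+* T.U n) rR = T.r n) :
    IsCts rR := by
  intro n
  obtain ⟨hloc, hcn, -⟩ := (T.isUniv n).cond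
  have := hloc
  have hnil : maximalIdeal (T.U n) ^ (n + 1) = ⊥ := by
    rw [← (T.isUniv n).isTest.nilradical_eq_maximalIdeal]
    exact (T.isUniv n).nil
  obtain ⟨L, hL, hL1⟩ := (isCts_iff_of_nilpotent hnil (T.r n)).1 hcn
  refine ⟨L, hL, fun σ hσ i j => ?_⟩
  have h1 : T.r n σ = 1 := hL1 σ hσ
  have h2 : Rg.p n ((rR σ - 1) i j) = 0 := by
    have h3 : Rg.p n (rR σ i j) = T.r n σ i j := by
      have := congrArg (fun t : Gal →* M2 (T.U n) => t σ i j) (h n)
      simpa [mapRep_apply_apply] using this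
    rw [Matrix.sub_apply, map_sub, h3, h1]
    by_cases hij : i = j
    · subst hij
      simp
    · simp [Matrix.one_apply_ne hij]
  exact Ideal.pow_le_pow_right (Nat.le_succ n) (LimRep.mem_pow_of_p_eq_zero Rg h2)

theorem limRep_cond (h𝒟 : GaloisRep.IsDeformationCondition 𝒪 𝒟)
    (hdef : IsDef rbar (Pm 𝒪 𝒟)) (T : UnivTower rbar (Pm 𝒪 𝒟)) (Rg : ProRing T.toTower)
    (rR : Gal →* M2 Rg.R) (h : ∀ n, mapRep (Rg.p n : Rg.R →+* T.U n) rR = T.r n)
    (hc : IsCts rR) : 𝒟 (ofMatrix rR hc) := by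
  refine (h𝒟.iff_forall_surjective Rg.locHom Rg.res_surj (ofMatrix rR hc)).2 ?_
  intro B _ _ _ hB q hq hqs
  have hBt : IsTest 𝒪 B := ⟨inferInstance, hB⟩
  -- a nilpotency level for `B`
  obtain ⟨m, hm⟩ := hBt.exists_nilradical_pow
  have hmB : maximalIdeal B ^ (m + 1) = ⊥ := by
    rw [← hBt.nilradical_eq_maximalIdeal]
    exact nilradical_pow_eq_bot_of_le (Nat.le_succ m) hm
  -- `q` kills `𝔪_R ^ (m + 1) = ker (p m)`
  have hker : RingHom.ker (Rg.p m).toRingHom ≤ RingHom.ker q.toRingHom := by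
    intro z hz
    have hz' : z ∈ maximalIdeal Rg.R ^ (m + 1) := by
      rw [← Rg.ker_p m]
      exact hz
    have hmap : Ideal.map (q : Rg.R →+* B) (maximalIdeal Rg.R ^ (m + 1)) ≤
        maximalIdeal B ^ (m + 1) := by
      rw [Ideal.map_pow]
      exact Ideal.pow_right_mono (Ideal.map_le_iff_le_comap.mpr fun a ha =>
        Ideal.mem_comap.mpr (haveI := hq; map_nonunit (q : Rg.R →+* B) a ha)) (m + 1)
    have hz2 : (q : Rg.R →+* B) z ∈ maximalIdeal B ^ (m + 1) :=
      hmap (Ideal.mem_map_of_mem _ hz')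
    rw [hmB] at hz2
    exact (Ideal.mem_bot).1 hz2
  -- factor `q` through `p m`
  let q' : T.U m →ₐ[𝒪] B := AlgHom.liftOfSurjective (Rg.p m) (Rg.p_surj m) q hker
  have hq' : q'.comp (Rg.p m) = q := AlgHom.liftOfSurjective_comp _ _ _ _
  have hrep : mapRep (q : Rg.R →+* B) rR = mapRep (q' : T.U m →+* B) (T.r m) := by
    rw [← h m, ← mapRep_comp, ← hq']
    rfl
  obtain ⟨_, hcB, hDB⟩ :=
    hdef.map (T.U m) B (T.isUniv m).isTest hBt q' (T.r m) (T.isUniv m).cond
  have hcq : IsCts (mapRep (q : Rg.R →+* B) rR) := by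
    rw [hrep]
    exact hcB
  have hDq : 𝒟 (ofMatrix (mapRep (q : Rg.R →+* B) rR) hcq) := by
    have : ∀ (s : Gal →* M2 B) (hs : IsCts s), s = mapRep (q' : T.U m →+* B) (T.r m) →
        𝒟 (ofMatrix s hs) := by
      intro s hs hs'
      subst hs'
      exact hDB
    exact this _ hcq hrep
  exact h𝒟.of_isEquiv hB (isEquiv_symm (baseChangeAlong_ofMatrix _ hq rR hc hcq)) hDq

end Fermat.Agent.S53
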