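import Fermat.Agent.S53.Evals

/-!
# S53 / WP-G2: the limit ring of a good tower

Given a noetherian `𝒪`-algebra `Λ`, complete for an ideal `I`, together with compatible
surjections `ev n : Λ → T.U n` onto the levels of a good tower which map `I` onto the
nilradicals, the quotient `Λ ⧸ ⨅ n, ker (ev n)` is a `ProRing` of the tower.

The proof is organised as follows (all auxiliary statements live in the namespace `PR`):

* `PR.exists_limit`: an abstract successive-approximation lemma for a chain of ideals `J n`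
  with `I ^ (n+1) ≤ J n ≤ J (n+1) ⊔ I ^ (n+1)` in an `I`-adically precomplete ring;
* `PR.exists_sub_mem_iInf`: consequently `J n ≤ (⨅ m, J m) ⊔ I ^ (n+1)`;
* `PR.pow_le_ker`, `PR.ker_succ_le`, `PR.ker_le_sup`: the kernels of the `ev n` form such a
  chain;
* `PR.nonempty_proRing_of_pkg`: a ring `R` with surjections `p n : R → T.U n` which are
  compatible, jointly injective, have kernels `IR ^ (n+1)` and lift every compatible family
  is a `ProRing` (it is `IR`-adically complete, local with maximal ideal `IR`, ...).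
-/

set_option autoImplicit false

namespace Fermat.Agent.S53

open IsLocalRing

namespace PR

section Approx

variable {Λ : Type} [CommRing Λ] (I : Ideal Λ) (J : ℕ → Ideal Λ)

/-- Abstract approximation lemma: let `J` be a chain of ideals with
`I ^ (n+1) ≤ J n ≤ J (n+1) ⊔ I ^ (n+1)` in an `I`-adically precomplete ring.  Every sequence `h`
which is coherent modulo the `J (n₀ + k)` has a limit `f`, congruent to `h k` modulo `J (n₀ + k)`
for every `k`, and congruent to `h 0` modulo `I ^ (n₀ + 1)`. -/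
theorem exists_limit [IsPrecomplete I Λ]
    (hJ1 : ∀ n, I ^ (n + 1) ≤ J n)
    (hJ3 : ∀ n, J n ≤ J (n + 1) ⊔ I ^ (n + 1)) (n₀ : ℕ) (h : ℕ → Λ)
    (hh : ∀ k, h (k + 1) - h k ∈ J (n₀ + k)) :
    ∃ f : Λ, (∀ k, f - h k ∈ J (n₀ + k)) ∧ f - h 0 ∈ I ^ (n₀ + 1) := by
  -- the recursion step
  have step : ∀ (k : ℕ) (g : Λ), g - h k ∈ J (n₀ + k) →
      ∃ g' : Λ, g' - h (k + 1) ∈ J (n₀ + (k + 1)) ∧ g' - g ∈ I ^ (n₀ + k + 1) := by
    intro k g hg
    have h1 : h (k + 1) - g ∈ J (n₀ + k) := by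
      have e : h (k + 1) - g = (h (k + 1) - h k) - (g - h k) := by ring
      rw [e]
      exact (J _).sub_mem (hh k) hg
    obtain ⟨j, hj, i, hi, hji⟩ := Submodule.mem_sup.mp (hJ3 _ h1)
    refine ⟨g + i, ?_, ?_⟩
    · have e : g + i - h (k + 1) = -j := by
        have : i = h (k + 1) - g - j := by rw [← hji]; ring
        rw [this]; ring
      rw [e]
      exact (J _).neg_mem hj
    · simpa using hi
  choose! F hF1 hF2 using step
  -- the approximating sequence
  let g : ℕ → Λ := fun k => Nat.rec (h 0) (fun k g => F k g) k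
  have hgs : ∀ k, g (k + 1) = F k (g k) := fun k => rfl
  have hg1 : ∀ k, g k - h k ∈ J (n₀ + k) := by
    intro k
    induction k with
    | zero => simp [g]
    | succ k ih => rw [hgs]; exact hF1 k _ ih
  have hg2 : ∀ k, g (k + 1) - g k ∈ I ^ (n₀ + k + 1) := fun k => by
    rw [hgs]; exact hF2 k _ (hg1 k)
  have hg3 : ∀ m k, g (m + k) - g m ∈ I ^ (n₀ + m + 1) := by
    intro m k
    induction k with
    | zero => simp
    | succ k ih =>
      have e : g (m + (k + 1)) - g m = (g (m + k + 1) - g (m + k)) + (g (m + k) - g m) := by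
        rw [← add_assoc]; ring
      rw [e]
      refine (I ^ (n₀ + m + 1)).add_mem (Ideal.pow_le_pow_right (by omega) (hg2 (m + k))) ih
  -- it is a Cauchy sequence
  have hg4 : ∀ {m n : ℕ}, m ≤ n → g m ≡ g n [SMOD (I ^ m • ⊤ : Submodule Λ Λ)] := by
    intro m n hmn
    obtain ⟨k, rfl⟩ := Nat.exists_eq_add_of_le hmn
    rw [SModEq.sub_mem, smul_eq_mul, Ideal.mul_top]
    have := hg3 m k
    have e : g m - g (m + k) = -(g (m + k) - g m) := by ring
    rw [e]
    exact (I ^ m).neg_mem (Ideal.pow_le_pow_right (by omega) this)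
  obtain ⟨f, hf⟩ := IsPrecomplete.prec' g hg4
  have hf' : ∀ n, f - g n ∈ I ^ n := by
    intro n
    have := hf n
    rw [SModEq.sub_mem, smul_eq_mul, Ideal.mul_top] at this
    have e : f - g n = -(g n - f) := by ring
    rw [e]
    exact (I ^ n).neg_mem this
  refine ⟨f, fun k => ?_, ?_⟩
  · have e : f - h k = (f - g (k + (n₀ + 1))) + (g (k + (n₀ + 1)) - g k) + (g k - h k) := by ring
    rw [e]
    refine (J _).add_mem ((J _).add_mem ?_ ?_) (hg1 k)
    · exact hJ1 (n₀ + k) (Ideal.pow_le_pow_right (by omega) (hf' (k + (n₀ + 1))))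
    · exact hJ1 (n₀ + k) (hg3 k (n₀ + 1))
  · have e : f - h 0 = (f - g (0 + (n₀ + 1))) + (g (0 + (n₀ + 1)) - g 0) := by
      have : g 0 = h 0 := rfl
      rw [this]; ring
    rw [e]
    refine (I ^ (n₀ + 1)).add_mem ?_ ?_
    · exact Ideal.pow_le_pow_right (by omega) (hf' (0 + (n₀ + 1)))
    · exact hg3 0 (n₀ + 1)

/-- In the situation of `exists_limit`, with `J` decreasing: every element of `J n` is
congruent modulo `⨅ m, J m` to an element of `I ^ (n + 1)`. -/
theorem exists_sub_mem_iInf [IsPrecomplete I Λ]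
    (hJ1 : ∀ n, I ^ (n + 1) ≤ J n) (hJ2 : ∀ n, J (n + 1) ≤ J n)
    (hJ3 : ∀ n, J n ≤ J (n + 1) ⊔ I ^ (n + 1)) (n : ℕ) (x : Λ) (hx : x ∈ J n) :
    ∃ s ∈ I ^ (n + 1), x - s ∈ ⨅ m, J m := by
  obtain ⟨f, hf1, hf2⟩ := exists_limit I J hJ1 hJ3 n (fun k => if k = 0 then 0 else x) (by
    intro k
    rcases Nat.eq_zero_or_pos k with rfl | hk
    · simpa using hx
    · have : k ≠ 0 := by omega
      simp [this])
  refine ⟨f, by simpa using hf2, ?_⟩
  rw [Submodule.mem_iInf]
  intro m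
  have h1 := hf1 (m + 1)
  simp only [Nat.add_eq_zero_iff, one_ne_zero, and_false, if_false] at h1
  have h2 : f - x ∈ J m := antitone_nat_of_succ_le hJ2 (by omega : m ≤ n + (m + 1)) h1
  have e : x - f = -(f - x) := by ring
  rw [e]
  exact (J m).neg_mem h2

end Approx

section Ker

variable {𝒪 : Type} [CommRing 𝒪] (T : Tower 𝒪)
  {Λ : Type} [CommRing Λ] [Algebra 𝒪 Λ] (I : Ideal Λ) (ev : ∀ n, Λ →ₐ[𝒪] T.U n)

theorem pow_le_ker (hnil : ∀ n, nilradical (T.U n) ^ (n + 1) = ⊥)
    (hI : ∀ n, Ideal.map (ev n : Λ →+* T.U n) I = nilradical (T.U n)) (n : ℕ) :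
    I ^ (n + 1) ≤ RingHom.ker (ev n : Λ →+* T.U n) := by
  intro x hx
  rw [RingHom.mem_ker]
  have h1 : (ev n : Λ →+* T.U n) x ∈ Ideal.map (ev n : Λ →+* T.U n) (I ^ (n + 1)) :=
    Ideal.mem_map_of_mem _ hx
  rw [Ideal.map_pow, hI n, hnil n] at h1
  simpa using h1

theorem ker_succ_le (hcompat : ∀ n, (T.π n).comp (ev (n + 1)) = ev n) (n : ℕ) :
    RingHom.ker (ev (n + 1) : Λ →+* T.U (n + 1)) ≤ RingHom.ker (ev n : Λ →+* T.U n) := by
  intro x hx
  have hx' : ev (n + 1) x = 0 := hx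
  show ev n x = 0
  have e : ev n x = T.π n (ev (n + 1) x) := by rw [← hcompat n]; rfl
  rw [e, hx', map_zero]

theorem ker_le_sup (hsurj : ∀ n, Function.Surjective (ev n))
    (hcompat : ∀ n, (T.π n).comp (ev (n + 1)) = ev n)
    (hker : ∀ n, RingHom.ker (T.π n : T.U (n + 1) →+* T.U n) = nilradical (T.U (n + 1)) ^ (n + 1))
    (hI : ∀ n, Ideal.map (ev n : Λ →+* T.U n) I = nilradical (T.U n)) (n : ℕ) :
    RingHom.ker (ev n : Λ →+* T.U n) ≤
      RingHom.ker (ev (n + 1) : Λ →+* T.U (n + 1)) ⊔ I ^ (n + 1) := by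
  intro x hx
  have hx' : ev n x = 0 := hx
  have h1 : (ev (n + 1) : Λ →+* T.U (n + 1)) x ∈
      RingHom.ker (T.π n : T.U (n + 1) →+* T.U n) := by
    rw [RingHom.mem_ker]
    show T.π n (ev (n + 1) x) = 0
    rw [← hx', ← hcompat n]; rfl
  rw [hker n, ← hI (n + 1), ← Ideal.map_pow] at h1
  obtain ⟨s, hs, hsx⟩ := (Ideal.mem_map_iff_of_surjective _ (hsurj (n + 1))).mp h1
  have e : x = (x - s) + s := by ring
  rw [e]
  refine Submodule.add_mem_sup ?_ hs
  have hsx' : ev (n + 1) s = ev (n + 1) x := hsx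
  show ev (n + 1) (x - s) = 0
  rw [map_sub, hsx', sub_self]

end Ker

section Pkg

variable {𝒪 : Type} [CommRing 𝒪]

/-- A test algebra with vanishing nilradical is a field. -/
theorem maximalIdeal_eq_bot_of_isTest {A : Type} [CommRing A] [IsLocalRing A] [Algebra 𝒪 A]
    (hA : GaloisRep.IsArtinianTestAlgebra 𝒪 A) (hnil : nilradical A ^ (0 + 1) = ⊥) :
    maximalIdeal A = ⊥ := by
  have := hA.isArtinian
  have : IsReduced A := nilradical_eq_bot_iff.mp (by simpa using hnil)
  exact isField_iff_maximalIdeal_eq.mp (IsArtinianRing.isField_of_isReduced_of_isLocalRing A)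

/-- Packaging: a noetherian `𝒪`-algebra `R` with an ideal `IR` and compatible, jointly
injective surjections `p n : R → T.U n` with kernels `IR ^ (n + 1)`, through which every
compatible family lifts, is a `ProRing` of the tower `T` (provided `T.U 0` is a reduced test
algebra). -/
theorem nonempty_proRing_of_pkg (T : Tower 𝒪) (hT0 : IsTest 𝒪 (T.U 0))
    (hnil0 : nilradical (T.U 0) ^ (0 + 1) = ⊥)
    (R : Type) [CommRing R] [IsNoetherianRing R] [Algebra 𝒪 R] (IR : Ideal R)
    (p : ∀ n, R →ₐ[𝒪] T.U n) (hsurj : ∀ n, Function.Surjective (p n))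
    (hcompat : ∀ n, (T.π n).comp (p (n + 1)) = p n)
    (hker : ∀ n, RingHom.ker (p n : R →+* T.U n) = IR ^ (n + 1))
    (hinj : ∀ z : R, (∀ n, p n z = 0) → z = 0)
    (hlift : ∀ x : (∀ n, T.U n), (∀ n, T.π n (x (n + 1)) = x n) → ∃ y : R, ∀ n, p n y = x n) :
    Nonempty (ProRing T) := by
  obtain ⟨hloc0, hA0⟩ := hT0
  have := hloc0
  have hmax0 : maximalIdeal (T.U 0) = ⊥ := maximalIdeal_eq_bot_of_isTest hA0 hnil0
  have hmem : ∀ (n : ℕ) (z : R), z ∈ IR ^ (n + 1) ↔ p n z = 0 := by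
    intro n z
    rw [← hker n, RingHom.mem_ker]; rfl
  -- `R` is `IR`-adically Hausdorff
  have hH : IsHausdorff IR R := by
    refine ⟨fun z hz => hinj z fun n => ?_⟩
    have := hz (n + 1)
    rw [SModEq.sub_mem, smul_eq_mul, Ideal.mul_top, sub_zero] at this
    exact (hmem n z).mp this
  -- `R` is `IR`-adically precomplete
  have hP : IsPrecomplete IR R := by
    refine ⟨fun z hz => ?_⟩
    have hz' : ∀ {m n : ℕ}, m ≤ n → z m - z n ∈ IR ^ m := by
      intro m n hmn
      have := hz hmn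
      rwa [SModEq.sub_mem, smul_eq_mul, Ideal.mul_top] at this
    obtain ⟨L, hL⟩ := hlift (fun n => p n (z (n + 1))) (by
      intro n
      have h1 : T.π n (p (n + 1) (z (n + 1 + 1))) = p n (z (n + 1 + 1)) := by
        rw [← hcompat n]; rfl
      rw [h1]
      have h2 := (hmem n _).mp (hz' (Nat.le_succ (n + 1)))
      rw [map_sub, sub_eq_zero] at h2
      exact h2.symm)
    refine ⟨L, fun n => ?_⟩
    rw [SModEq.sub_mem, smul_eq_mul, Ideal.mul_top]
    cases n with
    | zero => simp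
    | succ n => rw [hmem n, map_sub, hL n, sub_self]
  have hC : IsAdicComplete IR R := {}
  -- `IR` is a maximal ideal
  have hIRmax : IR.IsMaximal := by
    have h1 : IR = Ideal.comap (p 0 : R →+* T.U 0) (maximalIdeal (T.U 0)) := by
      rw [hmax0, ← RingHom.ker_eq_comap_bot, hker 0]; simp
    rw [h1]
    exact Ideal.comap_isMaximal_of_surjective _ (hsurj 0)
  have hlocR : IsLocalRing R := isLocalRing_of_isAdicComplete_maximal IR
  have hIR : IR = maximalIdeal R := eq_maximalIdeal hIRmax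
  have hcompl : IsAdicComplete (maximalIdeal R) R := hIR ▸ hC
  have hlh : IsLocalHom (algebraMap 𝒪 R) := by
    have := hA0.isLocalHom
    refine ⟨fun c hc => ?_⟩
    have h1 : IsUnit (p 0 (algebraMap 𝒪 R c)) := hc.map (p 0)
    rw [AlgHom.commutes] at h1
    exact isUnit_of_map_unit (algebraMap 𝒪 (T.U 0)) c h1
  refine ⟨{ R := R, res_surj := ?_, p := p, p_surj := hsurj, p_compat := hcompat, ker_p := ?_,
            lift := hlift }⟩
  · intro y
    obtain ⟨z, rfl⟩ := residue_surjective y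
    obtain ⟨c, hc⟩ := hA0.residue_surjective (residue (T.U 0) (p 0 z))
    refine ⟨c, ?_⟩
    have h1 : algebraMap 𝒪 (T.U 0) c - p 0 z ∈ maximalIdeal (T.U 0) :=
      Ideal.Quotient.eq.mp hc
    rw [hmax0, Ideal.mem_bot, sub_eq_zero] at h1
    have h2 : algebraMap 𝒪 R c - z ∈ maximalIdeal R := by
      rw [← hIR, ← pow_one IR]
      exact (hmem 0 _).mpr (by rw [map_sub, AlgHom.commutes, h1, sub_self])
    exact Ideal.Quotient.eq.mpr h2
  · intro n
    rw [hker n, hIR]

end Pkg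

end PR

section Core

variable {𝒪 : Type} [CommRing 𝒪] [IsLocalRing 𝒪] [Finite (ResidueField 𝒪)]

set_option linter.unusedSectionVars false in
/-- Abstract core: a noetherian `𝒪`-algebra `Λ`, complete for an ideal `I`, with compatible
surjections onto the levels of a good tower mapping `I` onto the nilradicals, has a quotient
`Λ ⧸ ⨅ ker` which is a `ProRing` of the tower. -/
theorem nonempty_proRing_of_evals (T : Tower 𝒪) (d : ℕ) (hT : T.IsGood d)
    (Λ : Type) [CommRing Λ] [IsNoetherianRing Λ] [Algebra 𝒪 Λ] (I : Ideal Λ)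
    [IsAdicComplete I Λ]
    (ev : ∀ n, Λ →ₐ[𝒪] T.U n) (hsurj : ∀ n, Function.Surjective (ev n))
    (hcompat : ∀ n, (T.π n).comp (ev (n + 1)) = ev n)
    (hI : ∀ n, Ideal.map (ev n : Λ →+* T.U n) I = nilradical (T.U n)) :
    Nonempty (ProRing T) := by
  -- the chain of kernels
  let J : ℕ → Ideal Λ := fun n => RingHom.ker (ev n : Λ →+* T.U n)
  have hJ1 : ∀ n, I ^ (n + 1) ≤ J n := PR.pow_le_ker T I ev hT.nil hI
  have hJ2 : ∀ n, J (n + 1) ≤ J n := PR.ker_succ_le T ev hcompat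
  have hJ3 : ∀ n, J n ≤ J (n + 1) ⊔ I ^ (n + 1) := PR.ker_le_sup T I ev hsurj hcompat hT.ker hI
  have hmemJ : ∀ n x, x ∈ J n ↔ ev n x = 0 := fun n x => Iff.rfl
  -- the quotient by the intersection of the kernels
  let 𝔟 : Ideal Λ := ⨅ n, J n
  have h𝔟 : ∀ x, x ∈ 𝔟 ↔ ∀ n, ev n x = 0 := by
    intro x
    simp only [𝔟, Submodule.mem_iInf, hmemJ]
  let p : ∀ n, (Λ ⧸ 𝔟) →ₐ[𝒪] T.U n := fun n =>
    Ideal.Quotient.liftₐ 𝔟 (ev n) (fun a ha => (h𝔟 a).mp ha n)
  have hp : ∀ n x, p n (Ideal.Quotient.mk 𝔟 x) = ev n x := fun n x => rfl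
  refine PR.nonempty_proRing_of_pkg T (hT.isTest 0) (hT.nil 0) (Λ ⧸ 𝔟)
    (I.map (Ideal.Quotient.mk 𝔟)) p ?_ ?_ ?_ ?_ ?_
  · -- surjectivity
    intro n u
    obtain ⟨x, rfl⟩ := hsurj n u
    exact ⟨Ideal.Quotient.mk 𝔟 x, hp n x⟩
  · -- compatibility
    intro n
    refine AlgHom.ext fun z => ?_
    obtain ⟨x, rfl⟩ := Ideal.Quotient.mk_surjective z
    show T.π n (p (n + 1) (Ideal.Quotient.mk 𝔟 x)) = p n (Ideal.Quotient.mk 𝔟 x)
    rw [hp, hp, ← hcompat n]; rfl
  · -- the kernels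
    intro n
    ext z
    obtain ⟨x, rfl⟩ := Ideal.Quotient.mk_surjective z
    rw [RingHom.mem_ker, ← Ideal.map_pow,
      Ideal.mem_map_iff_of_surjective _ Ideal.Quotient.mk_surjective]
    show p n (Ideal.Quotient.mk 𝔟 x) = 0 ↔ _
    rw [hp]
    constructor
    · intro hx
      obtain ⟨s, hs, hxs⟩ := PR.exists_sub_mem_iInf I J hJ1 hJ2 hJ3 n x hx
      refine ⟨s, hs, Ideal.Quotient.eq.mpr ?_⟩
      have e : s - x = -(x - s) := by ring
      rw [e]
      exact 𝔟.neg_mem hxs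
    · rintro ⟨s, hs, hsx⟩
      have h1 : s - x ∈ 𝔟 := Ideal.Quotient.eq.mp hsx
      have h2 := (h𝔟 _).mp h1 n
      rw [map_sub, sub_eq_zero] at h2
      rw [← h2]
      exact hJ1 n hs
  · -- joint injectivity
    intro z hz
    obtain ⟨x, rfl⟩ := Ideal.Quotient.mk_surjective z
    exact Ideal.Quotient.eq_zero_iff_mem.mpr ((h𝔟 x).mpr fun n => by rw [← hp]; exact hz n)
  · -- lifting compatible families
    intro x hx
    choose h hh using fun n => hsurj n (x n)
    obtain ⟨f, hf, -⟩ := PR.exists_limit I J hJ1 hJ3 0 h (by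
      intro k
      rw [zero_add, hmemJ, map_sub, sub_eq_zero, hh k, ← hcompat k]
      show T.π k (ev (k + 1) (h (k + 1))) = x k
      rw [hh (k + 1)]
      exact hx k)
    refine ⟨Ideal.Quotient.mk 𝔟 f, fun n => ?_⟩
    rw [hp, ← hh n]
    have := hf n
    rw [zero_add, hmemJ, map_sub, sub_eq_zero] at this
    exact this

end Core

variable {𝒪 : Type} [CommRing 𝒪] [IsDomain 𝒪] [IsDiscreteValuationRing 𝒪]
  [Finite (ResidueField 𝒪)]

theorem nonempty_proRing (T : Tower 𝒪) (d : ℕ) (hT : T.IsGood d) : Nonempty (ProRing T) := by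
  obtain ⟨ev, hsurj, hcompat, hI⟩ := exists_evals T d hT
  exact nonempty_proRing_of_evals T d hT (MvPowerSeries (Fin (d + 1)) 𝒪)
    (Ideal.span (Set.range MvPowerSeries.X)) ev hsurj hcompat hI

end Fermat.Agent.S53
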