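import Fermat.Agent.S53.Minimal

/-!
# S53 / WP-F2: the tower of universal pairs

From the universal pairs `(U n, r₀ n)` at every nil-level `n + 1` (`exists_univ`) we build a
tower: the transition maps `π n : U (n+1) → U n` come from the universal property, they are
surjective with kernel `(nilradical (U (n+1))) ^ (n+1)`, and the representations `r₀ n` are
replaced by conjugates `r n` which are compatible with the transition maps on the nose.
-/

set_option autoImplicit false

namespace Fermat.Agent.S53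

open IsLocalRing

namespace UT

section Basic

variable {𝒪 : Type} [CommRing 𝒪]
variable {A B C : Type} [CommRing A] [Algebra 𝒪 A] [CommRing B] [Algebra 𝒪 B]
  [CommRing C] [Algebra 𝒪 C]

theorem mapRep_algComp (ψ : B →ₐ[𝒪] C) (φ : A →ₐ[𝒪] B) (r : Gal →* M2 A) :
    mapRep ((ψ.comp φ : A →ₐ[𝒪] C) : A →+* C) r =
      mapRep (ψ : B →+* C) (mapRep (φ : A →+* B) r) := by
  ext σ i j; rfl

theorem mapRep_algId (r : Gal →* M2 A) :
    mapRep ((AlgHom.id 𝒪 A : A →ₐ[𝒪] A) : A →+* A) r = r := by
  ext σ i j; rfl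

end Basic

section ConjRep

variable {A B : Type} [CommRing A] [CommRing B]

/-- Conjugation of a matrix representation by an invertible matrix. -/
noncomputable def conjRep (g : (M2 A)ˣ) (r : Gal →* M2 A) : Gal →* M2 A where
  toFun σ := (g : M2 A) * r σ * (↑g⁻¹ : M2 A)
  map_one' := by simp
  map_mul' σ τ := by
    rw [map_mul]
    calc (g : M2 A) * (r σ * r τ) * (↑g⁻¹ : M2 A)
        = (g : M2 A) * r σ * ((↑g⁻¹ : M2 A) * (g : M2 A)) * r τ * (↑g⁻¹ : M2 A) := by
          rw [Units.inv_mul, mul_one]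
          simp only [mul_assoc]
      _ = (g : M2 A) * r σ * (↑g⁻¹ : M2 A) * ((g : M2 A) * r τ * (↑g⁻¹ : M2 A)) := by
          simp only [mul_assoc]

theorem conjRep_apply (g : (M2 A)ˣ) (r : Gal →* M2 A) (σ : Gal) :
    conjRep g r σ = (g : M2 A) * r σ * (↑g⁻¹ : M2 A) := rfl

theorem conj_conjRep (g : (M2 A)ˣ) (r : Gal →* M2 A) : Conj (conjRep g r) r := by
  refine ⟨g⁻¹, fun σ => ?_⟩
  rw [conjRep_apply, ← mul_assoc, ← mul_assoc, Units.inv_mul, one_mul]

end ConjRep

section Lemmas

variable {𝒪 : Type} [CommRing 𝒪] [IsLocalRing 𝒪]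

/-- Lifting a conjugation along a surjection of test algebras: if `π r'` is conjugate to `r`,
then some conjugate `r''` of `r'` satisfies `π r'' = r` on the nose. -/
theorem exists_conj_lift {U U' : Type} [CommRing U] [Algebra 𝒪 U] [CommRing U'] [Algebra 𝒪 U']
    (hU : IsTest 𝒪 U) (hU' : IsTest 𝒪 U') (π : U' →ₐ[𝒪] U) (hπ : Function.Surjective π)
    (r' : Gal →* M2 U') (r : Gal →* M2 U) (h : Conj (mapRep (π : U' →+* U) r') r) :
    ∃ r'' : Gal →* M2 U', Conj r'' r' ∧ mapRep (π : U' →+* U) r'' = r := by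
  obtain ⟨g, hg⟩ := h
  choose f hf using hπ
  -- an entrywise lift of `g`
  have hmap : ((g : M2 U).map f).map π = (g : M2 U) := by
    ext i j
    simp [hf]
  have hunit : IsUnit ((g : M2 U).map f) := by
    rw [Matrix.isUnit_iff_isUnit_det]
    by_contra hdet
    apply hU'.not_isUnit_map hU π _ hdet
    have h1 : π (((g : M2 U).map f).det) = (g : M2 U).det := by
      have := RingHom.map_det (π : U' →+* U) ((g : M2 U).map f)
      rw [RingHom.mapMatrix_apply] at this
      exact this.trans (congrArg Matrix.det hmap)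
    rw [h1]
    exact (Matrix.isUnit_iff_isUnit_det _).1 g.isUnit
  obtain ⟨G, hG⟩ := hunit
  have hGg : Units.map ((π : U' →+* U).mapMatrix : M2 U' →+* M2 U).toMonoidHom G = g := by
    apply Units.ext
    rw [Units.coe_map, hG]
    exact hmap
  refine ⟨conjRep G r', conj_conjRep G r', ?_⟩
  ext1 σ
  have h1 : mapRep (π : U' →+* U) (conjRep G r') σ =
      ((π : U' →+* U).mapMatrix : M2 U' →+* M2 U) ((G : M2 U') * r' σ * (↑G⁻¹ : M2 U')) := rfl
  have h2 : ((π : U' →+* U).mapMatrix : M2 U' →+* M2 U) (G : M2 U') = (g : M2 U) := by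
    rw [← hGg]; rfl
  have h3 : ((π : U' →+* U).mapMatrix : M2 U' →+* M2 U) (↑G⁻¹ : M2 U') = (↑g⁻¹ : M2 U) := by
    rw [← hGg]; rfl
  have h4 : ((π : U' →+* U).mapMatrix : M2 U' →+* M2 U) (r' σ) = mapRep (π : U' →+* U) r' σ :=
    rfl
  rw [h1, map_mul, map_mul, h2, h3, h4, hg σ, mul_assoc, Units.mul_inv, mul_one]

variable {rbar : Gal →* M2 (ResidueField 𝒪)} {P : MCond 𝒪}

/-- Universality is preserved when the representation is replaced by a conjugate strict lift. -/
theorem isUniv_of_conj (hP : IsDef rbar P) {m : ℕ}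
    {U : Type} [CommRing U] [Algebra 𝒪 U] {r r' : Gal →* M2 U} (hU : IsUniv rbar P m U r)
    (hc : Conj r r') (hl : IsLift rbar r') : IsUniv rbar P m U r' where
  isTest := hU.isTest
  nil := hU.nil
  isLift := hl
  cond := hP.conj U hU.isTest r r' hc hU.cond
  univ := by
    intro B _ _ hB hBnil s hs hPs
    obtain ⟨u, hu, huniq⟩ := hU.univ B hB hBnil s hs hPs
    refine ⟨u, ((Conj.map _ hc).symm).trans hu, fun v hv => huniq v ?_⟩
    exact (Conj.map _ hc).trans hv

/-- The kernel of the transition map between universal pairs of consecutive levels. -/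
theorem ker_eq (hP : IsDef rbar P) {n : ℕ}
    {U : Type} [CommRing U] [Algebra 𝒪 U] {r : Gal →* M2 U} (hU : IsUniv rbar P (n + 1) U r)
    {U' : Type} [CommRing U'] [Algebra 𝒪 U'] {r' : Gal →* M2 U'}
    (hU' : IsUniv rbar P (n + 2) U' r')
    (π : U' →ₐ[𝒪] U) (hπ : Conj (mapRep (π : U' →+* U) r') r) :
    RingHom.ker (π : U' →+* U) = nilradical U' ^ (n + 1) := by
  apply le_antisymm
  · -- the quotient by `nilradical U' ^ (n+1)` receives a map from `U`
    have hItop : nilradical U' ^ (n + 1) ≠ ⊤ := by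
      have hloc := hU'.isTest.isLocalRing
      intro h
      have h1 : (1 : U') ∈ nilradical U' := by
        have h2 : (1 : U') ∈ nilradical U' ^ (n + 1) := by rw [h]; trivial
        exact Ideal.pow_le_self (Nat.succ_ne_zero n) h2
      obtain ⟨k, hk⟩ := mem_nilradical.1 h1
      rw [one_pow] at hk
      exact one_ne_zero (α := U') hk
    have hQ : IsTest 𝒪 (U' ⧸ nilradical U' ^ (n + 1)) := hU'.isTest.quotient _ hItop
    have hQnil : nilradical (U' ⧸ nilradical U' ^ (n + 1)) ^ (n + 1) = ⊥ := by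
      rw [← hU'.isTest.map_nilradical hQ (Ideal.Quotient.mkₐ 𝒪 (nilradical U' ^ (n + 1)))
        (Ideal.Quotient.mkₐ_surjective 𝒪 _), ← Ideal.map_pow]
      exact Ideal.map_quotient_self _
    have hq : IsLift rbar (mapRep
        ((Ideal.Quotient.mkₐ 𝒪 (nilradical U' ^ (n + 1)) :
          U' →ₐ[𝒪] U' ⧸ nilradical U' ^ (n + 1)) : U' →+* U' ⧸ nilradical U' ^ (n + 1)) r') :=
      hU'.isLift.map _ (hU'.isTest.not_isUnit_map hQ _)
    have hPq := hP.map U' (U' ⧸ nilradical U' ^ (n + 1)) hU'.isTest hQ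
      (Ideal.Quotient.mkₐ 𝒪 (nilradical U' ^ (n + 1))) r' hU'.cond
    obtain ⟨v, hv, -⟩ := hU.univ _ hQ hQnil _ hq hPq
    obtain ⟨i, -, hi⟩ := hU'.univ _ hQ
      (nilradical_pow_eq_bot_of_le (Nat.le_succ (n + 1)) hQnil) _ hq hPq
    have h1 : v.comp π = i := by
      apply hi
      rw [mapRep_algComp]
      exact (Conj.map _ hπ).trans hv
    have h2 : Ideal.Quotient.mkₐ 𝒪 (nilradical U' ^ (n + 1)) = i := hi _ (Conj.refl _)
    intro x hx
    rw [RingHom.mem_ker] at hx
    have h3 : Ideal.Quotient.mkₐ 𝒪 (nilradical U' ^ (n + 1)) x = 0 := by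
      rw [h2, ← h1]
      change v (π x) = 0
      have hx' : π x = 0 := hx
      rw [hx', map_zero]
    exact Ideal.Quotient.eq_zero_iff_mem.1 h3
  · intro x hx
    rw [RingHom.mem_ker]
    have h1 : Ideal.map (π : U' →+* U) (nilradical U' ^ (n + 1)) ≤ nilradical U ^ (n + 1) := by
      rw [Ideal.map_pow]
      apply Ideal.pow_right_mono
      rw [Ideal.map_le_iff_le_comap]
      intro y hy
      exact mem_nilradical.2 ((mem_nilradical.1 hy).map π)
    have h2 := h1 (Ideal.mem_map_of_mem _ hx)
    rw [hU.nil] at h2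
    simpa using h2

variable [Finite (ResidueField 𝒪)]

/-- A map from a pair `(A, s)` to a universal pair `(U, r)` carrying `s` to a conjugate of `r`
is surjective. -/
theorem surjective_of_conj (hP : IsDef rbar P) {m : ℕ}
    {U : Type} [CommRing U] [Algebra 𝒪 U] {r : Gal →* M2 U} (hU : IsUniv rbar P m U r)
    {A : Type} [CommRing A] [Algebra 𝒪 A] (hA : IsTest 𝒪 A) {s : Gal →* M2 A}
    (hs : IsLift rbar s) (hPs : P A s) (u : A →ₐ[𝒪] U)
    (hu : Conj (mapRep (u : A →+* U) s) r) : Function.Surjective u := by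
  have hE : IsTest 𝒪 u.range := hU.isTest.subalgebra u.range
  have hEnil : nilradical u.range ^ m = ⊥ :=
    nilradical_pow_eq_bot_of_injective (u.range.val : u.range →+* U) Subtype.val_injective hU.nil
  have hs' : IsLift rbar (mapRep (u.rangeRestrict : A →+* u.range) s) :=
    hs.map u.rangeRestrict (hA.not_isUnit_map hE u.rangeRestrict)
  have hPs' : P u.range (mapRep (u.rangeRestrict : A →+* u.range) s) :=
    hP.map A u.range hA hE u.rangeRestrict s hPs
  obtain ⟨w, hw, -⟩ := hU.univ u.range hE hEnil _ hs' hPs'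
  obtain ⟨i, -, hi⟩ := hU.univ U hU.isTest hU.nil r hU.isLift hU.cond
  have h1 : u.range.val.comp w = i := by
    apply hi
    rw [mapRep_algComp]
    refine (Conj.map _ hw).trans ?_
    have h : mapRep (u.range.val : u.range →+* U) (mapRep (u.rangeRestrict : A →+* u.range) s)
        = mapRep (u : A →+* U) s := by
      ext σ i j; rfl
    rw [h]
    exact hu
  have h2 : AlgHom.id 𝒪 U = i := by
    apply hi
    rw [mapRep_algId]
    exact Conj.refl r
  intro x
  have hx : u.range.val (w x) = x := by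
    have := congrArg (fun f : U →ₐ[𝒪] U => f x) (h1.trans h2.symm)
    simpa using this
  obtain ⟨a, ha⟩ := (w x).2
  exact ⟨a, ha.trans hx⟩

end Lemmas

section Assembly

variable {𝒪 : Type} [CommRing 𝒪] [IsLocalRing 𝒪]

/-- A universal pair at nil-level `n` generated by `d` nilpotent elements, bundled. -/
structure Pair (rbar : Gal →* M2 (ResidueField 𝒪)) (P : MCond 𝒪) (d n : ℕ) : Type 1 where
  /-- the underlying ring -/
  U : Type
  /-- its ring structure -/
  cr : CommRing U
  /-- its algebra structure -/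
  alg : Algebra 𝒪 U
  /-- the universal representation -/
  r : Gal →* M2 U
  isUniv : IsUniv rbar P n U r
  gen : ∃ t : Fin d → U, (∀ i, IsNilpotent (t i)) ∧ Algebra.adjoin 𝒪 (Set.range t) = ⊤

attribute [local instance] Pair.cr Pair.alg

variable [Finite (ResidueField 𝒪)]
variable {rbar : Gal →* M2 (ResidueField 𝒪)} {P : MCond 𝒪}

/-- A family of universal pairs at all nil-levels `n + 1` can be organised into a tower. -/
theorem nonempty_of_pairs (hP : IsDef rbar P) {d : ℕ} (p : ∀ n, Pair rbar P d (n + 1)) :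
    Nonempty (UnivTower rbar P) := by
  -- transition maps
  have hπ : ∀ n, ∃ π : (p (n + 1)).U →ₐ[𝒪] (p n).U,
      Conj (mapRep (π : (p (n + 1)).U →+* (p n).U) (p (n + 1)).r) (p n).r := by
    intro n
    obtain ⟨π, hπ, -⟩ := (p (n + 1)).isUniv.univ (p n).U (p n).isUniv.isTest
      (nilradical_pow_eq_bot_of_le (Nat.le_succ (n + 1)) (p n).isUniv.nil) (p n).r
      (p n).isUniv.isLift (p n).isUniv.cond
    exact ⟨π, hπ⟩
  choose π hπ using hπ
  have hsurj : ∀ n, Function.Surjective (π n) := fun n =>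
    surjective_of_conj hP (p n).isUniv (p (n + 1)).isUniv.isTest (p (n + 1)).isUniv.isLift
      (p (n + 1)).isUniv.cond (π n) (hπ n)
  -- strictly compatible representations
  have hstep : ∀ n (x : {r : Gal →* M2 (p n).U // Conj r (p n).r}),
      ∃ y : {r : Gal →* M2 (p (n + 1)).U // Conj r (p (n + 1)).r},
        mapRep (π n : (p (n + 1)).U →+* (p n).U) y.1 = x.1 := by
    intro n x
    obtain ⟨r'', h1, h2⟩ := exists_conj_lift (p n).isUniv.isTest (p (n + 1)).isUniv.isTest (π n)
      (hsurj n) (p (n + 1)).r x.1 ((hπ n).trans x.2.symm)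
    exact ⟨⟨r'', h1⟩, h2⟩
  choose step hstep using hstep
  let R : ∀ n, {r : Gal →* M2 (p n).U // Conj r (p n).r} := fun n =>
    Nat.rec (motive := fun n => {r : Gal →* M2 (p n).U // Conj r (p n).r})
      ⟨(p 0).r, Conj.refl _⟩ step n
  have hR : ∀ n, mapRep (π n : (p (n + 1)).U →+* (p n).U) (R (n + 1)).1 = (R n).1 := fun n =>
    hstep n (R n)
  have hlift : ∀ n, IsLift rbar (R n).1 := by
    intro n
    induction n with
    | zero => exact (p 0).isUniv.isLift
    | succ n ih =>
      apply IsLift.of_map (π n)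
      rw [hR n]
      exact ih
  exact ⟨{ U := fun n => (p n).U
           cr := fun n => (p n).cr
           alg := fun n => (p n).alg
           π := π
           r := fun n => (R n).1
           d := d
           good :=
             { isTest := fun n => (p n).isUniv.isTest
               nil := fun n => (p n).isUniv.nil
               surj := hsurj
               ker := fun n => ker_eq hP (p n).isUniv (p (n + 1)).isUniv (π n) (hπ n)
               gen := fun n => (p n).gen }
           isUniv := fun n => isUniv_of_conj hP (p n).isUniv (R n).2.symm (hlift n)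
           compat := hR }⟩

end Assembly

end UT

variable {𝒪 : Type} [CommRing 𝒪] [IsLocalRing 𝒪] [IsNoetherianRing 𝒪]
  [Finite (ResidueField 𝒪)]

theorem nonempty_univTower (rbar : Gal →* M2 (ResidueField 𝒪)) (P : MCond 𝒪)
    (hP : IsDef rbar P) : Nonempty (UnivTower rbar P) := by
  obtain ⟨d, hd⟩ := exists_univ rbar P hP
  have hne : ∀ n : ℕ, Nonempty (UT.Pair rbar P d (n + 1)) := by
    intro n
    obtain ⟨U, cr, alg, r, hU, hgen⟩ := hd (n + 1) (Nat.succ_pos n)
    exact ⟨{ U := U, cr := cr, alg := alg, r := r, isUniv := hU, gen := hgen }⟩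
  exact UT.nonempty_of_pairs hP fun n => Classical.choice (hne n)

end Fermat.Agent.S53
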