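import Fermat.Agent.S53.RepBasic

/-!
# S53 / WP-L: conjugacy passes to the limit

Over a complete noetherian local ring with finite residue field, two matrix representations
that are conjugate modulo every power of the maximal ideal are conjugate.
-/

set_option autoImplicit false

namespace Fermat.Agent.S53

open IsLocalRing

namespace ConjLimit

/-- A König-type statement: a sequence of nonempty finite types with transition maps
`X (n + 1) → X n` admits a coherent family of elements. -/
theorem exists_coherent (X : ℕ → Type) [∀ n, Finite (X n)] [∀ n, Nonempty (X n)]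
    (f : ∀ n, X (n + 1) → X n) : ∃ x : ∀ n, X n, ∀ n, f n (x (n + 1)) = x n := by
  let F : CategoryTheory.Functor ℕᵒᵖ Type :=
    CategoryTheory.Functor.ofOpSequence (X := X) (fun n => TypeCat.ofHom (f n))
  have hfin : ∀ j : ℕᵒᵖ, Finite (F.obj j) := fun j => inferInstanceAs (Finite (X j.unop))
  have hne : ∀ j : ℕᵒᵖ, Nonempty (F.obj j) := fun j => inferInstanceAs (Nonempty (X j.unop))
  obtain ⟨u, hu⟩ := nonempty_sections_of_finite_inverse_system F
  refine ⟨fun n => u (Opposite.op n), fun n => ?_⟩
  have := hu (CategoryTheory.homOfLE (Nat.le_add_right n 1)).op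
  rw [CategoryTheory.Functor.ofOpSequence_map_homOfLE_succ] at this
  exact this

section

variable {A : Type} [CommRing A]

/-- In a precomplete ring, a family of classes modulo the powers of `I` which is coherent under
the transition maps comes from a single element. -/
theorem exists_lift_of_coherent (I : Ideal A) [IsPrecomplete I A] (c : ∀ n : ℕ, A ⧸ I ^ n)
    (hc : ∀ n : ℕ, Ideal.Quotient.factor (Ideal.pow_le_pow_right (Nat.le_succ n)) (c (n + 1))
      = c n) :
    ∃ L : A, ∀ n : ℕ, Ideal.Quotient.mk (I ^ n) L = c n := by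
  choose a ha using fun n : ℕ => Ideal.Quotient.mk_surjective (c n)
  have hstep : ∀ n : ℕ, a n - a (n + 1) ∈ I ^ n := by
    intro n
    rw [← Ideal.Quotient.eq, ha n, ← hc n, ← ha (n + 1), Ideal.Quotient.factor_mk]
  have hle : ∀ m n : ℕ, m ≤ n → a m - a n ∈ I ^ m := by
    intro m n hmn
    induction n, hmn using Nat.le_induction with
    | base => simp
    | succ n hmn ih =>
      have h1 : a n - a (n + 1) ∈ I ^ m := Ideal.pow_le_pow_right hmn (hstep n)
      have h2 : a m - a (n + 1) = (a m - a n) + (a n - a (n + 1)) := by ring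
      rw [h2]
      exact Ideal.add_mem _ ih h1
  obtain ⟨L, hL⟩ := IsPrecomplete.prec' (I := I) a (by
    intro m n hmn
    rw [SModEq.sub_mem, smul_eq_mul, Ideal.mul_top]
    exact hle m n hmn)
  refine ⟨L, fun n => ?_⟩
  have h3 := hL n
  rw [SModEq.sub_mem, smul_eq_mul, Ideal.mul_top, ← Ideal.Quotient.eq, ha n] at h3
  exact h3.symm

/-- In a Hausdorff ring, two matrices that agree modulo every power of `I` are equal. -/
theorem eq_of_forall_map_mk_eq (I : Ideal A) [IsHausdorff I A] {M N : M2 A}
    (h : ∀ n : ℕ, M.map (Ideal.Quotient.mk (I ^ n)) = N.map (Ideal.Quotient.mk (I ^ n))) :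
    M = N := by
  ext i j
  rw [IsHausdorff.eq_iff_smodEq (I := I)]
  intro n
  have h1 := congrFun (congrFun (h n) i) j
  simp only [Matrix.map_apply] at h1
  rw [SModEq.sub_mem, smul_eq_mul, Ideal.mul_top, ← Ideal.Quotient.eq]
  exact h1

end

end ConjLimit

theorem conj_of_forall_conj_quotient {A : Type} [CommRing A] [IsLocalRing A]
    [IsNoetherianRing A] [IsAdicComplete (maximalIdeal A) A] [Finite (ResidueField A)]
    (r₁ r₂ : Gal →* M2 A)
    (h : ∀ n : ℕ, Conj (mapRep (Ideal.Quotient.mk (maximalIdeal A ^ n)) r₁)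
      (mapRep (Ideal.Quotient.mk (maximalIdeal A ^ n)) r₂)) :
    Conj r₁ r₂ := by
  classical
  -- the quotients by powers of the maximal ideal are finite
  have hfin0 : Finite (A ⧸ maximalIdeal A) := ‹Finite (ResidueField A)›
  have hfin : ∀ n : ℕ, Finite (A ⧸ maximalIdeal A ^ n) := fun n =>
    Ideal.finite_quotient_pow (IsNoetherian.noetherian (maximalIdeal A)) n
  -- the finite sets of conjugating matrices modulo `𝔪 ^ n`
  let X : ℕ → Type := fun n =>
    { g : M2 (A ⧸ maximalIdeal A ^ n) // IsUnit g ∧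
      ∀ σ : Gal, g * mapRep (Ideal.Quotient.mk (maximalIdeal A ^ n)) r₁ σ =
        mapRep (Ideal.Quotient.mk (maximalIdeal A ^ n)) r₂ σ * g }
  have hXfin : ∀ n, Finite (X n) := fun n => by
    have := hfin n
    exact Subtype.finite
  have hXne : ∀ n, Nonempty (X n) := fun n => by
    obtain ⟨g, hg⟩ := h n
    exact ⟨⟨(g : M2 (A ⧸ maximalIdeal A ^ n)), g.isUnit, hg⟩⟩
  -- the transition maps
  have hred : ∀ (n : ℕ) (r : Gal →* M2 A) (σ : Gal),
      (Ideal.Quotient.factor (Ideal.pow_le_pow_right (Nat.le_succ n)) :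
        A ⧸ maximalIdeal A ^ (n + 1) →+* A ⧸ maximalIdeal A ^ n).mapMatrix
        (mapRep (Ideal.Quotient.mk (maximalIdeal A ^ (n + 1))) r σ) =
      mapRep (Ideal.Quotient.mk (maximalIdeal A ^ n)) r σ := by
    intro n r σ
    ext i j
    simp [mapRep_apply_apply]
  let f : ∀ n, X (n + 1) → X n := fun n g =>
    ⟨(Ideal.Quotient.factor (Ideal.pow_le_pow_right (Nat.le_succ n)) :
        A ⧸ maximalIdeal A ^ (n + 1) →+* A ⧸ maximalIdeal A ^ n).mapMatrix g.1,
      g.2.1.map _, fun σ => by
        have h1 := congrArg (Ideal.Quotient.factor (Ideal.pow_le_pow_right (Nat.le_succ n)) :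
          A ⧸ maximalIdeal A ^ (n + 1) →+* A ⧸ maximalIdeal A ^ n).mapMatrix (g.2.2 σ)
        rw [map_mul, map_mul, hred, hred] at h1
        exact h1⟩
  obtain ⟨x, hx⟩ := ConjLimit.exists_coherent X f
  -- lift the coherent family entrywise
  have hentry : ∀ i j : Fin 2, ∃ L : A, ∀ n : ℕ,
      Ideal.Quotient.mk (maximalIdeal A ^ n) L = (x n).1 i j := by
    intro i j
    refine ConjLimit.exists_lift_of_coherent (maximalIdeal A) (fun n => (x n).1 i j) ?_
    intro n
    have h1 := congrArg (fun y : X n => y.1 i j) (hx n)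
    exact h1
  choose L hL using hentry
  let g : M2 A := Matrix.of L
  have hg : ∀ n : ℕ, g.map (Ideal.Quotient.mk (maximalIdeal A ^ n)) = (x n).1 := by
    intro n
    ext i j
    exact hL i j n
  -- `g` is invertible
  have hdet : IsUnit g.det := by
    by_contra hnu
    have hmem : g.det ∈ maximalIdeal A := (IsLocalRing.mem_maximalIdeal _).2 hnu
    have h0 : Ideal.Quotient.mk (maximalIdeal A ^ 1) g.det = 0 := by
      rw [Ideal.Quotient.eq_zero_iff_mem, pow_one]
      exact hmem
    have hu : IsUnit (Ideal.Quotient.mk (maximalIdeal A ^ 1) g.det) := by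
      rw [RingHom.map_det, RingHom.mapMatrix_apply, hg 1]
      exact (Matrix.isUnit_iff_isUnit_det _).1 (x 1).2.1
    rw [h0] at hu
    have : Nontrivial (A ⧸ maximalIdeal A ^ 1) :=
      Ideal.Quotient.nontrivial_iff.2 (by
        rw [pow_one]
        exact (maximalIdeal.isMaximal A).ne_top)
    exact not_isUnit_zero hu
  have hgu : IsUnit g := (Matrix.isUnit_iff_isUnit_det _).2 hdet
  refine ⟨hgu.unit, fun σ => ?_⟩
  rw [IsUnit.unit_spec]
  apply ConjLimit.eq_of_forall_map_mk_eq (maximalIdeal A)
  intro n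
  have h1 := (x n).2.2 σ
  rw [Matrix.map_mul, Matrix.map_mul, hg n]
  exact h1

end Fermat.Agent.S53
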