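import Fermat.Agent.S53.TestAlg
import Fermat.Agent.S53.Translate
import Fermat.Agent.S53.ConjLimit

/-!
# S53 / WP-H2: the universal property of the limit representation (matrix form)
-/

set_option autoImplicit false

namespace Fermat.Agent.S53

open IsLocalRing

namespace Universal

/-! ### Gluing algebra maps into an adically complete ring -/

section Glue

variable {R S A : Type} [CommRing R] [CommRing S] [Algebra R S] (I : Ideal S)
  [CommRing A] [Algebra R A]

theorem idealPow_succ_le (n : ℕ) : I ^ (n + 1) ≤ I ^ n :=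
  Ideal.pow_le_pow_right (Nat.le_succ n)

theorem idealPow_succ_le_succ {m n : ℕ} (h : m ≤ n) : I ^ (n + 1) ≤ I ^ (m + 1) :=
  Ideal.pow_le_pow_right (Nat.succ_le_succ h)

/-- One-step compatibility of a family `ψ n : A → S ⧸ I ^ (n + 1)` implies compatibility for
all `m ≤ n`. -/
theorem factor_comp_eq (ψ : ∀ n, A →ₐ[R] S ⧸ I ^ (n + 1))
    (hψ : ∀ n, (Ideal.Quotient.factorₐ R (idealPow_succ_le I (n + 1))).comp (ψ (n + 1)) = ψ n)
    {m n : ℕ} (hle : m ≤ n) :
    (Ideal.Quotient.factorₐ R (idealPow_succ_le_succ I hle)).comp (ψ n) = ψ m := by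
  induction n, hle using Nat.le_induction with
  | base =>
    ext x
    simp
  | succ n hmn ih =>
    rw [← ih, ← hψ n]
    ext x
    obtain ⟨y, hy⟩ := Ideal.Quotient.mk_surjective (ψ (n + 1) x)
    simp [← hy]

/-- A compatible family of algebra maps `ψ n : A → S ⧸ I ^ (n + 1)` into the quotients of an
`I`-adically complete ring glues to an algebra map `A → S`. -/
theorem exists_algHom_of_compat [IsAdicComplete I S] (ψ : ∀ n, A →ₐ[R] S ⧸ I ^ (n + 1))
    (hψ : ∀ n, (Ideal.Quotient.factorₐ R (idealPow_succ_le I (n + 1))).comp (ψ (n + 1)) = ψ n) :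
    ∃ Φ : A →ₐ[R] S, ∀ n, (Ideal.Quotient.mkₐ R (I ^ (n + 1))).comp Φ = ψ n := by
  let f : ∀ n, A →ₐ[R] S ⧸ I ^ n := fun n =>
    (Ideal.Quotient.factorₐ R (idealPow_succ_le I n)).comp (ψ n)
  have hf : ∀ {m n : ℕ} (hle : m ≤ n),
      (Ideal.Quotient.factorₐ R (Ideal.pow_le_pow_right hle)).comp (f n) = f m := by
    intro m n hle
    have h1 := factor_comp_eq I ψ hψ hle
    simp only [f]
    rw [← h1]
    ext x
    obtain ⟨y, hy⟩ := Ideal.Quotient.mk_surjective (ψ n x)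
    simp [← hy]
  refine ⟨IsAdicComplete.liftAlgHom I f hf, fun n => ?_⟩
  rw [IsAdicComplete.mkₐ_comp_liftAlgHom]
  exact hψ n

/-- Two algebra maps into an `I`-adically complete ring agree as soon as they agree modulo
`I ^ (n + 1)` for all `n`. -/
theorem algHom_ext_succ [IsAdicComplete I S] {f g : A →ₐ[R] S}
    (H : ∀ n, (Ideal.Quotient.mkₐ R (I ^ (n + 1))).comp f =
      (Ideal.Quotient.mkₐ R (I ^ (n + 1))).comp g) :
    f = g := by
  apply IsAdicComplete.algHom_ext I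
  intro n
  have h1 := congrArg (fun t => (Ideal.Quotient.factorₐ R (idealPow_succ_le I n)).comp t) (H n)
  exact h1

end Glue

/-! ### The finite levels of a complete local `𝒪`-algebra -/

section Level

variable {𝒪 : Type} [CommRing 𝒪] [IsLocalRing 𝒪]
variable {rbar : Gal →* M2 (ResidueField 𝒪)}
variable {𝒟 : ∀ ⦃A : Type⦄ [CommRing A] [IsLocalRing A] [Algebra 𝒪 A], GaloisRepAdic A → Prop}

/-- The residue field of a local `𝒪`-algebra whose residue field is generated by `𝒪` is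
finite when the residue field of `𝒪` is. -/
theorem finite_residueField [Finite (ResidueField 𝒪)] {A : Type} [CommRing A] [IsLocalRing A]
    [Algebra 𝒪 A] [IsLocalHom (algebraMap 𝒪 A)]
    (hsurj : Function.Surjective (residue A ∘ algebraMap 𝒪 A)) : Finite (ResidueField A) := by
  have h1 : Function.Surjective (ResidueField.map (algebraMap 𝒪 A)) := by
    intro x
    obtain ⟨c, hc⟩ := hsurj x
    exact ⟨residue 𝒪 c, by rw [ResidueField.map_residue]; exact hc⟩
  exact Finite.of_surjective _ h1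

variable (A : Type) [CommRing A] [IsLocalRing A] [IsNoetherianRing A]
  [Algebra 𝒪 A] [IsLocalHom (algebraMap 𝒪 A)]

/-- The reduction of a strict lift modulo `𝔪 ^ (n + 1)` is a strict lift. -/
theorem level_isLift (hsurj : Function.Surjective (residue A ∘ algebraMap 𝒪 A))
    (s : Gal →* M2 A) (hs : IsLift rbar s) (n : ℕ) :
    IsLift rbar (mapRep (Ideal.Quotient.mk (maximalIdeal A ^ (n + 1))) s) := by
  have hloc : IsLocalRing (A ⧸ maximalIdeal A ^ (n + 1)) :=
    (isTest_quotient_maximalIdeal_pow (𝒪 := 𝒪) hsurj n).isLocalRing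
  have hq : IsLocalHom (Ideal.Quotient.mk (maximalIdeal A ^ (n + 1))) :=
    IsLocalHom.of_surjective _ Ideal.Quotient.mk_surjective
  exact IsLift.map (Ideal.Quotient.mkₐ 𝒪 (maximalIdeal A ^ (n + 1)))
    (fun a ha hu => ha (hq.map_nonunit a hu)) hs

/-- The reduction modulo `𝔪 ^ (n + 1)` of a representation satisfying `𝒟` satisfies the matrix
condition `Pm 𝒪 𝒟`. -/
theorem level_pm [IsAdicComplete (maximalIdeal A) A]
    (h𝒟 : GaloisRep.IsDeformationCondition 𝒪 𝒟)
    (hsurj : Function.Surjective (residue A ∘ algebraMap 𝒪 A))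
    (s : Gal →* M2 A) (hcs : IsCts s) (h𝒟s : 𝒟 (ofMatrix s hcs)) (n : ℕ) :
    Pm 𝒪 𝒟 (A ⧸ maximalIdeal A ^ (n + 1))
      (mapRep (Ideal.Quotient.mk (maximalIdeal A ^ (n + 1))) s) := by
  obtain ⟨hloc, hB⟩ := isTest_quotient_maximalIdeal_pow (𝒪 := 𝒪) hsurj n
  have hq : IsLocalHom ((Ideal.Quotient.mkₐ 𝒪 (maximalIdeal A ^ (n + 1)) :
      A →ₐ[𝒪] A ⧸ maximalIdeal A ^ (n + 1)) : A →+* A ⧸ maximalIdeal A ^ (n + 1)) :=
    IsLocalHom.of_surjective _ (Ideal.Quotient.mkₐ_surjective 𝒪 _)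
  have hc' : IsCts (mapRep ((Ideal.Quotient.mkₐ 𝒪 (maximalIdeal A ^ (n + 1)) :
      A →ₐ[𝒪] A ⧸ maximalIdeal A ^ (n + 1)) : A →+* A ⧸ maximalIdeal A ^ (n + 1)) s) :=
    hcs.map _ hq
  refine ⟨hloc, hc', ?_⟩
  have h1 := (h𝒟.iff_forall_surjective inferInstance hsurj (ofMatrix s hcs)).1 h𝒟s hB
    (Ideal.Quotient.mkₐ 𝒪 (maximalIdeal A ^ (n + 1))) hq (Ideal.Quotient.mkₐ_surjective 𝒪 _)
  exact h𝒟.of_isEquiv hB (baseChangeAlong_ofMatrix _ hq s hcs hc') h1

variable {A}

/-- The maps from the universal tower to the finite levels of `A` classifying the reductions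
of `s`, with their uniqueness and compatibility. -/
theorem exists_levelMaps [IsAdicComplete (maximalIdeal A) A]
    (h𝒟 : GaloisRep.IsDeformationCondition 𝒪 𝒟) (T : UnivTower rbar (Pm 𝒪 𝒟))
    (hsurj : Function.Surjective (residue A ∘ algebraMap 𝒪 A))
    (s : Gal →* M2 A) (hs : IsLift rbar s) (hcs : IsCts s) (h𝒟s : 𝒟 (ofMatrix s hcs)) :
    ∃ φ : ∀ n, T.U n →ₐ[𝒪] A ⧸ maximalIdeal A ^ (n + 1),
      (∀ n, Conj (mapRep (φ n : T.U n →+* A ⧸ maximalIdeal A ^ (n + 1)) (T.r n))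
        (mapRep (Ideal.Quotient.mk (maximalIdeal A ^ (n + 1))) s)) ∧
      (∀ n (u : T.U n →ₐ[𝒪] A ⧸ maximalIdeal A ^ (n + 1)),
        Conj (mapRep (u : T.U n →+* A ⧸ maximalIdeal A ^ (n + 1)) (T.r n))
          (mapRep (Ideal.Quotient.mk (maximalIdeal A ^ (n + 1))) s) → u = φ n) ∧
      (∀ n, (Ideal.Quotient.factorₐ 𝒪 (idealPow_succ_le (maximalIdeal A) (n + 1))).comp
        (φ (n + 1)) = (φ n).comp (T.π n)) := by
  have hB : ∀ n, IsTest 𝒪 (A ⧸ maximalIdeal A ^ (n + 1)) :=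
    fun n => isTest_quotient_maximalIdeal_pow hsurj n
  have hnil : ∀ n, nilradical (A ⧸ maximalIdeal A ^ (n + 1)) ^ (n + 1) = ⊥ :=
    fun n => nilradical_quotient_maximalIdeal_pow n
  have hPm : ∀ n, Pm 𝒪 𝒟 (A ⧸ maximalIdeal A ^ (n + 1))
      (mapRep (Ideal.Quotient.mk (maximalIdeal A ^ (n + 1))) s) :=
    fun n => level_pm A h𝒟 hsurj s hcs h𝒟s n
  have hlift : ∀ n, IsLift rbar (mapRep (Ideal.Quotient.mk (maximalIdeal A ^ (n + 1))) s) :=
    fun n => level_isLift A hsurj s hs n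
  have hex : ∀ n, ∃ u : T.U n →ₐ[𝒪] A ⧸ maximalIdeal A ^ (n + 1),
      Conj (mapRep (u : T.U n →+* A ⧸ maximalIdeal A ^ (n + 1)) (T.r n))
        (mapRep (Ideal.Quotient.mk (maximalIdeal A ^ (n + 1))) s) ∧
      ∀ y : T.U n →ₐ[𝒪] A ⧸ maximalIdeal A ^ (n + 1),
        Conj (mapRep (y : T.U n →+* A ⧸ maximalIdeal A ^ (n + 1)) (T.r n))
          (mapRep (Ideal.Quotient.mk (maximalIdeal A ^ (n + 1))) s) → y = u :=
    fun n => (T.isUniv n).univ _ (hB n) (hnil n) _ (hlift n) (hPm n)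
  choose φ hφ hφu using hex
  refine ⟨φ, hφ, hφu, fun n => ?_⟩
  have hu := (T.isUniv (n + 1)).univ _ (hB n)
    (nilradical_pow_eq_bot_of_le (Nat.le_succ (n + 1)) (hnil n)) _ (hlift n) (hPm n)
  apply hu.unique
  · have h1 := (hφ (n + 1)).map
      (Ideal.Quotient.factor (idealPow_succ_le (maximalIdeal A) (n + 1)))
    convert h1 using 1
    · ext σ i j
      rfl
    · ext σ i j
      rfl
  · have e : mapRep (((φ n).comp (T.π n) : T.U (n + 1) →ₐ[𝒪] A ⧸ maximalIdeal A ^ (n + 1)) :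
        T.U (n + 1) →+* A ⧸ maximalIdeal A ^ (n + 1)) (T.r (n + 1)) =
        mapRep (φ n : T.U n →+* A ⧸ maximalIdeal A ^ (n + 1)) (T.r n) := by
      rw [← T.compat n]
      ext σ i j
      rfl
    rw [e]
    exact hφ n

end Level

end Universal

variable {𝒪 : Type} [CommRing 𝒪] [IsLocalRing 𝒪] [Finite (ResidueField 𝒪)]
variable {rbar : Gal →* M2 (ResidueField 𝒪)}
variable {𝒟 : ∀ ⦃A : Type⦄ [CommRing A] [IsLocalRing A] [Algebra 𝒪 A], GaloisRepAdic A → Prop}

theorem limRep_universal (h𝒟 : GaloisRep.IsDeformationCondition 𝒪 𝒟)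
    (hdef : IsDef rbar (Pm 𝒪 𝒟)) (T : UnivTower rbar (Pm 𝒪 𝒟)) (Rg : ProRing T.toTower)
    (rR : Gal →* M2 Rg.R) (h : ∀ n, mapRep (Rg.p n : Rg.R →+* T.U n) rR = T.r n)
    (A : Type) [CommRing A] [IsLocalRing A] [IsNoetherianRing A]
    [IsAdicComplete (maximalIdeal A) A] [Algebra 𝒪 A] [IsLocalHom (algebraMap 𝒪 A)]
    (hsurj : Function.Surjective (residue A ∘ algebraMap 𝒪 A))
    (s : Gal →* M2 A) (hs : IsLift rbar s) (hcs : IsCts s) (h𝒟s : 𝒟 (ofMatrix s hcs)) :
    ∃! φ : Rg.R →ₐ[𝒪] A, IsLocalHom (φ : Rg.R →+* A) ∧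
      Conj (mapRep (φ : Rg.R →+* A) rR) s := by
  have _hdef := hdef
  -- the classifying maps at finite level
  obtain ⟨φ, hφ, hφu, hφc⟩ := Universal.exists_levelMaps h𝒟 T hsurj s hs hcs h𝒟s
  -- glue them
  obtain ⟨Φ, hΦ⟩ := Universal.exists_algHom_of_compat (maximalIdeal A)
    (fun n => (φ n).comp (Rg.p n)) (by
      intro n
      rw [← AlgHom.comp_assoc, hφc n, AlgHom.comp_assoc, Rg.p_compat n])
  have hΦ' : ∀ (n : ℕ) (z : Rg.R),
      Ideal.Quotient.mk (maximalIdeal A ^ (n + 1)) (Φ z) = φ n (Rg.p n z) :=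
    fun n z => DFunLike.congr_fun (hΦ n) z
  refine ⟨Φ, ⟨?_, ?_⟩, ?_⟩
  · -- `Φ` is local
    refine ⟨fun z hz => ?_⟩
    by_contra hz'
    have hzm : z ∈ maximalIdeal Rg.R := hz'
    have hz0 : Rg.p 0 z = 0 := by
      have hzk : z ∈ RingHom.ker (Rg.p 0 : Rg.R →+* T.U 0) := by
        rw [Rg.ker_p 0]
        simpa using hzm
      exact hzk
    have h1 : IsUnit (Ideal.Quotient.mk (maximalIdeal A ^ (0 + 1)) (Φ z)) := hz.map _
    rw [hΦ' 0 z, hz0, map_zero] at h1
    have hloc : IsLocalRing (A ⧸ maximalIdeal A ^ (0 + 1)) :=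
      (isTest_quotient_maximalIdeal_pow (𝒪 := 𝒪) hsurj 0).isLocalRing
    exact not_isUnit_zero h1
  · -- conjugacy, checked modulo all powers of the maximal ideal
    have hfin : Finite (ResidueField A) := Universal.finite_residueField hsurj
    apply conj_of_forall_conj_quotient
    intro n
    have key : Conj (mapRep (Ideal.Quotient.mk (maximalIdeal A ^ (n + 1)))
        (mapRep (Φ : Rg.R →+* A) rR))
        (mapRep (Ideal.Quotient.mk (maximalIdeal A ^ (n + 1))) s) := by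
      have e : mapRep (Ideal.Quotient.mk (maximalIdeal A ^ (n + 1)))
          (mapRep (Φ : Rg.R →+* A) rR) =
          mapRep (φ n : T.U n →+* A ⧸ maximalIdeal A ^ (n + 1)) (T.r n) := by
        rw [← h n]
        ext σ i j
        exact hΦ' n _
      rw [e]
      exact hφ n
    have h1 := key.map (Ideal.Quotient.factor (Universal.idealPow_succ_le (maximalIdeal A) n))
    convert h1 using 1
    · ext σ i j
      rfl
    · ext σ i j
      rfl
  · -- uniqueness
    rintro Φ' ⟨hloc', hconj'⟩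
    apply Universal.algHom_ext_succ (maximalIdeal A)
    intro n
    rw [hΦ n]
    have hker : RingHom.ker (Rg.p n).toRingHom ≤
        RingHom.ker ((Ideal.Quotient.mkₐ 𝒪 (maximalIdeal A ^ (n + 1))).comp Φ').toRingHom := by
      intro z hz
      have hz' : z ∈ maximalIdeal Rg.R ^ (n + 1) := by
        rw [← Rg.ker_p n]
        exact hz
      rw [RingHom.mem_ker]
      change Ideal.Quotient.mk (maximalIdeal A ^ (n + 1)) (Φ' z) = 0
      rw [Ideal.Quotient.eq_zero_iff_mem]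
      have hle : (maximalIdeal Rg.R ^ (n + 1)).map (Φ' : Rg.R →+* A) ≤
          maximalIdeal A ^ (n + 1) := by
        rw [Ideal.map_pow]
        exact Ideal.pow_right_mono (IsLocalRing.map_maximalIdeal_le _) _
      exact hle (Ideal.mem_map_of_mem _ hz')
    have hup : (AlgHom.liftOfSurjective (Rg.p n) (Rg.p_surj n) _ hker).comp (Rg.p n) =
        (Ideal.Quotient.mkₐ 𝒪 (maximalIdeal A ^ (n + 1))).comp Φ' :=
      AlgHom.liftOfSurjective_comp _ _ _ _
    have hu : AlgHom.liftOfSurjective (Rg.p n) (Rg.p_surj n) _ hker = φ n := by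
      apply hφu
      have e : mapRep ((AlgHom.liftOfSurjective (Rg.p n) (Rg.p_surj n) _ hker :
            T.U n →ₐ[𝒪] A ⧸ maximalIdeal A ^ (n + 1)) :
            T.U n →+* A ⧸ maximalIdeal A ^ (n + 1)) (T.r n) =
          mapRep (Ideal.Quotient.mk (maximalIdeal A ^ (n + 1)))
            (mapRep (Φ' : Rg.R →+* A) rR) := by
        rw [← h n]
        ext σ i j
        exact DFunLike.congr_fun hup _
      rw [e]
      exact hconj'.map _
    rw [← hup, hu]

end Fermat.Agent.S53
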