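import Mathlib
import Fermat.Prelude.Def_GaloisRep_DeformationCondition
import Fermat.Prelude.Def_GaloisRep_DeformationRingData

/-!
# S53: shared definitions

Matrix-valued Galois representations `r : Gal →* M2 A`, conjugacy, strict lifts of a residual
matrix representation, abstract deformation conditions on matrix representations, universal
pairs, towers, and the pro-ring data.  Everything here is definitions only.
-/

set_option autoImplicit false

noncomputable section

namespace Fermat.Agent.S53

open IsLocalRing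

/-- The absolute Galois group of `ℚ`. -/
abbrev Gal : Type := AlgebraicClosure ℚ ≃ₐ[ℚ] AlgebraicClosure ℚ

/-- `2 × 2` matrices. -/
abbrev M2 (A : Type) : Type := Matrix (Fin 2) (Fin 2) A

section Basic

variable {A B : Type} [CommRing A] [CommRing B]

/-- Push a matrix representation forward along a ring homomorphism (entrywise). -/
def mapRep (φ : A →+* B) (r : Gal →* M2 A) : Gal →* M2 B :=
  (φ.mapMatrix : M2 A →+* M2 B).toMonoidHom.comp r

/-- Two matrix representations are conjugate by an invertible matrix. -/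
def Conj (r r' : Gal →* M2 A) : Prop :=
  ∃ g : (M2 A)ˣ, ∀ σ : Gal, (g : M2 A) * r σ = r' σ * (g : M2 A)

/-- Adic continuity of a matrix representation over a local ring: for every `n`, some open
subgroup (the fixer of a finite extension `L/ℚ`) acts trivially modulo `𝔪 ^ n`. -/
def IsCts [IsLocalRing A] (r : Gal →* M2 A) : Prop :=
  ∀ n : ℕ, ∃ L : IntermediateField ℚ (AlgebraicClosure ℚ), FiniteDimensional ℚ L ∧
    ∀ σ : Gal, (∀ x ∈ L, σ x = x) → ∀ i j, (r σ - 1) i j ∈ maximalIdeal A ^ n

end Basic

section OverO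

variable (𝒪 : Type) [CommRing 𝒪]

/-- `A` is an artinian test algebra (instance-free version of
`GaloisRep.IsArtinianTestAlgebra`): a local artinian `𝒪`-algebra whose structure map is local
and induces a surjection onto the residue field. -/
def IsTest (A : Type) [CommRing A] [Algebra 𝒪 A] : Prop :=
  ∃ h : IsLocalRing A, @GaloisRep.IsArtinianTestAlgebra 𝒪 _ A _ h _

/-- An abstract condition on matrix representations over `𝒪`-algebras. -/
def MCond : Type 1 :=
  ∀ (A : Type) [CommRing A] [Algebra 𝒪 A], (Gal →* M2 A) → Prop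

variable {𝒪} [IsLocalRing 𝒪]

/-- `r` is a strict lift of `rbar`: every entry of `r σ` is congruent, modulo the non-units of
`A`, to the image of a lift to `𝒪` of the corresponding entry of `rbar σ`.  (Meaningful when
`A` is local; then "non-unit" means "in the maximal ideal".) -/
def IsLift (rbar : Gal →* M2 (ResidueField 𝒪)) {A : Type} [CommRing A] [Algebra 𝒪 A]
    (r : Gal →* M2 A) : Prop :=
  ∀ (σ : Gal) (i j : Fin 2), ∃ c : 𝒪, residue 𝒪 c = rbar σ i j ∧
    ¬ IsUnit (r σ i j - algebraMap 𝒪 A c)

/-- The axioms on an abstract condition `P` (relative to a residual matrix representation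
`rbar`) that make the minimal-pair construction of the universal deformation work.
All algebras here are artinian test algebras. -/
structure IsDef (rbar : Gal →* M2 (ResidueField 𝒪)) (P : MCond 𝒪) : Prop where
  /-- invariance under conjugation -/
  conj : ∀ (A : Type) [CommRing A] [Algebra 𝒪 A], IsTest 𝒪 A →
    ∀ r r' : Gal →* M2 A, Conj r r' → P A r → P A r'
  /-- stability under push-forward along `𝒪`-algebra maps of test algebras -/
  map : ∀ (A B : Type) [CommRing A] [Algebra 𝒪 A] [CommRing B] [Algebra 𝒪 B],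
    IsTest 𝒪 A → IsTest 𝒪 B → ∀ (φ : A →ₐ[𝒪] B) (r : Gal →* M2 A),
      P A r → P B (mapRep (φ : A →+* B) r)
  /-- descent along injective `𝒪`-algebra maps of test algebras -/
  descend : ∀ (A B : Type) [CommRing A] [Algebra 𝒪 A] [CommRing B] [Algebra 𝒪 B],
    IsTest 𝒪 A → IsTest 𝒪 B → ∀ (φ : A →ₐ[𝒪] B), Function.Injective φ →
      ∀ r : Gal →* M2 A, P B (mapRep (φ : A →+* B) r) → P A r
  /-- gluing over the fibre product `A ×ₖ B` over the residue field (here presented as any
  test algebra `F` with jointly injective projections whose image is the set of pairs with a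
  common residue in `𝒪`) -/
  fib : ∀ (A B F : Type) [CommRing A] [Algebra 𝒪 A] [CommRing B] [Algebra 𝒪 B]
    [CommRing F] [Algebra 𝒪 F], IsTest 𝒪 A → IsTest 𝒪 B → IsTest 𝒪 F →
    ∀ (pA : F →ₐ[𝒪] A) (pB : F →ₐ[𝒪] B),
      Function.Injective (fun x : F => (pA x, pB x)) →
      (∀ (a : A) (b : B), (∃ c : 𝒪, ¬ IsUnit (a - algebraMap 𝒪 A c) ∧
          ¬ IsUnit (b - algebraMap 𝒪 B c)) → ∃ x : F, pA x = a ∧ pB x = b) →
      ∀ t : Gal →* M2 F, P A (mapRep (pA : F →+* A) t) → P B (mapRep (pB : F →+* B) t) → P F t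
  /-- the residual representation itself satisfies the condition -/
  base : P (ResidueField 𝒪) rbar
  /-- tangent finiteness: a uniform bound on families of pairwise non-conjugate lifts with
  `P` over the dual numbers `k[ε]` (with its canonical `𝒪`-algebra structure
  `TrivSqZeroExt.algebra'`) -/
  tangent : ∃ N : ℕ, ∀ (ι : Type) [Fintype ι]
    (f : ι → (Gal →* M2 (DualNumber (ResidueField 𝒪)))),
    (∀ i, IsLift rbar (f i)) → (∀ i, P (DualNumber (ResidueField 𝒪)) (f i)) →
    (∀ i j, Conj (f i) (f j) → i = j) → Fintype.card ι ≤ N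
  /-- Burnside: the residual image spans the full matrix algebra (absolute irreducibility) -/
  burnside : Submodule.span (ResidueField 𝒪) (Set.range rbar) = ⊤

/-- `(U, r)` is a universal pair at nil-level `n`: `U` is a test algebra with
`(nilradical U) ^ n = 0`, `r` is a strict lift of `rbar` satisfying `P`, and every such pair
`(B, s)` receives a unique `𝒪`-algebra map from `U` carrying `r` to a conjugate of `s`. -/
structure IsUniv (rbar : Gal →* M2 (ResidueField 𝒪)) (P : MCond 𝒪) (n : ℕ)
    (U : Type) [CommRing U] [Algebra 𝒪 U] (r : Gal →* M2 U) : Prop where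
  isTest : IsTest 𝒪 U
  nil : nilradical U ^ n = ⊥
  isLift : IsLift rbar r
  cond : P U r
  univ : ∀ (B : Type) [CommRing B] [Algebra 𝒪 B], IsTest 𝒪 B → nilradical B ^ n = ⊥ →
    ∀ s : Gal →* M2 B, IsLift rbar s → P B s →
      ∃! u : U →ₐ[𝒪] B, Conj (mapRep (u : U →+* B) r) s

end OverO

section Towers

/-- A tower of `𝒪`-algebras `⋯ → U 2 → U 1 → U 0`. -/
structure Tower (𝒪 : Type) [CommRing 𝒪] : Type 1 where
  U : ℕ → Type
  [cr : ∀ n, CommRing (U n)]
  [alg : ∀ n, Algebra 𝒪 (U n)]
  π : ∀ n, U (n + 1) →ₐ[𝒪] U n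

attribute [instance] Tower.cr Tower.alg

variable {𝒪 : Type} [CommRing 𝒪] [IsLocalRing 𝒪]

/-- The properties of a tower needed to build its (noetherian, complete) limit ring:
`U n` is a test algebra of nil-level `n + 1` generated by `d` nilpotent elements, and
`π n : U (n+1) → U n` is surjective with kernel `(nilradical (U (n+1))) ^ (n+1)`. -/
structure Tower.IsGood (T : Tower 𝒪) (d : ℕ) : Prop where
  isTest : ∀ n, IsTest 𝒪 (T.U n)
  nil : ∀ n, nilradical (T.U n) ^ (n + 1) = ⊥
  surj : ∀ n, Function.Surjective (T.π n)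
  ker : ∀ n, RingHom.ker (T.π n : T.U (n + 1) →+* T.U n) = nilradical (T.U (n + 1)) ^ (n + 1)
  gen : ∀ n, ∃ t : Fin d → T.U n, (∀ i, IsNilpotent (t i)) ∧
    Algebra.adjoin 𝒪 (Set.range t) = ⊤

/-- A tower of universal pairs: `(U n, r n)` is universal at nil-level `n + 1`, and the
transition maps carry `r (n+1)` to `r n` on the nose. -/
structure UnivTower (rbar : Gal →* M2 (ResidueField 𝒪)) (P : MCond 𝒪) : Type 1
    extends Tower 𝒪 where
  r : ∀ n, Gal →* M2 (U n)
  d : ℕ
  good : toTower.IsGood d
  isUniv : ∀ n, IsUniv rbar P (n + 1) (U n) (r n)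
  compat : ∀ n, mapRep (π n : U (n + 1) →+* U n) (r (n + 1)) = r n

/-- The limit of a tower as a complete noetherian local `𝒪`-algebra. -/
structure ProRing (T : Tower 𝒪) : Type 1 where
  R : Type
  [cr : CommRing R]
  [loc : IsLocalRing R]
  [noeth : IsNoetherianRing R]
  [compl : IsAdicComplete (maximalIdeal R) R]
  [alg : Algebra 𝒪 R]
  [locHom : IsLocalHom (algebraMap 𝒪 R)]
  res_surj : Function.Surjective (residue R ∘ algebraMap 𝒪 R)
  p : ∀ n, R →ₐ[𝒪] T.U n
  p_surj : ∀ n, Function.Surjective (p n)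
  p_compat : ∀ n, (T.π n).comp (p (n + 1)) = p n
  ker_p : ∀ n, RingHom.ker (p n : R →+* T.U n) = maximalIdeal R ^ (n + 1)
  lift : ∀ x : (∀ n, T.U n), (∀ n, T.π n (x (n + 1)) = x n) → ∃ y : R, ∀ n, p n y = x n

attribute [instance] ProRing.cr ProRing.loc ProRing.noeth ProRing.compl ProRing.alg
  ProRing.locHom

end Towers

section OfMatrix

/-- The monoid homomorphism `M2 A →* End_A (Fin 2 → A)`, `M ↦ (v ↦ M *ᵥ v)`. -/
def toEnd (A : Type) [CommRing A] : M2 A →* Module.End A (Fin 2 → A) :=
  (Matrix.toLinAlgEquiv' (R := A) (n := Fin 2)).toAlgHom.toRingHom.toMonoidHom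

theorem toEnd_apply {A : Type} [CommRing A] (M : M2 A) (v : Fin 2 → A) :
    toEnd A M v = M.mulVec v := rfl

theorem pi_mem_smul_top {A : Type} [CommRing A] (I : Ideal A) (v : Fin 2 → A)
    (hv : ∀ i, v i ∈ I) :
    v ∈ I • (⊤ : Submodule A (Fin 2 → A)) := by
  have : v = ∑ i, v i • (Pi.single i (1 : A) : Fin 2 → A) := by
    funext j
    simp [Finset.sum_apply, Pi.single_apply]
  rw [this]
  exact Submodule.sum_mem _ fun i _ => Submodule.smul_mem_smul (hv i) Submodule.mem_top

variable {A : Type} [CommRing A] [IsLocalRing A]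

/-- The adic Galois representation on `A²` attached to a continuous matrix representation. -/
def ofMatrix (r : Gal →* M2 A) (hc : IsCts r) : GaloisRepAdic A where
  V := Fin 2 → A
  finrank_eq := by simp
  ρ := (toEnd A).comp r
  isAdicContinuous := by
    intro n
    obtain ⟨L, hL, h⟩ := hc n
    refine ⟨L, hL, fun σ hσ v => ?_⟩
    apply pi_mem_smul_top
    intro i
    have h1 : ((toEnd A).comp r) σ v - v = (r σ - 1).mulVec v := by
      rw [Matrix.sub_mulVec, Matrix.one_mulVec]; rfl
    rw [h1]
    simp only [Matrix.mulVec, dotProduct]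
    exact Ideal.sum_mem _ fun j _ => Ideal.mul_mem_right _ _ (h σ hσ i j)

theorem ofMatrix_V (r : Gal →* M2 A) (hc : IsCts r) : (ofMatrix r hc).V = (Fin 2 → A) := rfl

theorem ofMatrix_ρ_apply (r : Gal →* M2 A) (hc : IsCts r) (σ : Gal) (v : Fin 2 → A) :
    (ofMatrix r hc).ρ σ v = (r σ).mulVec v := rfl

end OfMatrix

/-- The matrix form of a residual representation with respect to a basis. -/
def matRep {k : Type} [Field k] (ρbar : ResidualGaloisRep k)
    (b : Module.Basis (Fin 2) k ρbar.V) : Gal →* M2 k :=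
  (LinearMap.toMatrixAlgEquiv b).toAlgHom.toRingHom.toMonoidHom.comp ρbar.ρ

theorem matRep_apply {k : Type} [Field k] (ρbar : ResidualGaloisRep k)
    (b : Module.Basis (Fin 2) k ρbar.V) (σ : Gal) :
    matRep ρbar b σ = LinearMap.toMatrix b b (ρbar.ρ σ) := rfl

/-- The concrete matrix condition attached to a deformation condition `𝒟`: `A` is local, `r`
is adically continuous, and the adic representation `ofMatrix r` satisfies `𝒟`. -/
def Pm (𝒪 : Type) [CommRing 𝒪]
    (𝒟 : ∀ ⦃A : Type⦄ [CommRing A] [IsLocalRing A] [Algebra 𝒪 A], GaloisRepAdic A → Prop) :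
    MCond 𝒪 :=
  fun A _ _ r => ∃ (_ : IsLocalRing A) (hc : IsCts r), 𝒟 (ofMatrix r hc)

end Fermat.Agent.S53

end
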