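import Fermat.Agent.S53.RepBasic

/-!
# S53 / WP-D: Carayol-type descent for 2 × 2 matrix representations

If `r : Gal →* M2 A` is a strict lift of a residual representation `rbar` whose image spans
`M2 k`, and all traces of `r` lie in a subalgebra `E ⊆ A`, then `r` is conjugate to a
representation with entries in `E`.

The proof is characteristic-free and elementary.  Its core is the abstract statement
`Descent.exists_conj_entries_mem`: let `ε : A →+* k` be a ring homomorphism with nilpotent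
kernel, `E ⊆ A` a subring and `S ⊆ M2 A` a subring all of whose elements have trace in `E` and
which maps onto `M2 k` under `ε`.  Then there is an invertible matrix `g` reducing to `1` such
that `g⁻¹ S g ⊆ M2 E`.  (Lift the idempotent `e₁₁` to `S`, conjugate it to `e₁₁`, rescale so
that `e₂₁ ∈ S`, and then read off the entries of `x ∈ S` as traces of elements of `S`.)
-/

set_option autoImplicit false

namespace Fermat.Agent.S53

open IsLocalRing

namespace Descent

section Abstract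

variable {A k : Type} [CommRing A] [CommRing k]

/-- The conjugate `g⁻¹ S g` of a subring `S` of `M2 A` by an invertible matrix `g`. -/
def conjSubring (g : (M2 A)ˣ) (S : Subring (M2 A)) : Subring (M2 A) where
  carrier := {x | (g : M2 A) * x * (↑g⁻¹ : M2 A) ∈ S}
  mul_mem' := by
    intro x y hx hy
    have h : (g : M2 A) * (x * y) * (↑g⁻¹ : M2 A)
        = ((g : M2 A) * x * (↑g⁻¹ : M2 A)) * ((g : M2 A) * y * (↑g⁻¹ : M2 A)) := by
      simp [mul_assoc]
    simp only [Set.mem_ofPred_eq] at hx hy ⊢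
    rw [h]
    exact S.mul_mem hx hy
  one_mem' := by
    simp only [Set.mem_ofPred_eq, mul_one, Units.mul_inv]
    exact S.one_mem
  add_mem' := by
    intro x y hx hy
    simp only [Set.mem_ofPred_eq] at hx hy ⊢
    rw [mul_add, add_mul]
    exact S.add_mem hx hy
  zero_mem' := by
    simp only [Set.mem_ofPred_eq, mul_zero, zero_mul]
    exact S.zero_mem
  neg_mem' := by
    intro x hx
    simp only [Set.mem_ofPred_eq] at hx ⊢
    rw [mul_neg, neg_mul]
    exact S.neg_mem hx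

theorem mem_conjSubring {g : (M2 A)ˣ} {S : Subring (M2 A)} {x : M2 A} :
    x ∈ conjSubring g S ↔ (g : M2 A) * x * (↑g⁻¹ : M2 A) ∈ S := Iff.rfl

theorem conj_mem_conjSubring {g : (M2 A)ˣ} {S : Subring (M2 A)} {x : M2 A} (hx : x ∈ S) :
    (↑g⁻¹ : M2 A) * x * (g : M2 A) ∈ conjSubring g S := by
  rw [mem_conjSubring]
  have h : (g : M2 A) * ((↑g⁻¹ : M2 A) * x * (g : M2 A)) * (↑g⁻¹ : M2 A) = x := by
    simp [mul_assoc]
  rw [h]
  exact hx

variable (ε : A →+* k) (E : Subring A)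

theorem map_inv_eq_one {g : (M2 A)ˣ} (hg : ε.mapMatrix (g : M2 A) = 1) :
    ε.mapMatrix (↑g⁻¹ : M2 A) = 1 := by
  have h := congrArg ε.mapMatrix (Units.mul_inv g)
  rw [map_mul, hg, one_mul, map_one] at h
  exact h

theorem trace_mem_conj {g : (M2 A)ˣ} {S : Subring (M2 A)}
    (htr : ∀ x ∈ S, Matrix.trace x ∈ E) :
    ∀ x ∈ conjSubring g S, Matrix.trace x ∈ E := by
  intro x hx
  have h := htr _ (mem_conjSubring.1 hx)
  rw [Matrix.trace_mul_comm, ← mul_assoc, Units.inv_mul, one_mul] at h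
  exact h

theorem surj_conj {g : (M2 A)ˣ} {S : Subring (M2 A)} (hg : ε.mapMatrix (g : M2 A) = 1)
    (hsurj : ∀ m : M2 k, ∃ x ∈ S, ε.mapMatrix x = m) :
    ∀ m : M2 k, ∃ x ∈ conjSubring g S, ε.mapMatrix x = m := by
  intro m
  obtain ⟨x, hx, hxm⟩ := hsurj m
  refine ⟨_, conj_mem_conjSubring (g := g) hx, ?_⟩
  rw [map_mul, map_mul, hg, map_inv_eq_one ε hg, one_mul, mul_one, hxm]

/-! ### Consequences of the nilpotency of the kernel of `ε` -/

theorem pow_eq_zero_of_map_eq_zero {n : ℕ} (hn : RingHom.ker ε ^ n = ⊥) {x : A}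
    (hx : ε x = 0) : x ^ n = 0 := by
  have h := Ideal.pow_mem_pow (RingHom.mem_ker.2 hx) n
  rw [hn] at h
  exact h

/-- Elements of a subring reducing to `1` are invertible in the subring. -/
theorem exists_inv_mem {n : ℕ} (hn : RingHom.ker ε ^ n = ⊥) {b : A} (hb : b ∈ E)
    (hb1 : ε b = 1) : ∃ c ∈ E, c * b = 1 := by
  have hx : (1 - b) ^ n = 0 :=
    pow_eq_zero_of_map_eq_zero ε hn (by rw [map_sub, map_one, hb1, sub_self])
  refine ⟨∑ i ∈ Finset.range n, (1 - b) ^ i,
    E.sum_mem fun i _ => E.pow_mem (E.sub_mem E.one_mem hb) i, ?_⟩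
  have h := geom_sum_mul_neg (1 - b) n
  rwa [sub_sub_cancel, hx, sub_zero] at h

theorem isUnit_of_map_eq_one {n : ℕ} (hn : RingHom.ker ε ^ n = ⊥) {a : A} (ha : ε a = 1) :
    IsUnit a := by
  obtain ⟨c, -, hc⟩ := exists_inv_mem ε ⊤ hn (Subring.mem_top a) ha
  exact isUnit_iff_exists_inv'.2 ⟨c, hc⟩

omit [CommRing k] in
theorem pow_apply_mem (I : Ideal A) (M : M2 A) (h : ∀ i j, M i j ∈ I) (m : ℕ) :
    ∀ i j, (M ^ m) i j ∈ I ^ m := by
  induction m with
  | zero => intro i j; simp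
  | succ m ih =>
    intro i j
    rw [pow_succ, pow_succ, Matrix.mul_apply]
    exact Ideal.sum_mem _ fun l _ => Ideal.mul_mem_mul (ih i l) (h l j)

/-- Matrices reducing to zero are nilpotent. -/
theorem isNilpotent_of_map_eq_zero {n : ℕ} (hn : RingHom.ker ε ^ n = ⊥) (M : M2 A)
    (hM : ε.mapMatrix M = 0) : IsNilpotent M := by
  have hent : ∀ i j, M i j ∈ RingHom.ker ε := fun i j =>
    RingHom.mem_ker.2 (congrFun (congrFun hM i) j)
  refine ⟨n, ?_⟩
  ext i j
  have h := pow_apply_mem (RingHom.ker ε) M hent n i j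
  rw [hn] at h
  simpa using h

/-- A matrix reducing to the identity is invertible. -/
theorem isUnit_of_mapMatrix_eq_one {n : ℕ} (hn : RingHom.ker ε ^ n = ⊥) (Q : M2 A)
    (hQ : ε.mapMatrix Q = 1) : IsUnit Q := by
  rw [Matrix.isUnit_iff_isUnit_det]
  apply isUnit_of_map_eq_one ε hn
  rw [RingHom.map_det, hQ, Matrix.det_one]

/-! ### The three steps -/

omit [CommRing k] in
theorem e22_mem {S : Subring (M2 A)} (h11 : (!![1, 0; 0, 0] : M2 A) ∈ S) :
    (!![0, 0; 0, 1] : M2 A) ∈ S := by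
  have h : (!![0, 0; 0, 1] : M2 A) = 1 - !![1, 0; 0, 0] := by
    ext i j; fin_cases i <;> fin_cases j <;> simp
  rw [h]
  exact S.sub_mem S.one_mem h11

/-- Step A: if `S` contains `e₁₁` and `e₂₁`, all entries of elements of `S` lie in `E`. -/
theorem entries_mem {S : Subring (M2 A)}
    (htr : ∀ x ∈ S, Matrix.trace x ∈ E)
    (hsurj : ∀ m : M2 k, ∃ x ∈ S, ε.mapMatrix x = m)
    (hE : ∀ b ∈ E, ε b = 1 → ∃ c ∈ E, c * b = 1)
    (h11 : (!![1, 0; 0, 0] : M2 A) ∈ S) (h21 : (!![0, 0; 1, 0] : M2 A) ∈ S) :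
    ∀ x ∈ S, ∀ i j, x i j ∈ E := by
  have h22 := e22_mem h11
  have k00 : ∀ x ∈ S, x 0 0 ∈ E := by
    intro x hx
    have h := htr _ (S.mul_mem h11 hx)
    simpa [Matrix.trace, Fin.sum_univ_two, Matrix.vecMul, dotProduct] using h
  have k11 : ∀ x ∈ S, x 1 1 ∈ E := by
    intro x hx
    have h := htr _ (S.mul_mem h22 hx)
    simpa [Matrix.trace, Fin.sum_univ_two, Matrix.vecMul, dotProduct] using h
  have k01 : ∀ x ∈ S, x 0 1 ∈ E := by
    intro x hx
    have h := htr _ (S.mul_mem h21 hx)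
    simpa [Matrix.trace, Fin.sum_univ_two, Matrix.vecMul, dotProduct] using h
  obtain ⟨z, hz, hzr⟩ := hsurj !![0, 1; 0, 0]
  have hb : ε (z 0 1) = 1 := by
    have h := congrFun (congrFun hzr 0) 1
    simpa using h
  obtain ⟨c, hc, hcb⟩ := hE _ (k01 z hz) hb
  have k10 : ∀ x ∈ S, x 1 0 ∈ E := by
    intro x hx
    have h := htr _ (S.mul_mem (S.mul_mem (S.mul_mem h11 hz) h22) hx)
    have h' : z 0 1 * x 1 0 ∈ E := by
      simpa [Matrix.trace, Fin.sum_univ_two, Matrix.mul_apply, Matrix.vecMul, dotProduct]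
        using h
    have h'' := E.mul_mem hc h'
    rwa [← mul_assoc, hcb, one_mul] at h''
  intro x hx i j
  fin_cases i <;> fin_cases j
  · exact k00 x hx
  · exact k01 x hx
  · exact k10 x hx
  · exact k11 x hx

/-- Step B: if `S` contains `e₁₁`, a diagonal conjugate of `S` contains `e₁₁` and `e₂₁`. -/
theorem exists_conj_e21 {S : Subring (M2 A)}
    (hunit : ∀ a : A, ε a = 1 → IsUnit a)
    (hsurj : ∀ m : M2 k, ∃ x ∈ S, ε.mapMatrix x = m)
    (h11 : (!![1, 0; 0, 0] : M2 A) ∈ S) :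
    ∃ g : (M2 A)ˣ, ε.mapMatrix (g : M2 A) = 1 ∧
      (!![1, 0; 0, 0] : M2 A) ∈ conjSubring g S ∧
      (!![0, 0; 1, 0] : M2 A) ∈ conjSubring g S := by
  have h22 := e22_mem h11
  obtain ⟨y, hy, hyr⟩ := hsurj !![0, 0; 1, 0]
  have ha : ε (y 1 0) = 1 := by
    have h := congrFun (congrFun hyr 1) 0
    simpa using h
  obtain ⟨u, hu⟩ := hunit _ ha
  have hy' : (!![0, 0; (u : A), 0] : M2 A) ∈ S := by
    have h := S.mul_mem (S.mul_mem h22 hy) h11
    have h' : (!![0, 0; 0, 1] : M2 A) * y * !![1, 0; 0, 0] = !![0, 0; (u : A), 0] := by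
      ext i j
      fin_cases i <;> fin_cases j <;>
        simp [Matrix.mul_apply, Fin.sum_univ_two, Matrix.vecMul, dotProduct, hu]
    rwa [h'] at h
  let g : (M2 A)ˣ :=
    { val := !![1, 0; 0, (u : A)]
      inv := !![1, 0; 0, ((u⁻¹ : Aˣ) : A)]
      val_inv := by
        ext i j; fin_cases i <;> fin_cases j <;> simp [Matrix.mul_apply, Fin.sum_univ_two]
      inv_val := by
        ext i j; fin_cases i <;> fin_cases j <;> simp [Matrix.mul_apply, Fin.sum_univ_two] }
  refine ⟨g, ?_, ?_, ?_⟩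
  · change ε.mapMatrix (!![1, 0; 0, (u : A)] : M2 A) = 1
    ext i j; fin_cases i <;> fin_cases j <;> simp [hu, ha]
  · rw [mem_conjSubring]
    change (!![1, 0; 0, (u : A)] : M2 A) * !![1, 0; 0, 0] * !![1, 0; 0, ((u⁻¹ : Aˣ) : A)] ∈ S
    have h' : (!![1, 0; 0, (u : A)] : M2 A) * !![1, 0; 0, 0] * !![1, 0; 0, ((u⁻¹ : Aˣ) : A)]
        = !![1, 0; 0, 0] := by
      ext i j; fin_cases i <;> fin_cases j <;> simp [Matrix.mul_apply, Fin.sum_univ_two]
    rw [h']
    exact h11
  · rw [mem_conjSubring]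
    change (!![1, 0; 0, (u : A)] : M2 A) * !![0, 0; 1, 0] * !![1, 0; 0, ((u⁻¹ : Aˣ) : A)] ∈ S
    have h' : (!![1, 0; 0, (u : A)] : M2 A) * !![0, 0; 1, 0] * !![1, 0; 0, ((u⁻¹ : Aˣ) : A)]
        = !![0, 0; (u : A), 0] := by
      ext i j; fin_cases i <;> fin_cases j <;> simp [Matrix.mul_apply, Fin.sum_univ_two]
    rw [h']
    exact hy'

/-- Step C: some conjugate of `S` contains `e₁₁` (idempotent lifting). -/
theorem exists_conj_e11 {S : Subring (M2 A)}
    (hunit : ∀ Q : M2 A, ε.mapMatrix Q = 1 → IsUnit Q)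
    (hnil : ∀ M : M2 A, ε.mapMatrix M = 0 → IsNilpotent M)
    (hsurj : ∀ m : M2 k, ∃ x ∈ S, ε.mapMatrix x = m) :
    ∃ g : (M2 A)ˣ, ε.mapMatrix (g : M2 A) = 1 ∧
      (!![1, 0; 0, 0] : M2 A) ∈ conjSubring g S := by
  let f : S →+* M2 k := (ε.mapMatrix : M2 A →+* M2 k).comp S.subtype
  have hf : ∀ x : S, f x = ε.mapMatrix (x : M2 A) := fun x => rfl
  have hker : ∀ x ∈ RingHom.ker f, IsNilpotent x := by
    intro x hx
    rw [RingHom.mem_ker, hf] at hx
    obtain ⟨n, hn⟩ := hnil _ hx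
    exact ⟨n, Subtype.ext (by simpa using hn)⟩
  have hrange : (!![1, 0; 0, 0] : M2 k) ∈ f.range := by
    obtain ⟨x, hx, hxm⟩ := hsurj !![1, 0; 0, 0]
    exact ⟨⟨x, hx⟩, hxm⟩
  have hidem : IsIdempotentElem (!![1, 0; 0, 0] : M2 k) := by
    unfold IsIdempotentElem
    ext i j; fin_cases i <;> fin_cases j <;> simp [Matrix.mul_apply, Fin.sum_univ_two]
  obtain ⟨e', he', hfe'⟩ := exists_isIdempotentElem_eq_of_ker_isNilpotent f hker _ hrange hidem
  obtain ⟨e, he⟩ := e'
  have hee : e * e = e := by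
    have h := congrArg Subtype.val he'.eq
    simpa using h
  have hre : ε.mapMatrix e = !![1, 0; 0, 0] := hfe'
  have h1111 : (!![1, 0; 0, 0] : M2 A) * !![1, 0; 0, 0] = !![1, 0; 0, 0] := by
    ext i j; fin_cases i <;> fin_cases j <;> simp [Matrix.mul_apply, Fin.sum_univ_two]
  have h2211 : (!![0, 0; 0, 1] : M2 A) * !![1, 0; 0, 0] = 0 := by
    ext i j; fin_cases i <;> fin_cases j <;> simp [Matrix.mul_apply, Fin.sum_univ_two]
  have hQ : ε.mapMatrix (e * !![1, 0; 0, 0] + (1 - e) * !![0, 0; 0, 1]) = 1 := by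
    rw [map_add, map_mul, map_mul, map_sub, map_one, hre]
    ext i j
    fin_cases i <;> fin_cases j <;>
      simp [Matrix.mul_apply, Fin.sum_univ_two, Matrix.vecMul, dotProduct]
  obtain ⟨g, hg⟩ := hunit _ hQ
  refine ⟨g, by rw [hg]; exact hQ, ?_⟩
  rw [mem_conjSubring]
  have h1 : (g : M2 A) * !![1, 0; 0, 0] = e * (g : M2 A) := by
    rw [hg, add_mul, mul_assoc, mul_assoc, h1111, h2211, mul_zero, add_zero, mul_add,
      ← mul_assoc, ← mul_assoc, mul_sub, mul_one, hee, sub_self, zero_mul, add_zero]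
  rw [h1, mul_assoc, Units.mul_inv, mul_one]
  exact he

/-- The abstract descent statement: if `ε : A →+* k` has nilpotent kernel, a subring
`S ⊆ M2 A` with traces in the subring `E ⊆ A` and reduction onto `M2 k` can be conjugated
into `M2 E` by a matrix reducing to the identity. -/
theorem exists_conj_entries_mem {n : ℕ} (hn : RingHom.ker ε ^ n = ⊥) {S : Subring (M2 A)}
    (htr : ∀ x ∈ S, Matrix.trace x ∈ E)
    (hsurj : ∀ m : M2 k, ∃ x ∈ S, ε.mapMatrix x = m) :
    ∃ g : (M2 A)ˣ, ε.mapMatrix (g : M2 A) = 1 ∧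
      ∀ x ∈ S, ∀ i j, ((↑g⁻¹ : M2 A) * x * (g : M2 A)) i j ∈ E := by
  obtain ⟨g₁, hg₁, h11⟩ := exists_conj_e11 ε (isUnit_of_mapMatrix_eq_one ε hn)
    (isNilpotent_of_map_eq_zero ε hn) hsurj
  have htr₁ := trace_mem_conj E (g := g₁) htr
  have hsurj₁ := surj_conj ε hg₁ hsurj
  obtain ⟨g₂, hg₂, h11', h21'⟩ :=
    exists_conj_e21 ε (fun _ ha => isUnit_of_map_eq_one ε hn ha) hsurj₁ h11
  have htr₂ := trace_mem_conj E (g := g₂) htr₁
  have hsurj₂ := surj_conj ε hg₂ hsurj₁
  have key := entries_mem ε E htr₂ hsurj₂ (fun _ hb hb1 => exists_inv_mem ε E hn hb hb1)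
    h11' h21'
  refine ⟨g₁ * g₂, by rw [Units.val_mul, map_mul, hg₁, hg₂, one_mul], ?_⟩
  intro x hx i j
  have h := key _ (conj_mem_conjSubring (g := g₂) (conj_mem_conjSubring (g := g₁) hx)) i j
  have h' : (↑(g₁ * g₂)⁻¹ : M2 A) * x * ((g₁ * g₂ : (M2 A)ˣ) : M2 A)
      = (↑g₂⁻¹ : M2 A) * ((↑g₁⁻¹ : M2 A) * x * (g₁ : M2 A)) * (g₂ : M2 A) := by
    rw [mul_inv_rev, Units.val_mul, Units.val_mul]
    simp only [mul_assoc]
  rw [h']
  exact h

end Abstract

section Concrete

variable {𝒪 : Type} [CommRing 𝒪] [IsLocalRing 𝒪]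
variable {A : Type} [CommRing A] [Algebra 𝒪 A]

omit [Algebra 𝒪 A] [CommRing 𝒪] [IsLocalRing 𝒪] in
/-- The maximal ideal of a local artinian ring is nilpotent. -/
theorem exists_maximalIdeal_pow [IsLocalRing A] [IsArtinianRing A] :
    ∃ n : ℕ, maximalIdeal A ^ n = ⊥ := by
  have h := IsArtinianRing.isNilpotent_jacobson_bot (R := A)
  rw [IsLocalRing.jacobson_eq_maximalIdeal ⊥ bot_ne_top] at h
  exact h

/-- The residue map of a local `𝒪`-algebra with residue field generated by `𝒪`, as an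
`𝒪`-algebra map to the residue field of `𝒪`. -/
theorem exists_res [IsLocalRing A] (hloc : IsLocalHom (algebraMap 𝒪 A))
    (hsurj : Function.Surjective (residue A ∘ algebraMap 𝒪 A)) :
    ∃ ε : A →ₐ[𝒪] ResidueField 𝒪, ∀ a : A, ε a = 0 ↔ a ∈ maximalIdeal A := by
  have := hloc
  let φ : ResidueField 𝒪 →+* ResidueField A := ResidueField.map (algebraMap 𝒪 A)
  have hφ : Function.Bijective φ := by
    refine ⟨φ.injective, ?_⟩
    intro y
    obtain ⟨c, hc⟩ := hsurj y
    exact ⟨residue 𝒪 c, hc⟩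
  let e : ResidueField 𝒪 ≃+* ResidueField A := RingEquiv.ofBijective φ hφ
  let ε₀ : A →+* ResidueField 𝒪 :=
    (e.symm : ResidueField A →+* ResidueField 𝒪).comp (residue A)
  refine ⟨{ ε₀ with commutes' := ?_ }, ?_⟩
  · intro c
    change e.symm (residue A (algebraMap 𝒪 A c)) = algebraMap 𝒪 (ResidueField 𝒪) c
    rw [RingEquiv.symm_apply_eq]
    rfl
  · intro a
    change e.symm (residue A a) = 0 ↔ _
    rw [map_eq_zero_iff _ e.symm.injective, residue_eq_zero_iff]

/-- The residue map `ε : A → k` of a test algebra: it detects non-units and has nilpotent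
kernel. -/
theorem exists_res_pow (hA : IsTest 𝒪 A) :
    ∃ (ε : A →ₐ[𝒪] ResidueField 𝒪) (n : ℕ), (∀ a : A, ε a = 0 ↔ ¬ IsUnit a) ∧
      RingHom.ker (ε : A →+* ResidueField 𝒪) ^ n = ⊥ := by
  obtain ⟨hloc, hA'⟩ := hA
  have := hloc
  have := hA'.isArtinian
  obtain ⟨ε, hε⟩ := exists_res hA'.isLocalHom hA'.residue_surjective
  obtain ⟨n, hn⟩ := exists_maximalIdeal_pow (A := A)
  refine ⟨ε, n, fun a => by rw [hε, mem_maximalIdeal, mem_nonunits_iff], ?_⟩
  have hker : RingHom.ker (ε : A →+* ResidueField 𝒪) = maximalIdeal A := by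
    ext a
    rw [RingHom.mem_ker]
    exact hε a
  rw [hker, hn]

/-- The reduction of a strict lift is the residual representation. -/
theorem map_eq_of_isLift (ε : A →ₐ[𝒪] ResidueField 𝒪) (hε : ∀ a : A, ε a = 0 ↔ ¬ IsUnit a)
    {rbar : Gal →* M2 (ResidueField 𝒪)} {r : Gal →* M2 A} (hr : IsLift rbar r) (σ : Gal) :
    (ε : A →+* ResidueField 𝒪).mapMatrix (r σ) = rbar σ := by
  ext i j
  obtain ⟨c, hc, hu⟩ := hr σ i j
  have h := (hε _).2 hu
  rw [map_sub, AlgHom.commutes, sub_eq_zero, IsLocalRing.ResidueField.algebraMap_eq, hc] at h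
  exact h

/-- A representation whose reduction is the residual representation is a strict lift. -/
theorem isLift_of_map_eq (ε : A →ₐ[𝒪] ResidueField 𝒪) (hε : ∀ a : A, ε a = 0 ↔ ¬ IsUnit a)
    {rbar : Gal →* M2 (ResidueField 𝒪)} {r : Gal →* M2 A}
    (h : ∀ σ, (ε : A →+* ResidueField 𝒪).mapMatrix (r σ) = rbar σ) : IsLift rbar r := by
  intro σ i j
  obtain ⟨c, hc⟩ := IsLocalRing.residue_surjective (rbar σ i j)
  refine ⟨c, hc, (hε _).1 ?_⟩
  have h1 : ε (r σ i j) = rbar σ i j := congrFun (congrFun (h σ) i) j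
  rw [map_sub, AlgHom.commutes, sub_eq_zero, IsLocalRing.ResidueField.algebraMap_eq, hc, h1]

omit [IsLocalRing 𝒪] in
/-- Restricting the codomain of a matrix representation with entries in a subalgebra. -/
theorem exists_mapRep_val_eq (E : Subalgebra 𝒪 A) (r : Gal →* M2 A)
    (h : ∀ σ i j, r σ i j ∈ E) :
    ∃ r₀ : Gal →* M2 E, mapRep (E.val : E →+* A) r₀ = r := by
  have hinj : Function.Injective (fun M : M2 E => M.map (E.val : E → A)) :=
    Matrix.map_injective Subtype.val_injective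
  let f : Gal → M2 E := fun σ => Matrix.of fun i j => ⟨r σ i j, h σ i j⟩
  have hf : ∀ σ, (f σ).map (E.val : E → A) = r σ := fun σ => by ext i j; rfl
  refine ⟨{ toFun := f, map_one' := ?_, map_mul' := ?_ }, ?_⟩
  · apply hinj
    change (f 1).map (E.val : E → A) = (1 : M2 E).map (E.val : E → A)
    rw [hf, map_one, Matrix.map_one _ (map_zero _) (map_one _)]
  · intro σ τ
    apply hinj
    change (f (σ * τ)).map (E.val : E → A) = (f σ * f τ).map (E.val : E → A)
    rw [Matrix.map_mul, hf, hf, hf, map_mul]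
  · ext σ i j
    rfl

omit [IsLocalRing 𝒪] in
/-- The `𝒪`-span of the image of a matrix representation is the subalgebra it generates. -/
theorem mem_adjoin_range_iff (r : Gal →* M2 A) (x : M2 A) :
    x ∈ (Algebra.adjoin 𝒪 (Set.range r)).toSubring ↔ x ∈ Submodule.span 𝒪 (Set.range r) := by
  have h1 : Submonoid.closure (Set.range r) = MonoidHom.mrange r := by
    rw [← MonoidHom.coe_mrange, Submonoid.closure_eq]
  have h2 := Algebra.adjoin_eq_span (R := 𝒪) (s := Set.range r)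
  rw [h1, MonoidHom.coe_mrange] at h2
  rw [← h2]
  rfl

end Concrete

end Descent

variable {𝒪 : Type} [CommRing 𝒪] [IsLocalRing 𝒪] [Finite (ResidueField 𝒪)]
variable {A : Type} [CommRing A] [Algebra 𝒪 A]

-- The finiteness of the residue field (part of the fixed interface) is not needed by this
-- proof, hence the linter option.
set_option linter.unusedSectionVars false in
theorem descent (rbar : Gal →* M2 (ResidueField 𝒪))
    (hspan : Submodule.span (ResidueField 𝒪) (Set.range rbar) = ⊤)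
    (hA : IsTest 𝒪 A) (r : Gal →* M2 A) (hr : IsLift rbar r) (E : Subalgebra 𝒪 A)
    (htr : ∀ σ : Gal, Matrix.trace (r σ) ∈ E) :
    ∃ r₀ : Gal →* M2 E, IsLift rbar r₀ ∧ Conj (mapRep (E.val : E →+* A) r₀) r := by
  obtain ⟨ε, n, hε, hn⟩ := Descent.exists_res_pow hA
  have hred := Descent.map_eq_of_isLift ε hε hr
  -- `S`, the `𝒪`-span of the image of `r`, is a subring of `M2 A` with traces in `E` ...
  have hS := Descent.mem_adjoin_range_iff (𝒪 := 𝒪) r
  have htrS : ∀ x ∈ (Algebra.adjoin 𝒪 (Set.range r)).toSubring,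
      Matrix.trace x ∈ E.toSubring := by
    intro x hx
    rw [hS] at hx
    change Matrix.trace x ∈ E
    induction hx using Submodule.span_induction with
    | mem x hx =>
      obtain ⟨σ, rfl⟩ := hx
      exact htr σ
    | zero => rw [Matrix.trace_zero]; exact E.zero_mem
    | add x y _ _ hx hy => rw [Matrix.trace_add]; exact E.add_mem hx hy
    | smul c x _ hx => rw [Matrix.trace_smul]; exact E.smul_mem hx c
  -- ... whose reduction is all of `M2 k`
  have hsurj : ∀ m : M2 (ResidueField 𝒪), ∃ x ∈ (Algebra.adjoin 𝒪 (Set.range r)).toSubring,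
      (ε : A →+* ResidueField 𝒪).mapMatrix x = m := by
    intro m
    have hm : m ∈ Submodule.span (ResidueField 𝒪) (Set.range rbar) := by
      rw [hspan]; exact Submodule.mem_top
    induction hm using Submodule.span_induction with
    | mem m hm =>
      obtain ⟨σ, rfl⟩ := hm
      exact ⟨r σ, (hS _).2 (Submodule.subset_span ⟨σ, rfl⟩), hred σ⟩
    | zero => exact ⟨0, Subring.zero_mem _, map_zero _⟩
    | add m₁ m₂ _ _ h₁ h₂ =>
      obtain ⟨x₁, hx₁, rfl⟩ := h₁
      obtain ⟨x₂, hx₂, rfl⟩ := h₂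
      exact ⟨x₁ + x₂, Subring.add_mem _ hx₁ hx₂, map_add _ _ _⟩
    | smul c m _ h =>
      obtain ⟨x, hx, rfl⟩ := h
      obtain ⟨c', rfl⟩ := IsLocalRing.residue_surjective c
      refine ⟨c' • x, (hS _).2 (Submodule.smul_mem _ _ ((hS _).1 hx)), ?_⟩
      ext i j
      change ε (c' • x i j) = residue 𝒪 c' * ε (x i j)
      rw [map_smul, Algebra.smul_def, IsLocalRing.ResidueField.algebraMap_eq]
  obtain ⟨g, hg1, hg⟩ := Descent.exists_conj_entries_mem (ε : A →+* ResidueField 𝒪)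
    E.toSubring hn htrS hsurj
  -- the conjugated representation has entries in `E`
  let r₂ : Gal →* M2 A :=
    { toFun := fun σ => (↑g⁻¹ : M2 A) * r σ * (g : M2 A)
      map_one' := by simp
      map_mul' := fun σ τ => by simp [mul_assoc] }
  have hr₂ : ∀ σ, r₂ σ = (↑g⁻¹ : M2 A) * r σ * (g : M2 A) := fun σ => rfl
  obtain ⟨r₀, hr₀⟩ := Descent.exists_mapRep_val_eq E r₂ (fun σ i j =>
    hg (r σ) ((hS _).2 (Submodule.subset_span ⟨σ, rfl⟩)) i j)
  refine ⟨r₀, ?_, ⟨g, fun σ => ?_⟩⟩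
  · apply IsLift.of_map E.val
    rw [hr₀]
    apply Descent.isLift_of_map_eq ε hε
    intro σ
    rw [hr₂, map_mul, map_mul, hg1, Descent.map_inv_eq_one _ hg1, one_mul, mul_one, hred]
  · rw [hr₀, hr₂, ← mul_assoc, ← mul_assoc, Units.mul_inv, one_mul]

end Fermat.Agent.S53
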