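import Fermat.Agent.S53.Gen

/-!
# S53 / WP-G1: compatible surjections from a power series ring onto a good tower
-/

set_option autoImplicit false

namespace Fermat.Agent.S53

open IsLocalRing

namespace Evals

section General

variable {R : Type} [CommRing R] {σ : Type} [Finite σ] {A : Type} [CommRing A] [Algebra R A]

/-- A polynomial agrees with the truncations of its associated power series up to high order
terms. -/
theorem truncTotal_coe_sub_mem (n : ℕ) (p : MvPolynomial σ R) :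
    MvPowerSeries.truncTotal n (p : MvPowerSeries σ R) - p ∈
      MvPolynomial.idealOfVars σ R ^ n := by
  rw [MvPolynomial.mem_pow_idealOfVars_iff']
  intro x hx
  rw [MvPolynomial.coeff_sub, sub_eq_zero, MvPowerSeries.coeff_truncTotal _ hx,
    MvPolynomial.coeff_coe]

omit [Finite σ] in
/-- Polynomials of order at least `n` vanish at a family of nilpotents as soon as the `n`-th
power of the nilradical is zero. -/
theorem aeval_eq_zero_of_mem_pow (y : σ → A) (n : ℕ) (hy : ∀ i, IsNilpotent (y i))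
    (hn : nilradical A ^ n = ⊥) (p : MvPolynomial σ R)
    (hp : p ∈ MvPolynomial.idealOfVars σ R ^ n) : MvPolynomial.aeval y p = 0 := by
  have h1 : Ideal.map (MvPolynomial.aeval y : MvPolynomial σ R →ₐ[R] A)
      (MvPolynomial.idealOfVars σ R) ≤ nilradical A := by
    rw [Ideal.map_span, Ideal.span_le]
    rintro _ ⟨_, ⟨i, rfl⟩, rfl⟩
    simpa [mem_nilradical] using hy i
  have h2 : Ideal.map (MvPolynomial.aeval y : MvPolynomial σ R →ₐ[R] A)
      (MvPolynomial.idealOfVars σ R ^ n) ≤ ⊥ := by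
    rw [Ideal.map_pow, ← hn]
    exact Ideal.pow_right_mono h1 n
  have h3 := h2 (Ideal.mem_map_of_mem _ hp)
  simpa using h3

/-- Evaluation of power series at a family `y` at which all polynomials of order `≥ n` vanish:
evaluate the truncation at total degree `n`. -/
noncomputable def evRing (y : σ → A) (n : ℕ)
    (h : ∀ p ∈ MvPolynomial.idealOfVars σ R ^ n, MvPolynomial.aeval y p = 0) :
    MvPowerSeries σ R →+* A :=
  (Ideal.Quotient.lift (MvPolynomial.idealOfVars σ R ^ n)
    (MvPolynomial.aeval y : MvPolynomial σ R →ₐ[R] A).toRingHom (fun p hp => h p hp)).comp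
    (MvPowerSeries.truncTotalAlgHom σ R n).toRingHom

theorem evRing_apply (y : σ → A) (n : ℕ)
    (h : ∀ p ∈ MvPolynomial.idealOfVars σ R ^ n, MvPolynomial.aeval y p = 0)
    (f : MvPowerSeries σ R) :
    evRing y n h f = MvPolynomial.aeval y (MvPowerSeries.truncTotal n f) := rfl

theorem evRing_eq_of_sub_mem (y : σ → A) (n : ℕ)
    (h : ∀ p ∈ MvPolynomial.idealOfVars σ R ^ n, MvPolynomial.aeval y p = 0)
    (f : MvPowerSeries σ R) (p : MvPolynomial σ R)
    (hp : MvPowerSeries.truncTotal n f - p ∈ MvPolynomial.idealOfVars σ R ^ n) :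
    evRing y n h f = MvPolynomial.aeval y p := by
  rw [evRing_apply, ← sub_eq_zero, ← map_sub]
  exact h _ hp

theorem evRing_coe (y : σ → A) (n : ℕ)
    (h : ∀ p ∈ MvPolynomial.idealOfVars σ R ^ n, MvPolynomial.aeval y p = 0)
    (p : MvPolynomial σ R) :
    evRing y n h (p : MvPowerSeries σ R) = MvPolynomial.aeval y p :=
  evRing_eq_of_sub_mem y n h _ p (truncTotal_coe_sub_mem n p)

/-- `evRing` as a homomorphism of algebras over the coefficient ring. -/
noncomputable def ev (y : σ → A) (n : ℕ)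
    (h : ∀ p ∈ MvPolynomial.idealOfVars σ R ^ n, MvPolynomial.aeval y p = 0) :
    MvPowerSeries σ R →ₐ[R] A :=
  { evRing y n h with
    commutes' := fun r => by
      have h1 : algebraMap R (MvPowerSeries σ R) r =
          ((MvPolynomial.C r : MvPolynomial σ R) : MvPowerSeries σ R) := by
        rw [MvPolynomial.coe_C]; rfl
      show evRing y n h _ = _
      rw [h1, evRing_coe, MvPolynomial.aeval_C] }

theorem ev_apply (y : σ → A) (n : ℕ)
    (h : ∀ p ∈ MvPolynomial.idealOfVars σ R ^ n, MvPolynomial.aeval y p = 0)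
    (f : MvPowerSeries σ R) :
    ev y n h f = MvPolynomial.aeval y (MvPowerSeries.truncTotal n f) := rfl

theorem ev_eq_of_sub_mem (y : σ → A) (n : ℕ)
    (h : ∀ p ∈ MvPolynomial.idealOfVars σ R ^ n, MvPolynomial.aeval y p = 0)
    (f : MvPowerSeries σ R) (p : MvPolynomial σ R)
    (hp : MvPowerSeries.truncTotal n f - p ∈ MvPolynomial.idealOfVars σ R ^ n) :
    ev y n h f = MvPolynomial.aeval y p :=
  evRing_eq_of_sub_mem y n h f p hp

theorem ev_coe (y : σ → A) (n : ℕ)
    (h : ∀ p ∈ MvPolynomial.idealOfVars σ R ^ n, MvPolynomial.aeval y p = 0)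
    (p : MvPolynomial σ R) :
    ev y n h (p : MvPowerSeries σ R) = MvPolynomial.aeval y p :=
  evRing_coe y n h p

theorem ev_X (y : σ → A) (n : ℕ)
    (h : ∀ p ∈ MvPolynomial.idealOfVars σ R ^ n, MvPolynomial.aeval y p = 0) (i : σ) :
    ev y n h (MvPowerSeries.X i) = y i := by
  rw [← MvPolynomial.coe_X, ev_coe, MvPolynomial.aeval_X]

theorem ev_surjective (y : σ → A) (n : ℕ)
    (h : ∀ p ∈ MvPolynomial.idealOfVars σ R ^ n, MvPolynomial.aeval y p = 0)
    (hy : Algebra.adjoin R (Set.range y) = ⊤) : Function.Surjective (ev y n h) := by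
  intro a
  have ha : a ∈ (MvPolynomial.aeval y : MvPolynomial σ R →ₐ[R] A).range := by
    rw [← Algebra.adjoin_range_eq_range_aeval, hy]
    exact Algebra.mem_top
  obtain ⟨p, rfl⟩ := ha
  exact ⟨p, ev_coe y n h p⟩

theorem map_ev_span_X (y : σ → A) (n : ℕ)
    (h : ∀ p ∈ MvPolynomial.idealOfVars σ R ^ n, MvPolynomial.aeval y p = 0) :
    Ideal.map (ev y n h : MvPowerSeries σ R →+* A) (Ideal.span (Set.range MvPowerSeries.X)) =
      Ideal.span (Set.range y) := by
  rw [Ideal.map_span, ← Set.range_comp]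
  congr 2
  funext i
  exact ev_X y n h i

theorem comp_ev {B : Type} [CommRing B] [Algebra R B] (φ : A →ₐ[R] B) (y : σ → A) (y' : σ → B)
    (n n' : ℕ) (hnn : n' ≤ n)
    (h : ∀ p ∈ MvPolynomial.idealOfVars σ R ^ n, MvPolynomial.aeval y p = 0)
    (h' : ∀ p ∈ MvPolynomial.idealOfVars σ R ^ n', MvPolynomial.aeval y' p = 0)
    (hy : ∀ i, φ (y i) = y' i) : φ.comp (ev y n h) = ev y' n' h' := by
  refine AlgHom.ext fun f => ?_
  have h1 : (fun i => φ (y i)) = y' := funext hy
  have h2 : φ (ev y n h f) = MvPolynomial.aeval y' (MvPowerSeries.truncTotal n f) := by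
    rw [ev_apply, ← AlgHom.comp_apply, MvPolynomial.comp_aeval, h1]
  rw [AlgHom.comp_apply, h2]
  symm
  exact ev_eq_of_sub_mem y' n' h' f _
    (MvPowerSeries.truncTotal_sub_truncTotal_mem_pow_idealOfVars le_rfl hnn f)

end General

section Gens

variable {𝒪 : Type} [CommRing 𝒪] [IsLocalRing 𝒪] [Finite (ResidueField 𝒪)]

/-- The properties required of a generating family at level `n` of a tower. -/
def GoodGens (T : Tower 𝒪) (d : ℕ) (ϖ : 𝒪) (n : ℕ) (y : Fin (d + 1) → T.U n) : Prop :=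
  (∀ i, IsNilpotent (y i)) ∧ y 0 = algebraMap 𝒪 (T.U n) ϖ ∧
    Algebra.adjoin 𝒪 (Set.range y) = ⊤

variable {T : Tower 𝒪} {d : ℕ} {ϖ : 𝒪}

omit [Finite (ResidueField 𝒪)] in
theorem goodGens_one (hT : T.IsGood d) (hϖ : ϖ ∈ maximalIdeal 𝒪) :
    ∃ y : Fin (d + 1) → T.U 1, GoodGens T d ϖ 1 y := by
  obtain ⟨t, ht, hgen⟩ := hT.gen 1
  refine ⟨Fin.cons (algebraMap 𝒪 (T.U 1) ϖ) t, ?_, ?_, ?_⟩
  · intro i
    refine Fin.cases ?_ (fun j => ?_) i
    · rw [Fin.cons_zero]
      exact ((hT.isTest 1).isNilpotent_algebraMap_iff ϖ).mpr hϖ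
    · rw [Fin.cons_succ]
      exact ht j
  · rw [Fin.cons_zero]
  · rw [eq_top_iff, ← hgen]
    apply Algebra.adjoin_mono
    rintro _ ⟨j, rfl⟩
    exact ⟨j.succ, Fin.cons_succ _ _ _⟩

theorem goodGens_succ (hT : T.IsGood d) (m : ℕ) (y : Fin (d + 1) → T.U (m + 1))
    (hy : GoodGens T d ϖ (m + 1) y) :
    ∃ y' : Fin (d + 1) → T.U (m + 1 + 1), GoodGens T d ϖ (m + 1 + 1) y' ∧
      ∀ i, T.π (m + 1) (y' i) = y i := by
  obtain ⟨hnil, hzero, hgen⟩ := hy
  choose l hl using fun i => hT.surj (m + 1) (y i)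
  have key : ∀ i, T.π (m + 1) (Function.update l 0 (algebraMap 𝒪 _ ϖ) i) = y i := by
    intro i
    by_cases hi : i = 0
    · subst hi
      rw [Function.update_self, AlgHom.commutes, hzero]
    · rw [Function.update_of_ne hi]
      exact hl i
  have hnil' : ∀ i, IsNilpotent (Function.update l 0 (algebraMap 𝒪 _ ϖ) i) := by
    intro i
    rw [← (hT.isTest (m + 1 + 1)).not_isUnit_iff]
    intro hu
    have hu' := hu.map (T.π (m + 1))
    rw [key i] at hu'
    exact ((hT.isTest (m + 1)).not_isUnit_iff _).mpr (hnil i) hu'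
  refine ⟨Function.update l 0 (algebraMap 𝒪 _ ϖ), ⟨hnil', Function.update_self .., ?_⟩, key⟩
  refine IsTest.adjoin_eq_top_of_surjective (hT.isTest (m + 1 + 1)) (hT.isTest (m + 1))
    (T.π (m + 1)) (hT.surj (m + 1)) ?_ _ hnil' ?_
  · rw [hT.ker (m + 1)]
    exact Ideal.pow_le_pow_right (by omega)
  · have h1 : (fun i => T.π (m + 1) (Function.update l 0 (algebraMap 𝒪 _ ϖ) i)) = y :=
      funext key
    rw [h1]
    exact hgen

omit [IsLocalRing 𝒪] [Finite (ResidueField 𝒪)] in
theorem goodGens_zero (hT : T.IsGood d) (y : Fin (d + 1) → T.U 1) (hy : GoodGens T d ϖ 1 y) :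
    GoodGens T d ϖ 0 (fun i => T.π 0 (y i)) := by
  obtain ⟨hnil, hzero, hgen⟩ := hy
  refine ⟨fun i => (hnil i).map (T.π 0), ?_, ?_⟩
  · show T.π 0 (y 0) = _
    rw [hzero, AlgHom.commutes]
  · have h1 : Set.range (fun i => T.π 0 (y i)) = T.π 0 '' Set.range y := by
      rw [← Set.range_comp]
      rfl
    rw [h1, ← AlgHom.map_adjoin, hgen, Algebra.map_top, AlgHom.range_eq_top]
    exact hT.surj 0

/-- Generating families at level `m + 1`. -/
def GenFam (T : Tower 𝒪) (d : ℕ) (ϖ : 𝒪) (m : ℕ) : Type :=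
  {y : Fin (d + 1) → T.U (m + 1) // GoodGens T d ϖ (m + 1) y}

/-- Extend a family of generating families indexed from level `1` to level `0`. -/
def gens (T : Tower 𝒪) (d : ℕ) (z : ∀ m, Fin (d + 1) → T.U (m + 1)) :
    ∀ n, Fin (d + 1) → T.U n
  | 0 => fun i => T.π 0 (z 0 i)
  | (m + 1) => z m

/-- Compatible families of nilpotent generators of all levels of a good tower, whose `0`-th
entry is (the image of) a prescribed element of the maximal ideal of `𝒪`. -/
theorem exists_gens (hT : T.IsGood d) (hϖ : ϖ ∈ maximalIdeal 𝒪) :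
    ∃ y : ∀ n, Fin (d + 1) → T.U n,
      (∀ n i, IsNilpotent (y n i)) ∧
      (∀ n i, T.π n (y (n + 1) i) = y n i) ∧
      (∀ n, y n 0 = algebraMap 𝒪 (T.U n) ϖ) ∧
      (∀ n, Algebra.adjoin 𝒪 (Set.range (y n)) = ⊤) := by
  obtain ⟨y1, hy1⟩ := goodGens_one (ϖ := ϖ) hT hϖ
  have step : ∀ (m : ℕ) (s : GenFam T d ϖ m), ∃ s' : GenFam T d ϖ (m + 1),
      ∀ i, T.π (m + 1) (s'.1 i) = s.1 i := by
    intro m s
    obtain ⟨y', hy', hc⟩ := goodGens_succ hT m s.1 s.2
    exact ⟨⟨y', hy'⟩, hc⟩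
  choose f hf using step
  let z : ∀ m, GenFam T d ϖ m := fun m => Nat.rec (motive := GenFam T d ϖ) ⟨y1, hy1⟩ f m
  have hz : ∀ m i, T.π (m + 1) ((z (m + 1)).1 i) = (z m).1 i := fun m i => hf m (z m) i
  have hgood : ∀ n, GoodGens T d ϖ n (gens T d (fun m => (z m).1) n) := by
    rintro (_ | m)
    · exact goodGens_zero hT _ (z 0).2
    · exact (z m).2
  refine ⟨gens T d (fun m => (z m).1), fun n => (hgood n).1, ?_, fun n => (hgood n).2.1,
    fun n => (hgood n).2.2⟩
  rintro (_ | m) i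
  · rfl
  · exact hz m i

end Gens

end Evals

variable {𝒪 : Type} [CommRing 𝒪] [IsDomain 𝒪] [IsDiscreteValuationRing 𝒪]
  [Finite (ResidueField 𝒪)]

/-- A good tower (generated by `d` nilpotents at each level) receives compatible surjective
`𝒪`-algebra maps from the power series ring in `d + 1` variables (one extra variable is sent
to a uniformizer of `𝒪`), under which the ideal `(X)` maps onto the nilradical of each level.
-/
theorem exists_evals (T : Tower 𝒪) (d : ℕ) (hT : T.IsGood d) :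
    ∃ ev : ∀ n, MvPowerSeries (Fin (d + 1)) 𝒪 →ₐ[𝒪] T.U n,
      (∀ n, Function.Surjective (ev n)) ∧
      (∀ n, (T.π n).comp (ev (n + 1)) = ev n) ∧
      (∀ n, Ideal.map (ev n : MvPowerSeries (Fin (d + 1)) 𝒪 →+* T.U n)
        (Ideal.span (Set.range MvPowerSeries.X)) = nilradical (T.U n)) := by
  obtain ⟨ϖ, hϖ⟩ := IsDiscreteValuationRing.exists_irreducible 𝒪
  have hϖm : ϖ ∈ maximalIdeal 𝒪 := by
    rw [hϖ.maximalIdeal_eq]
    exact Ideal.mem_span_singleton_self ϖ
  obtain ⟨y, hnil, hcompat, hzero, hgen⟩ := Evals.exists_gens hT hϖm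
  have hkill : ∀ n, ∀ p ∈ MvPolynomial.idealOfVars (Fin (d + 1)) 𝒪 ^ (n + 1),
      MvPolynomial.aeval (y n) p = 0 :=
    fun n p hp => Evals.aeval_eq_zero_of_mem_pow (y n) (n + 1) (hnil n) (hT.nil n) p hp
  refine ⟨fun n => Evals.ev (y n) (n + 1) (hkill n),
    fun n => Evals.ev_surjective _ _ _ (hgen n), fun n => ?_, fun n => ?_⟩
  · exact Evals.comp_ev (T.π n) (y (n + 1)) (y n) (n + 1 + 1) (n + 1) (by omega) _ _ (hcompat n)
  · rw [Evals.map_ev_span_X]
    apply le_antisymm
    · rw [Ideal.span_le]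
      rintro _ ⟨i, rfl⟩
      exact mem_nilradical.mpr (hnil n i)
    · refine (IsTest.nilradical_le_of_adjoin_eq_top (hT.isTest n) _ ?_ (hgen n)).trans ?_
      · rintro _ ⟨i, rfl⟩
        exact hnil n i
      · rw [sup_le_iff]
        refine ⟨le_rfl, ?_⟩
        rw [hϖ.maximalIdeal_eq, Ideal.map_span, Set.image_singleton, Ideal.span_le,
          Set.singleton_subset_iff, ← hzero n]
        exact Ideal.subset_span ⟨0, rfl⟩

end Fermat.Agent.S53
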