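import Fermat.Agent.S53.TestAlg

/-!
# S53 / WP-E2: generators of test algebras (Nakayama), maps to the dual numbers,
cardinality bounds
-/

set_option autoImplicit false
set_option linter.unusedSectionVars false

namespace Fermat.Agent.S53

open IsLocalRing

variable {𝒪 : Type} [CommRing 𝒪] [IsLocalRing 𝒪] [Finite (ResidueField 𝒪)]
variable {A B : Type} [CommRing A] [Algebra 𝒪 A] [CommRing B] [Algebra 𝒪 B]

namespace Gen

omit [Finite (ResidueField 𝒪)] in
/-- The image of `𝔪_𝒪` lies in the nilradical of a test algebra. -/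
theorem map_maximalIdeal_le (hA : IsTest 𝒪 A) :
    Ideal.map (algebraMap 𝒪 A) (maximalIdeal 𝒪) ≤ nilradical A := by
  rw [Ideal.map_le_iff_le_comap]
  intro c hc
  rw [Ideal.mem_comap, mem_nilradical]
  exact (hA.isNilpotent_algebraMap_iff c).2 hc

omit [Algebra 𝒪 A] in
/-- The ideal spanned by nilpotents lies in the nilradical. -/
theorem span_le_nilradical (S : Set A) (hS : ∀ s ∈ S, IsNilpotent s) :
    Ideal.span S ≤ nilradical A := by
  rw [Ideal.span_le]
  intro s hs
  exact mem_nilradical.2 (hS s hs)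

omit [Finite (ResidueField 𝒪)] in
/-- Nakayama for the (nilpotent) maximal ideal of a test algebra. -/
theorem nilradical_le_of_le_sup_sq (hA : IsTest 𝒪 A) (I : Ideal A)
    (h : nilradical A ≤ I ⊔ nilradical A ^ 2) : nilradical A ≤ I := by
  obtain ⟨n, hn⟩ := hA.exists_nilradical_pow
  have key : ∀ k : ℕ, nilradical A ≤ I ⊔ nilradical A ^ (k + 1) := by
    intro k
    induction k with
    | zero => simp
    | succ k ih =>
      refine h.trans (sup_le le_sup_left ?_)
      calc nilradical A ^ 2 = nilradical A * nilradical A := pow_two _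
        _ ≤ (I ⊔ nilradical A ^ (k + 1)) * nilradical A := Ideal.mul_mono_left ih
        _ = I * nilradical A ⊔ nilradical A ^ (k + 1) * nilradical A := Ideal.sup_mul _ _ _
        _ ≤ I ⊔ nilradical A ^ (k + 1 + 1) :=
          sup_le_sup Ideal.mul_le_left (le_of_eq (pow_succ (nilradical A) (k + 1)).symm)
  have h2 := key n
  rw [pow_succ, hn, Ideal.bot_mul, sup_bot_eq] at h2
  exact h2

end Gen

/-- Nakayama for algebra generators: a set `S` of nilpotents generates the test algebra `A`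
as an `𝒪`-algebra as soon as it generates the maximal ideal modulo `𝔪_𝒪 A + 𝔪_A ^ 2`. -/
theorem IsTest.adjoin_eq_top (hA : IsTest 𝒪 A) (S : Set A) (hS : ∀ s ∈ S, IsNilpotent s)
    (h : nilradical A ≤ Ideal.span S ⊔ Ideal.map (algebraMap 𝒪 A) (maximalIdeal 𝒪) ⊔
      nilradical A ^ 2) :
    Algebra.adjoin 𝒪 S = ⊤ := by
  have h1 := Gen.nilradical_le_of_le_sup_sq hA _ h
  let G : Set A := S ∪ (algebraMap 𝒪 A '' (maximalIdeal 𝒪 : Set 𝒪))
  have hspan : Ideal.span S ⊔ Ideal.map (algebraMap 𝒪 A) (maximalIdeal 𝒪) = Ideal.span G := by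
    rw [Ideal.span_union]; rfl
  have hGE : G ⊆ (Algebra.adjoin 𝒪 S : Set A) := by
    rintro g (hg | ⟨c, -, rfl⟩)
    · exact Algebra.subset_adjoin hg
    · exact Subalgebra.algebraMap_mem _ c
  have hGnil : Ideal.span G ≤ nilradical A := by
    rw [← hspan]
    exact sup_le (Gen.span_le_nilradical S hS) (Gen.map_maximalIdeal_le hA)
  obtain ⟨n, hn⟩ := hA.exists_nilradical_pow
  have key : ∀ k : ℕ, ∀ a : A, ∃ e ∈ Algebra.adjoin 𝒪 S, a - e ∈ nilradical A ^ k := by
    intro k
    induction k with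
    | zero => intro a; exact ⟨0, zero_mem _, by simp⟩
    | succ k ih =>
      have hstep : ∀ y ∈ Ideal.span G,
          ∃ e ∈ Algebra.adjoin 𝒪 S, y - e ∈ nilradical A ^ (k + 1) := by
        intro y hy
        induction hy using Submodule.span_induction with
        | mem g hg => exact ⟨g, hGE hg, by simp⟩
        | zero => exact ⟨0, zero_mem _, by simp⟩
        | add y z _ _ ihy ihz =>
          obtain ⟨e1, he1, h1⟩ := ihy
          obtain ⟨e2, he2, h2⟩ := ihz
          refine ⟨e1 + e2, add_mem he1 he2, ?_⟩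
          have : y + z - (e1 + e2) = (y - e1) + (z - e2) := by ring
          rw [this]; exact add_mem h1 h2
        | smul a y hy ihy =>
          obtain ⟨ea, hea, ha⟩ := ih a
          obtain ⟨ey, hey, hy'⟩ := ihy
          refine ⟨ea * ey, mul_mem hea hey, ?_⟩
          have : a • y - ea * ey = (a - ea) * y + ea * (y - ey) := by
            rw [smul_eq_mul]; ring
          rw [this]
          refine add_mem ?_ (Ideal.mul_mem_left _ _ hy')
          rw [pow_succ]
          exact Ideal.mul_mem_mul ha (hGnil hy)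
      intro a
      obtain ⟨c, hc⟩ := hA.exists_sub_nilpotent a
      have hmem : a - algebraMap 𝒪 A c ∈ Ideal.span G := by
        rw [← hspan]; exact h1 (mem_nilradical.2 hc)
      obtain ⟨e, he, hd⟩ := hstep _ hmem
      refine ⟨algebraMap 𝒪 A c + e, add_mem (Subalgebra.algebraMap_mem _ c) he, ?_⟩
      have : a - (algebraMap 𝒪 A c + e) = a - algebraMap 𝒪 A c - e := by ring
      rw [this]; exact hd
  rw [eq_top_iff]
  intro a _
  obtain ⟨e, he, hd⟩ := key n a
  rw [hn, Ideal.mem_bot, sub_eq_zero] at hd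
  rw [hd]; exact he

/-- Conversely, algebra generators (consisting of nilpotents) together with `𝔪_𝒪` generate
the maximal ideal. -/
theorem IsTest.nilradical_le_of_adjoin_eq_top (hA : IsTest 𝒪 A) (S : Set A)
    (hS : ∀ s ∈ S, IsNilpotent s) (h : Algebra.adjoin 𝒪 S = ⊤) :
    nilradical A ≤ Ideal.span S ⊔ Ideal.map (algebraMap 𝒪 A) (maximalIdeal 𝒪) := by
  have key : ∀ a ∈ Algebra.adjoin 𝒪 S, ∃ c : 𝒪, a - algebraMap 𝒪 A c ∈ Ideal.span S := by
    intro a ha
    induction ha using Algebra.adjoin_induction with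
    | mem s hs => exact ⟨0, by simpa using Ideal.subset_span hs⟩
    | algebraMap r => exact ⟨r, by simp⟩
    | add x y _ _ hx hy =>
      obtain ⟨c1, h1⟩ := hx
      obtain ⟨c2, h2⟩ := hy
      refine ⟨c1 + c2, ?_⟩
      have : x + y - algebraMap 𝒪 A (c1 + c2) =
          (x - algebraMap 𝒪 A c1) + (y - algebraMap 𝒪 A c2) := by
        rw [map_add]; ring
      rw [this]; exact add_mem h1 h2
    | mul x y _ _ hx hy =>
      obtain ⟨c1, h1⟩ := hx
      obtain ⟨c2, h2⟩ := hy
      refine ⟨c1 * c2, ?_⟩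
      have : x * y - algebraMap 𝒪 A (c1 * c2) =
          x * (y - algebraMap 𝒪 A c2) + algebraMap 𝒪 A c2 * (x - algebraMap 𝒪 A c1) := by
        rw [map_mul]; ring
      rw [this]; exact add_mem (Ideal.mul_mem_left _ _ h2) (Ideal.mul_mem_left _ _ h1)
  intro a ha
  obtain ⟨c, hc⟩ := key a (by rw [h]; exact Algebra.mem_top)
  have hnil : algebraMap 𝒪 A c ∈ nilradical A := by
    have : algebraMap 𝒪 A c = a - (a - algebraMap 𝒪 A c) := by ring
    rw [this]
    exact sub_mem ha (Gen.span_le_nilradical S hS hc)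
  have hc' : c ∈ maximalIdeal 𝒪 := (hA.isNilpotent_algebraMap_iff c).1 (mem_nilradical.1 hnil)
  have : a = (a - algebraMap 𝒪 A c) + algebraMap 𝒪 A c := by ring
  rw [this]
  exact add_mem (Ideal.mem_sup_left hc) (Ideal.mem_sup_right (Ideal.mem_map_of_mem _ hc'))

/-- Lifting generators along a surjection whose kernel lies in the square of the maximal
ideal. -/
theorem IsTest.adjoin_eq_top_of_surjective (hA : IsTest 𝒪 A) (hB : IsTest 𝒪 B)
    (φ : A →ₐ[𝒪] B) (hφ : Function.Surjective φ)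
    (hker : RingHom.ker (φ : A →+* B) ≤ nilradical A ^ 2) {ι : Type} (t : ι → A)
    (hnil : ∀ i, IsNilpotent (t i))
    (ht : Algebra.adjoin 𝒪 (Set.range fun i => φ (t i)) = ⊤) :
    Algebra.adjoin 𝒪 (Set.range t) = ⊤ := by
  apply hA.adjoin_eq_top
  · rintro _ ⟨i, rfl⟩; exact hnil i
  · have hB' := hB.nilradical_le_of_adjoin_eq_top _
      (by rintro _ ⟨i, rfl⟩; exact (hnil i).map φ) ht
    have himg : Ideal.span (Set.range fun i => φ (t i)) ⊔
        Ideal.map (algebraMap 𝒪 B) (maximalIdeal 𝒪) =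
        Ideal.map (φ : A →+* B) (Ideal.span (Set.range t) ⊔
          Ideal.map (algebraMap 𝒪 A) (maximalIdeal 𝒪)) := by
      rw [Ideal.map_sup, Ideal.map_span, Ideal.map_map, ← Set.range_comp]
      have : (φ : A →+* B).comp (algebraMap 𝒪 A) = algebraMap 𝒪 B := φ.comp_algebraMap
      rw [this]
      rfl
    intro a ha
    have hφa : φ a ∈ nilradical B := mem_nilradical.2 ((mem_nilradical.1 ha).map φ)
    have h3 := hB' hφa
    rw [himg] at h3
    obtain ⟨a', ha', hEq⟩ := (Ideal.mem_map_iff_of_surjective (φ : A →+* B) hφ).1 h3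
    have hk : a - a' ∈ RingHom.ker (φ : A →+* B) := by
      rw [RingHom.mem_ker, map_sub, hEq]
      simp
    have : a = a' + (a - a') := by ring
    rw [this]
    exact add_mem (Ideal.mem_sup_left ha') (Ideal.mem_sup_right (hker hk))

/-- A test algebra with square-zero maximal ideal killed by `𝔪_𝒪` and generated by a single
nonzero element is isomorphic to the dual numbers over the residue field. -/
theorem IsTest.nonempty_algEquiv_dualNumber (hA : IsTest 𝒪 A) (x : A) (hx : x ≠ 0)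
    (hgen : nilradical A = Ideal.span {x}) (hsq : nilradical A ^ 2 = ⊥)
    (hm : ∀ c ∈ maximalIdeal 𝒪, algebraMap 𝒪 A c = 0) :
    ∃ e : A ≃ₐ[𝒪] DualNumber (ResidueField 𝒪), e x = DualNumber.eps := by
  have hloc := hA.isLocalRing
  have hxnil : x ∈ nilradical A := by rw [hgen]; exact Ideal.mem_span_singleton_self x
  have hmul : ∀ y z : A, y ∈ nilradical A → z ∈ nilradical A → y * z = 0 := by
    intro y z hy hz
    have : y * z ∈ nilradical A ^ 2 := by rw [pow_two]; exact Ideal.mul_mem_mul hy hz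
    rwa [hsq, Ideal.mem_bot] at this
  let f : ResidueField 𝒪 →ₐ[𝒪] A :=
    Ideal.Quotient.liftₐ (maximalIdeal 𝒪) (Algebra.ofId 𝒪 A) (fun c hc => hm c hc)
  have hf : ∀ c : 𝒪, f (residue 𝒪 c) = algebraMap 𝒪 A c := fun c => rfl
  let g : DualNumber (ResidueField 𝒪) →ₐ[𝒪] A :=
    DualNumber.lift ⟨(f, x), hmul x x hxnil hxnil, fun a => Commute.all _ _⟩
  have hg : ∀ z : DualNumber (ResidueField 𝒪), g z = f z.fst + f z.snd * x := fun z => rfl
  have hfinj : Function.Injective f := (f : ResidueField 𝒪 →+* A).injective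
  have hginj : Function.Injective g := by
    rw [injective_iff_map_eq_zero]
    intro z hz
    rw [hg] at hz
    have h1 : f z.fst ∈ nilradical A := by
      have : f z.fst = -(f z.snd * x) := eq_neg_of_add_eq_zero_left hz
      rw [this]
      exact neg_mem (Ideal.mul_mem_left _ _ hxnil)
    have h2 : z.fst = 0 := by
      obtain ⟨n, hn⟩ := mem_nilradical.1 h1
      rw [← map_pow] at hn
      have h4 : z.fst ^ n = 0 := hfinj (by rw [hn, map_zero])
      exact IsNilpotent.eq_zero ⟨n, h4⟩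
    have h3 : z.snd = 0 := by
      by_contra hne
      have hu : IsUnit (f z.snd) := (isUnit_iff_ne_zero.2 hne).map f
      rw [h2, map_zero, zero_add] at hz
      exact hx ((hu.mul_right_eq_zero).1 hz)
    exact TrivSqZeroExt.ext h2 h3
  have hgsurj : Function.Surjective g := by
    intro y
    obtain ⟨c, hc⟩ := hA.exists_sub_nilpotent y
    have hy : y - algebraMap 𝒪 A c ∈ Ideal.span {x} := by
      rw [← hgen]; exact mem_nilradical.2 hc
    obtain ⟨w, hw⟩ := Ideal.mem_span_singleton'.1 hy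
    obtain ⟨c', hc'⟩ := hA.exists_sub_nilpotent w
    have h0 : (w - algebraMap 𝒪 A c') * x = 0 := hmul _ _ (mem_nilradical.2 hc') hxnil
    refine ⟨TrivSqZeroExt.inl (residue 𝒪 c) + TrivSqZeroExt.inr (residue 𝒪 c'), ?_⟩
    rw [hg]
    simp only [TrivSqZeroExt.fst_add, TrivSqZeroExt.fst_inl, TrivSqZeroExt.fst_inr,
      TrivSqZeroExt.snd_add, TrivSqZeroExt.snd_inl, TrivSqZeroExt.snd_inr, add_zero, zero_add,
      hf]
    have h5 : algebraMap 𝒪 A c' * x = w * x := by
      rw [sub_mul, sub_eq_zero] at h0; exact h0.symm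
    rw [h5, hw]; ring
  refine ⟨(AlgEquiv.ofBijective g ⟨hginj, hgsurj⟩).symm, ?_⟩
  rw [AlgEquiv.symm_apply_eq]
  change x = g DualNumber.eps
  rw [hg]; simp

namespace Gen

/-- A test algebra (a finite ring) has a generating family of nilpotents of minimal length. -/
theorem exists_min_gen (hA : IsTest 𝒪 A) :
    ∃ m : ℕ, ∃ t : Fin m → A, (∀ i, IsNilpotent (t i)) ∧
      Algebra.adjoin 𝒪 (Set.range t) = ⊤ ∧
      ∀ m' < m, ¬ ∃ t' : Fin m' → A, (∀ i, IsNilpotent (t' i)) ∧
        Algebra.adjoin 𝒪 (Set.range t') = ⊤ := by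
  have hfinA : Finite A := hA.finite
  have hex : ∃ m : ℕ, ∃ t : Fin m → A, (∀ i, IsNilpotent (t i)) ∧
      Algebra.adjoin 𝒪 (Set.range t) = ⊤ := by
    obtain ⟨m, ⟨e⟩⟩ := Finite.exists_equiv_fin {a : A // IsNilpotent a}
    refine ⟨m, fun i => (e.symm i : A), fun i => (e.symm i).2, ?_⟩
    apply hA.adjoin_eq_top
    · rintro _ ⟨i, rfl⟩; exact (e.symm i).2
    · intro a ha
      refine Ideal.mem_sup_left (Ideal.mem_sup_left (Ideal.subset_span ?_))
      exact ⟨e ⟨a, mem_nilradical.1 ha⟩, by simp⟩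
  classical
  obtain ⟨t, hnil, hgen⟩ := Nat.find_spec hex
  exact ⟨Nat.find hex, t, hnil, hgen, fun m' hm' => Nat.find_min hex hm'⟩

/-- For a minimal generating family, each member is detected by a map to the dual numbers
killing all the others. -/
theorem exists_hom_of_minimal (hA : IsTest 𝒪 A) (m : ℕ) (t : Fin (m + 1) → A)
    (hnil : ∀ i, IsNilpotent (t i)) (hgen : Algebra.adjoin 𝒪 (Set.range t) = ⊤)
    (hmin : ¬ ∃ t' : Fin m → A, (∀ i, IsNilpotent (t' i)) ∧
      Algebra.adjoin 𝒪 (Set.range t') = ⊤) (j : Fin (m + 1)) :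
    ∃ u : A →ₐ[𝒪] DualNumber (ResidueField 𝒪),
      u (t j) = DualNumber.eps ∧ ∀ i, i ≠ j → u (t i) = 0 := by
  let S : Set A := Set.range (fun i : Fin m => t (j.succAbove i))
  let J : Ideal A :=
    Ideal.span S ⊔ Ideal.map (algebraMap 𝒪 A) (maximalIdeal 𝒪) ⊔ nilradical A ^ 2
  have hS : ∀ s ∈ S, IsNilpotent s := by rintro _ ⟨i, rfl⟩; exact hnil _
  have hSJ : ∀ i : Fin m, t (j.succAbove i) ∈ J := fun i =>
    Ideal.mem_sup_left (Ideal.mem_sup_left (Ideal.subset_span ⟨i, rfl⟩))
  have hnot : ¬ nilradical A ≤ J := fun hle =>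
    hmin ⟨_, fun i => hnil _, hA.adjoin_eq_top S hS hle⟩
  have hle : nilradical A ≤ Ideal.span {t j} ⊔ J := by
    refine (hA.nilradical_le_of_adjoin_eq_top _
      (by rintro _ ⟨i, rfl⟩; exact hnil i) hgen).trans ?_
    refine sup_le ?_ (le_sup_of_le_right (le_sup_of_le_left le_sup_right))
    rw [Ideal.span_le]
    rintro _ ⟨i, rfl⟩
    rcases Fin.eq_self_or_eq_succAbove j i with h | ⟨i', h⟩
    · rw [h]; exact Ideal.mem_sup_left (Ideal.mem_span_singleton_self _)
    · rw [h]; exact Ideal.mem_sup_right (hSJ i')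
  have htj : t j ∉ J := fun hmem =>
    hnot (hle.trans (sup_le ((Ideal.span_singleton_le_iff_mem _).2 hmem) le_rfl))
  have hJtop : J ≠ ⊤ := fun h => htj (h ▸ Submodule.mem_top)
  have hT : IsTest 𝒪 (A ⧸ J) := hA.quotient J hJtop
  let q : A →ₐ[𝒪] A ⧸ J := Ideal.Quotient.mkₐ 𝒪 J
  have hq : Function.Surjective q := Ideal.Quotient.mkₐ_surjective 𝒪 J
  have hq0 : ∀ a : A, q a = 0 ↔ a ∈ J := fun a => Ideal.Quotient.eq_zero_iff_mem
  have hnilT : nilradical (A ⧸ J) = Ideal.map (q : A →+* A ⧸ J) (nilradical A) :=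
    (hA.map_nilradical hT q hq).symm
  have hmapJ : Ideal.map (q : A →+* A ⧸ J) J = ⊥ := Ideal.map_quotient_self J
  have hgenT : nilradical (A ⧸ J) = Ideal.span {q (t j)} := by
    apply le_antisymm
    · rw [hnilT]
      refine (Ideal.map_mono hle).trans ?_
      rw [Ideal.map_sup, Ideal.map_span, Set.image_singleton, hmapJ, sup_bot_eq]
      exact le_rfl
    · rw [Ideal.span_singleton_le_iff_mem, mem_nilradical]
      exact (hnil j).map q
  have hsqT : nilradical (A ⧸ J) ^ 2 = ⊥ := by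
    rw [hnilT, ← Ideal.map_pow, eq_bot_iff]
    exact (Ideal.map_mono (le_sup_right : nilradical A ^ 2 ≤ J)).trans (le_of_eq hmapJ)
  have hmT : ∀ c ∈ maximalIdeal 𝒪, algebraMap 𝒪 (A ⧸ J) c = 0 := by
    intro c hc
    change q (algebraMap 𝒪 A c) = 0
    rw [hq0]
    exact Ideal.mem_sup_left (Ideal.mem_sup_right (Ideal.mem_map_of_mem _ hc))
  have hxT : q (t j) ≠ 0 := fun h0 => htj ((hq0 _).1 h0)
  obtain ⟨e, he⟩ := hT.nonempty_algEquiv_dualNumber (q (t j)) hxT hgenT hsqT hmT
  refine ⟨(e : A ⧸ J →ₐ[𝒪] DualNumber (ResidueField 𝒪)).comp q, he, ?_⟩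
  intro i hi
  obtain ⟨i', rfl⟩ := Fin.exists_succAbove_eq hi
  have h0 : q (t (j.succAbove i')) = 0 := (hq0 _).2 (hSJ i')
  change e (q _) = 0
  rw [h0, map_zero]

end Gen

/-- Either `A` is generated by `N` nilpotent elements, or it has more than `N` distinct
`𝒪`-algebra maps to the dual numbers. -/
theorem IsTest.exists_gen_or_many_homs (hA : IsTest 𝒪 A) (N : ℕ) :
    (∃ t : Fin N → A, (∀ i, IsNilpotent (t i)) ∧ Algebra.adjoin 𝒪 (Set.range t) = ⊤) ∨
    (∃ u : Fin (N + 1) → (A →ₐ[𝒪] DualNumber (ResidueField 𝒪)), Function.Injective u) := by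
  obtain ⟨m, t, hnil, hgen, hmin⟩ := Gen.exists_min_gen hA
  by_cases hmN : m ≤ N
  · left
    refine ⟨fun i => if h : (i : ℕ) < m then t ⟨i, h⟩ else 0, ?_, ?_⟩
    · intro i
      dsimp only
      split_ifs
      · exact hnil _
      · exact IsNilpotent.zero
    · rw [eq_top_iff, ← hgen]
      apply Algebra.adjoin_mono
      rintro _ ⟨i, rfl⟩
      exact ⟨⟨i, lt_of_lt_of_le i.2 hmN⟩, by simp⟩
  · right
    obtain ⟨m', rfl⟩ : ∃ m', m = m' + 1 := ⟨m - 1, by omega⟩
    have hall := fun j =>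
      Gen.exists_hom_of_minimal hA m' t hnil hgen (hmin m' (Nat.lt_succ_self _)) j
    choose u hu1 hu2 using hall
    have hinj : Function.Injective u := by
      intro j j' hjj
      by_contra hne
      have h1 := hu1 j
      rw [hjj, hu2 j' j hne] at h1
      have h2 := congrArg TrivSqZeroExt.snd h1
      simp at h2
    exact ⟨u ∘ Fin.castLE (by omega), hinj.comp (Fin.castLE_injective _)⟩

namespace Gen

omit [IsLocalRing 𝒪] [Finite (ResidueField 𝒪)] in
/-- A module spanned by a finite family and killed by an ideal `I` of finite index has at most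
`|𝒪 ⧸ I| ^ |ι|` elements. -/
theorem card_le_of_span {M ι : Type} [AddCommGroup M] [Module 𝒪 M] [Finite ι] (I : Ideal 𝒪)
    [Finite (𝒪 ⧸ I)] (v : ι → M) (hv : Submodule.span 𝒪 (Set.range v) = ⊤)
    (hI : ∀ c ∈ I, ∀ x : M, c • x = 0) : Nat.card M ≤ Nat.card (ι → 𝒪 ⧸ I) := by
  classical
  have hfin := Fintype.ofFinite ι
  let F : (ι → 𝒪 ⧸ I) → M := fun c => ∑ i, (Quotient.out (c i) : 𝒪) • v i
  apply Nat.card_le_card_of_surjective F
  intro x
  have hx : x ∈ Submodule.span 𝒪 (Set.range v) := by rw [hv]; trivial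
  obtain ⟨c, rfl⟩ := (Submodule.mem_span_range_iff_exists_fun 𝒪).1 hx
  refine ⟨fun i => Ideal.Quotient.mk I (c i), ?_⟩
  apply Finset.sum_congr rfl
  intro i _
  have h1 : Quotient.out (Ideal.Quotient.mk I (c i)) - c i ∈ I := by
    rw [← Ideal.Quotient.eq]; exact Quotient.out_eq _
  have h2 := hI _ h1 (v i)
  rw [sub_smul, sub_eq_zero] at h2
  exact h2

end Gen

/-- Test algebras of nil-level `n` generated by `d` nilpotents have bounded cardinality. -/
theorem exists_card_bound [IsNoetherianRing 𝒪] (d n : ℕ) :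
    ∃ C : ℕ, ∀ (A : Type) [CommRing A] [Algebra 𝒪 A], IsTest 𝒪 A → nilradical A ^ n = ⊥ →
      (∃ t : Fin d → A, (∀ i, IsNilpotent (t i)) ∧ Algebra.adjoin 𝒪 (Set.range t) = ⊤) →
      Nat.card A ≤ C := by
  have hfin1 : Finite (𝒪 ⧸ maximalIdeal 𝒪) := ‹Finite (ResidueField 𝒪)›
  have hfin2 : Finite (𝒪 ⧸ maximalIdeal 𝒪 ^ n) :=
    Ideal.finite_quotient_pow (IsNoetherian.noetherian _) n
  refine ⟨Nat.card ((Fin d → Fin n) → 𝒪 ⧸ maximalIdeal 𝒪 ^ n), ?_⟩
  intro A _ _ hA hn ⟨t, hnil, hgen⟩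
  let mon : (Fin d → Fin n) → A := fun e => ∏ i, t i ^ (e i : ℕ)
  apply Gen.card_le_of_span (maximalIdeal 𝒪 ^ n) mon
  · have hspan : ∀ p : MvPolynomial (Fin d) 𝒪,
        MvPolynomial.aeval t p ∈ Submodule.span 𝒪 (Set.range mon) := by
      intro p
      induction p using MvPolynomial.induction_on' with
      | monomial u c =>
        rw [MvPolynomial.aeval_monomial, Finsupp.prod_fintype _ _ (fun i => pow_zero _)]
        by_cases hu : ∀ i, u i < n
        · have h3 : ∏ i, t i ^ u i = mon (fun i => ⟨u i, hu i⟩) := rfl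
          rw [h3, ← Algebra.smul_def]
          exact Submodule.smul_mem _ _ (Submodule.subset_span ⟨_, rfl⟩)
        · push Not at hu
          obtain ⟨i, hi⟩ := hu
          have hz : t i ^ u i = 0 := by
            have h1 : t i ^ n ∈ nilradical A ^ n :=
              Ideal.pow_mem_pow (mem_nilradical.2 (hnil i)) n
            rw [hn, Ideal.mem_bot] at h1
            exact pow_eq_zero_of_le hi h1
          rw [Finset.prod_eq_zero (Finset.mem_univ i) hz, mul_zero]
          exact zero_mem _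
      | add p q hp hq => rw [map_add]; exact add_mem hp hq
    rw [eq_top_iff]
    intro a _
    have ha : a ∈ Algebra.adjoin 𝒪 (Set.range t) := by rw [hgen]; trivial
    rw [Algebra.adjoin_range_eq_range_aeval] at ha
    obtain ⟨p, rfl⟩ := ha
    exact hspan p
  · intro c hc x
    have h1 : algebraMap 𝒪 A c ∈ (Ideal.map (algebraMap 𝒪 A) (maximalIdeal 𝒪)) ^ n := by
      rw [← Ideal.map_pow]; exact Ideal.mem_map_of_mem _ hc
    have h2 : algebraMap 𝒪 A c ∈ nilradical A ^ n :=
      Ideal.pow_right_mono (Gen.map_maximalIdeal_le hA) n h1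
    rw [hn, Ideal.mem_bot] at h2
    rw [Algebra.smul_def, h2, zero_mul]

end Fermat.Agent.S53
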