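import Fermat.Agent.S53.Descent
import Fermat.Agent.S53.Gen

/-!
# S53 / WP-F1: minimal pairs and universal pairs at each nil-level
-/

set_option autoImplicit false

namespace Fermat.Agent.S53

open IsLocalRing

variable {𝒪 : Type} [CommRing 𝒪] [IsLocalRing 𝒪] [IsNoetherianRing 𝒪]
  [Finite (ResidueField 𝒪)]

namespace Minimal

/-- A pair: a test algebra together with a strict lift of `rbar` satisfying `P`. -/
structure IsPair (rbar : Gal →* M2 (ResidueField 𝒪)) (P : MCond 𝒪) (A : Type) [CommRing A]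
    [Algebra 𝒪 A] (r : Gal →* M2 A) : Prop where
  isTest : IsTest 𝒪 A
  isLift : IsLift rbar r
  cond : P A r

/-- Minimality: `r` cannot be conjugated (as a strict lift) into a proper subalgebra. -/
def IsMin (rbar : Gal →* M2 (ResidueField 𝒪)) (A : Type) [CommRing A] [Algebra 𝒪 A]
    (r : Gal →* M2 A) : Prop :=
  ∀ E : Subalgebra 𝒪 A, (∃ r₀ : Gal →* M2 E, IsLift rbar r₀ ∧
    Conj (mapRep (E.val : E →+* A) r₀) r) → E = ⊤

omit [IsNoetherianRing 𝒪] in
/-- (M1), by strong induction on the cardinality: every pair contains a minimal pair. -/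
theorem exists_min_aux {rbar : Gal →* M2 (ResidueField 𝒪)} {P : MCond 𝒪} (hP : IsDef rbar P) :
    ∀ (N : ℕ) (B : Type) [CommRing B] [Algebra 𝒪 B] (s : Gal →* M2 B), IsPair rbar P B s →
      Nat.card B ≤ N →
      ∃ (A : Type) (_ : CommRing A) (_ : Algebra 𝒪 A) (r : Gal →* M2 A) (u : A →ₐ[𝒪] B),
        Function.Injective u ∧ IsPair rbar P A r ∧ IsMin rbar A r ∧
          Conj (mapRep (u : A →+* B) r) s := by
  intro N
  induction N with
  | zero =>
    intro B _ _ s hs hcard
    exfalso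
    have := hs.isTest.finite
    have := hs.isTest.isLocalRing
    have : 0 < Nat.card B := Nat.card_pos
    omega
  | succ N ih =>
    intro B _ _ s hs hcard
    by_cases hmin : IsMin rbar B s
    · refine ⟨B, inferInstance, inferInstance, s, AlgHom.id 𝒪 B, Function.injective_id, hs,
        hmin, ?_⟩
      have : mapRep ((AlgHom.id 𝒪 B : B →ₐ[𝒪] B) : B →+* B) s = s := mapRep_id s
      rw [this]
      exact Conj.refl s
    · unfold IsMin at hmin
      push Not at hmin
      obtain ⟨E, ⟨r₀, hr₀, hconj⟩, hE⟩ := hmin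
      have hEtest : IsTest 𝒪 E := hs.isTest.subalgebra E
      have hPE : P E r₀ := hP.descend E B hEtest hs.isTest E.val Subtype.val_injective r₀
        (hP.conj B hs.isTest s _ hconj.symm hs.cond)
      have := hs.isTest.finite
      have hlt : Nat.card E < Nat.card B := by
        obtain ⟨b, hb⟩ : ∃ b : B, b ∉ E := by
          by_contra hcon
          push Not at hcon
          exact hE (eq_top_iff.mpr fun b _ => hcon b)
        exact Finite.card_subtype_lt hb
      obtain ⟨A, _, _, r, u, hu, hAr, hmin', hc⟩ := ih E r₀ ⟨hEtest, hr₀, hPE⟩ (by omega)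
      refine ⟨A, inferInstance, inferInstance, r, E.val.comp u, ?_, hAr, hmin', ?_⟩
      · exact Subtype.val_injective.comp hu
      · have : mapRep ((E.val.comp u : A →ₐ[𝒪] B) : A →+* B) r =
            mapRep (E.val : E →+* B) (mapRep (u : A →+* E) r) := by
          rw [← mapRep_comp]; rfl
        rw [this]
        exact (Conj.map _ hc).trans hconj

omit [IsNoetherianRing 𝒪] in
/-- (M1): every pair contains a minimal pair. -/
theorem exists_min {rbar : Gal →* M2 (ResidueField 𝒪)} {P : MCond 𝒪} (hP : IsDef rbar P)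
    (B : Type) [CommRing B] [Algebra 𝒪 B] (s : Gal →* M2 B) (hs : IsPair rbar P B s) :
    ∃ (A : Type) (_ : CommRing A) (_ : Algebra 𝒪 A) (r : Gal →* M2 A) (u : A →ₐ[𝒪] B),
      Function.Injective u ∧ IsPair rbar P A r ∧ IsMin rbar A r ∧
        Conj (mapRep (u : A →+* B) r) s :=
  exists_min_aux hP (Nat.card B) B s hs le_rfl

omit [IsNoetherianRing 𝒪] in
/-- (M2): a map from a pair to a minimal pair (compatible up to conjugacy) is surjective. -/
theorem surjective_of_isMin {rbar : Gal →* M2 (ResidueField 𝒪)} {A B : Type} [CommRing A]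
    [Algebra 𝒪 A] [CommRing B] [Algebra 𝒪 B] {r : Gal →* M2 A} {s : Gal →* M2 B}
    (hA : IsTest 𝒪 A) (hr : IsLift rbar r) (hB : IsTest 𝒪 B) (hmin : IsMin rbar B s)
    (u : A →ₐ[𝒪] B) (hc : Conj (mapRep (u : A →+* B) r) s) : Function.Surjective u := by
  have hE : IsTest 𝒪 u.range := hB.subalgebra u.range
  have h := hmin u.range ⟨mapRep (u.rangeRestrict : A →+* u.range) r,
    IsLift.map u.rangeRestrict (IsTest.not_isUnit_map hA hE u.rangeRestrict) hr, ?_⟩
  · exact (AlgHom.range_eq_top u).mp h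
  · have : mapRep (u.range.val : u.range →+* B) (mapRep (u.rangeRestrict : A →+* u.range) r) =
        mapRep (u : A →+* B) r := by
      rw [← mapRep_comp]; rfl
    rw [this]
    exact hc

omit [IsNoetherianRing 𝒪] in
/-- (M3): two maps out of a minimal pair that agree up to conjugacy are equal. -/
theorem eq_of_isMin {rbar : Gal →* M2 (ResidueField 𝒪)}
    (hspan : Submodule.span (ResidueField 𝒪) (Set.range rbar) = ⊤)
    {A B : Type} [CommRing A] [Algebra 𝒪 A] [CommRing B] [Algebra 𝒪 B] {r : Gal →* M2 A}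
    (hA : IsTest 𝒪 A) (hr : IsLift rbar r) (hmin : IsMin rbar A r) (u v : A →ₐ[𝒪] B)
    (hc : Conj (mapRep (u : A →+* B) r) (mapRep (v : A →+* B) r)) : u = v := by
  have htr : ∀ σ, Matrix.trace (r σ) ∈ AlgHom.equalizer u v := by
    intro σ
    rw [AlgHom.mem_equalizer]
    have := hc.trace_eq σ
    rw [trace_mapRep, trace_mapRep] at this
    exact this
  obtain ⟨r₀, hr₀, hc₀⟩ := descent rbar hspan hA r hr (AlgHom.equalizer u v) htr
  have htop := hmin _ ⟨r₀, hr₀, hc₀⟩
  ext a
  have ha : a ∈ AlgHom.equalizer u v := htop ▸ Algebra.mem_top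
  exact ha

omit [IsNoetherianRing 𝒪] in
/-- (T): a minimal pair is generated by `N` nilpotents, `N` the tangent bound. -/
theorem exists_gen {rbar : Gal →* M2 (ResidueField 𝒪)} {P : MCond 𝒪} (hP : IsDef rbar P)
    {N : ℕ} (hN : ∀ (ι : Type) [Fintype ι]
      (f : ι → (Gal →* M2 (DualNumber (ResidueField 𝒪)))),
      (∀ i, IsLift rbar (f i)) → (∀ i, P (DualNumber (ResidueField 𝒪)) (f i)) →
      (∀ i j, Conj (f i) (f j) → i = j) → Fintype.card ι ≤ N)
    {A : Type} [CommRing A] [Algebra 𝒪 A] {r : Gal →* M2 A} (hAr : IsPair rbar P A r)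
    (hmin : IsMin rbar A r) :
    ∃ t : Fin N → A, (∀ i, IsNilpotent (t i)) ∧ Algebra.adjoin 𝒪 (Set.range t) = ⊤ := by
  rcases hAr.isTest.exists_gen_or_many_homs N with h | ⟨u, hu⟩
  · exact h
  · exfalso
    have := hN (Fin (N + 1))
      (fun i => mapRep ((u i : A →ₐ[𝒪] DualNumber (ResidueField 𝒪)) :
        A →+* DualNumber (ResidueField 𝒪)) r)
      (fun i => IsLift.map (u i)
        (IsTest.not_isUnit_map hAr.isTest isTest_dualNumber (u i)) hAr.isLift)
      (fun i => hP.map A _ hAr.isTest isTest_dualNumber (u i) r hAr.cond)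
      (fun i j hc => hu (eq_of_isMin hP.burnside hAr.isTest hAr.isLift hmin (u i) (u j) hc))
    simp at this

omit [IsNoetherianRing 𝒪] [Finite (ResidueField 𝒪)] in
/-- The residual representation is a strict lift of itself. -/
theorem isLift_self (rbar : Gal →* M2 (ResidueField 𝒪)) : IsLift rbar rbar := by
  intro σ i j
  obtain ⟨c, hc⟩ := IsLocalRing.residue_surjective (rbar σ i j)
  refine ⟨c, hc, ?_⟩
  have : algebraMap 𝒪 (ResidueField 𝒪) c = residue 𝒪 c := rfl
  rw [this, hc, sub_self]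
  exact not_isUnit_zero

omit [IsNoetherianRing 𝒪] [Finite (ResidueField 𝒪)] in
/-- Gluing two strict lifts of `rbar` over a fibre product over the residue field. -/
theorem exists_glue {rbar : Gal →* M2 (ResidueField 𝒪)} {U B F : Type} [CommRing U]
    [Algebra 𝒪 U] [CommRing B] [Algebra 𝒪 B] [CommRing F] [Algebra 𝒪 F]
    (hB : IsTest 𝒪 B) (pU : F →ₐ[𝒪] U) (pB : F →ₐ[𝒪] B)
    (hinj : Function.Injective (fun x : F => (pU x, pB x)))
    (hsurj : ∀ (a : U) (b : B), (∃ c : 𝒪, ¬ IsUnit (a - algebraMap 𝒪 U c) ∧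
      ¬ IsUnit (b - algebraMap 𝒪 B c)) → ∃ x : F, pU x = a ∧ pB x = b)
    {r : Gal →* M2 U} {s : Gal →* M2 B} (hr : IsLift rbar r) (hs : IsLift rbar s) :
    ∃ t : Gal →* M2 F, mapRep (pU : F →+* U) t = r ∧ mapRep (pB : F →+* B) t = s := by
  have key : ∀ σ i j, ∃ x : F, pU x = r σ i j ∧ pB x = s σ i j := by
    intro σ i j
    obtain ⟨c, hc, hcu⟩ := hr σ i j
    obtain ⟨c', hc', hcu'⟩ := hs σ i j
    refine hsurj _ _ ⟨c, hcu, ?_⟩
    have hmem : c' - c ∈ maximalIdeal 𝒪 := by
      rw [← IsLocalRing.residue_eq_zero_iff, map_sub, hc, hc', sub_self]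
    have hnil : IsNilpotent (algebraMap 𝒪 B (c' - c)) :=
      (hB.isNilpotent_algebraMap_iff _).mpr hmem
    have h1 : IsNilpotent (s σ i j - algebraMap 𝒪 B c') := (hB.not_isUnit_iff _).mp hcu'
    rw [hB.not_isUnit_iff]
    have : s σ i j - algebraMap 𝒪 B c =
        (s σ i j - algebraMap 𝒪 B c') + algebraMap 𝒪 B (c' - c) := by
      rw [map_sub]; ring
    rw [this]
    exact (Commute.all _ _).isNilpotent_add h1 hnil
  choose M hMU hMB using key
  have hext : ∀ X Y : M2 F, (pU : F →+* U).mapMatrix X = (pU : F →+* U).mapMatrix Y →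
      (pB : F →+* B).mapMatrix X = (pB : F →+* B).mapMatrix Y → X = Y := by
    intro X Y h1 h2
    ext i j
    apply hinj
    exact Prod.ext (congrFun (congrFun h1 i) j) (congrFun (congrFun h2 i) j)
  have hMU' : ∀ σ, (pU : F →+* U).mapMatrix (Matrix.of (M σ) : M2 F) = r σ := by
    intro σ; ext i j; exact hMU σ i j
  have hMB' : ∀ σ, (pB : F →+* B).mapMatrix (Matrix.of (M σ) : M2 F) = s σ := by
    intro σ; ext i j; exact hMB σ i j
  refine ⟨{ toFun := fun σ => Matrix.of (M σ), map_one' := ?_, map_mul' := ?_ }, ?_, ?_⟩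
  · apply hext
    · rw [hMU', map_one, map_one]
    · rw [hMB', map_one, map_one]
  · intro σ τ
    apply hext
    · rw [hMU', map_mul r, map_mul (pU : F →+* U).mapMatrix, hMU', hMU']
    · rw [hMB', map_mul s, map_mul (pB : F →+* B).mapMatrix, hMB', hMB']
  · ext σ i j; exact hMU σ i j
  · ext σ i j; exact hMB σ i j

omit [IsNoetherianRing 𝒪] in
/-- (U): a minimal pair of maximal cardinality at nil-level `n` is universal. -/
theorem isUniv_of_max {rbar : Gal →* M2 (ResidueField 𝒪)} {P : MCond 𝒪} (hP : IsDef rbar P)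
    {n : ℕ} {U : Type} [CommRing U] [Algebra 𝒪 U] {r : Gal →* M2 U}
    (hUr : IsPair rbar P U r) (hmin : IsMin rbar U r) (hnil : nilradical U ^ n = ⊥)
    (hmax : ∀ (A : Type) [CommRing A] [Algebra 𝒪 A] (r' : Gal →* M2 A), IsPair rbar P A r' →
      IsMin rbar A r' → nilradical A ^ n = ⊥ → Nat.card A ≤ Nat.card U) :
    IsUniv rbar P n U r := by
  refine ⟨hUr.isTest, hnil, hUr.isLift, hUr.cond, ?_⟩
  intro B _ _ hB hBnil s hs hPs
  -- the fibre product and the glued representation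
  obtain ⟨F, _, _, pU, pB, hF, hinj, hsurj⟩ := exists_fibK hUr.isTest hB
  obtain ⟨t, htU, htB⟩ := exists_glue hB pU pB hinj hsurj hUr.isLift hs
  have htlift : IsLift rbar t := IsLift.of_map pU (by rw [htU]; exact hUr.isLift)
  have hPt : P F t := hP.fib U B F hUr.isTest hB hF pU pB hinj hsurj t
    (by rw [htU]; exact hUr.cond) (by rw [htB]; exact hPs)
  have hFnil : nilradical F ^ n = ⊥ :=
    nilradical_pow_eq_bot_of_injective_prod (pU : F →+* U) (pB : F →+* B) hinj hnil hBnil
  -- a minimal pair inside the fibre product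
  obtain ⟨M, _, _, m, ι, hι, hMm, hMmin, hMc⟩ := exists_min hP F t ⟨hF, htlift, hPt⟩
  have hMnil : nilradical M ^ n = ⊥ :=
    nilradical_pow_eq_bot_of_injective (ι : M →+* F) hι hFnil
  have hqc : Conj (mapRep ((pU.comp ι : M →ₐ[𝒪] U) : M →+* U) m) r := by
    have : mapRep ((pU.comp ι : M →ₐ[𝒪] U) : M →+* U) m =
        mapRep (pU : F →+* U) (mapRep (ι : M →+* F) m) := by
      rw [← mapRep_comp]; rfl
    rw [this, ← htU]
    exact Conj.map _ hMc
  have hpBc : Conj (mapRep ((pB.comp ι : M →ₐ[𝒪] B) : M →+* B) m) s := by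
    have : mapRep ((pB.comp ι : M →ₐ[𝒪] B) : M →+* B) m =
        mapRep (pB : F →+* B) (mapRep (ι : M →+* F) m) := by
      rw [← mapRep_comp]; rfl
    rw [this, ← htB]
    exact Conj.map _ hMc
  have hqs : Function.Surjective (pU.comp ι) :=
    surjective_of_isMin hMm.isTest hMm.isLift hUr.isTest hmin _ hqc
  have := hMm.isTest.finite
  have hqb : Function.Bijective (pU.comp ι) :=
    hqs.bijective_of_nat_card_le (hmax M m hMm hMmin hMnil)
  let e : M ≃ₐ[𝒪] U := AlgEquiv.ofBijective (pU.comp ι) hqb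
  have hem : Conj (mapRep ((e.symm : U →ₐ[𝒪] M) : U →+* M) r) m := by
    have h1 := Conj.map ((e.symm : U →ₐ[𝒪] M) : U →+* M) hqc
    have h2 : mapRep ((e.symm : U →ₐ[𝒪] M) : U →+* M)
        (mapRep ((pU.comp ι : M →ₐ[𝒪] U) : M →+* U) m) = m := by
      ext σ i j
      exact e.symm_apply_apply _
    rw [h2] at h1
    exact h1.symm
  have hex : Conj (mapRep (((pB.comp ι).comp (e.symm : U →ₐ[𝒪] M) : U →ₐ[𝒪] B) : U →+* B) r)
      s := by
    have : mapRep (((pB.comp ι).comp (e.symm : U →ₐ[𝒪] M) : U →ₐ[𝒪] B) : U →+* B) r =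
        mapRep ((pB.comp ι : M →ₐ[𝒪] B) : M →+* B)
          (mapRep ((e.symm : U →ₐ[𝒪] M) : U →+* M) r) := by
      rw [← mapRep_comp]; rfl
    rw [this]
    exact (Conj.map _ hem).trans hpBc
  refine ⟨(pB.comp ι).comp (e.symm : U →ₐ[𝒪] M), hex, fun v hv => ?_⟩
  exact eq_of_isMin hP.burnside hUr.isTest hUr.isLift hmin v _ (hv.trans hex.symm)

end Minimal

/-- For a deformation problem `(rbar, P)` satisfying `IsDef`, there is a uniform `d` such that
for every nil-level `n ≥ 1` there is a universal pair `(U, r)` at level `n`, with `U` generated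
as an `𝒪`-algebra by `d` nilpotent elements. -/
theorem exists_univ (rbar : Gal →* M2 (ResidueField 𝒪)) (P : MCond 𝒪) (hP : IsDef rbar P) :
    ∃ d : ℕ, ∀ n : ℕ, 0 < n → ∃ (U : Type) (_ : CommRing U) (_ : Algebra 𝒪 U)
      (r : Gal →* M2 U), IsUniv rbar P n U r ∧
        ∃ t : Fin d → U, (∀ i, IsNilpotent (t i)) ∧ Algebra.adjoin 𝒪 (Set.range t) = ⊤ := by
  obtain ⟨N, hN⟩ := hP.tangent
  refine ⟨N, fun n hn => ?_⟩
  obtain ⟨C, hC⟩ := exists_card_bound (𝒪 := 𝒪) N n
  -- the set of cardinalities of minimal pairs at nil-level `n`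
  let S : Set ℕ := {m | ∃ (A : Type) (_ : CommRing A) (_ : Algebra 𝒪 A) (r : Gal →* M2 A),
    Minimal.IsPair rbar P A r ∧ Minimal.IsMin rbar A r ∧ nilradical A ^ n = ⊥ ∧ Nat.card A = m}
  have hSne : S.Nonempty := by
    obtain ⟨A, _, _, r, u, hu, hAr, hmin, -⟩ := Minimal.exists_min hP (ResidueField 𝒪) rbar
      ⟨isTest_residueField, Minimal.isLift_self rbar, hP.base⟩
    refine ⟨Nat.card A, A, inferInstance, inferInstance, r, hAr, hmin, ?_, rfl⟩
    apply nilradical_pow_eq_bot_of_injective (u : A →+* ResidueField 𝒪) hu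
    rw [nilradical_eq_zero, Ideal.zero_eq_bot, Ideal.bot_pow hn.ne']
  have hSbdd : BddAbove S := by
    refine ⟨C, ?_⟩
    rintro m ⟨A, _, _, r, hAr, hmin, hnil, rfl⟩
    exact hC A hAr.isTest hnil (Minimal.exists_gen hP hN hAr hmin)
  obtain ⟨U, _, _, r, hUr, hmin, hnil, hcard⟩ := Nat.sSup_mem hSne hSbdd
  have hmax : ∀ (A : Type) [CommRing A] [Algebra 𝒪 A] (r' : Gal →* M2 A),
      Minimal.IsPair rbar P A r' → Minimal.IsMin rbar A r' → nilradical A ^ n = ⊥ →
      Nat.card A ≤ Nat.card U := by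
    intro A _ _ r' hAr' hmin' hnil'
    rw [hcard]
    exact le_csSup hSbdd ⟨A, inferInstance, inferInstance, r', hAr', hmin', hnil', rfl⟩
  exact ⟨U, inferInstance, inferInstance, r, Minimal.isUniv_of_max hP hUr hmin hnil hmax,
    Minimal.exists_gen hP hN hUr hmin⟩

end Fermat.Agent.S53
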