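import Fermat.Agent.S53.Defs

/-!
# S53: basic lemmas on matrix representations (`mapRep`, `Conj`, `IsLift`)
-/

set_option autoImplicit false

namespace Fermat.Agent.S53

open IsLocalRing

section

variable {A B C : Type} [CommRing A] [CommRing B] [CommRing C]

@[simp] theorem mapRep_apply (φ : A →+* B) (r : Gal →* M2 A) (σ : Gal) :
    mapRep φ r σ = (r σ).map φ := rfl

theorem mapRep_apply_apply (φ : A →+* B) (r : Gal →* M2 A) (σ : Gal) (i j : Fin 2) :
    mapRep φ r σ i j = φ (r σ i j) := rfl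

theorem mapRep_comp (ψ : B →+* C) (φ : A →+* B) (r : Gal →* M2 A) :
    mapRep (ψ.comp φ) r = mapRep ψ (mapRep φ r) := by
  ext σ i j; rfl

theorem mapRep_id (r : Gal →* M2 A) : mapRep (RingHom.id A) r = r := by
  ext σ i j; rfl

theorem mapRep_injective (φ : A →+* B) (hφ : Function.Injective φ) {r r' : Gal →* M2 A}
    (h : mapRep φ r = mapRep φ r') : r = r' := by
  ext σ i j
  apply hφ
  have := congrArg (fun t : Gal →* M2 B => t σ i j) h
  simpa [mapRep_apply_apply] using this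

theorem Conj.refl (r : Gal →* M2 A) : Conj r r := ⟨1, fun σ => by simp⟩

theorem Conj.symm {r r' : Gal →* M2 A} (h : Conj r r') : Conj r' r := by
  obtain ⟨g, hg⟩ := h
  refine ⟨g⁻¹, fun σ => ?_⟩
  have h1 : r σ = (↑g⁻¹ : M2 A) * r' σ * (g : M2 A) := by
    rw [mul_assoc, ← hg σ, ← mul_assoc, Units.inv_mul, one_mul]
  rw [h1, mul_assoc, Units.mul_inv, mul_one]

theorem Conj.trans {r r' r'' : Gal →* M2 A} (h : Conj r r') (h' : Conj r' r'') : Conj r r'' := by
  obtain ⟨g, hg⟩ := h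
  obtain ⟨g', hg'⟩ := h'
  refine ⟨g' * g, fun σ => ?_⟩
  rw [Units.val_mul, mul_assoc, hg σ, ← mul_assoc, hg' σ, mul_assoc]

theorem Conj.map (φ : A →+* B) {r r' : Gal →* M2 A} (h : Conj r r') :
    Conj (mapRep φ r) (mapRep φ r') := by
  obtain ⟨g, hg⟩ := h
  refine ⟨Units.map (φ.mapMatrix : M2 A →+* M2 B).toMonoidHom g, fun σ => ?_⟩
  have := congrArg (φ.mapMatrix : M2 A →+* M2 B) (hg σ)
  simpa [map_mul] using this

theorem Conj.trace_eq {r r' : Gal →* M2 A} (h : Conj r r') (σ : Gal) :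
    Matrix.trace (r σ) = Matrix.trace (r' σ) := by
  obtain ⟨g, hg⟩ := h
  have h1 : r σ = (↑g⁻¹ : M2 A) * (r' σ * (g : M2 A)) := by
    rw [← hg σ, ← mul_assoc, Units.inv_mul, one_mul]
  rw [h1, Matrix.trace_mul_comm, mul_assoc, Units.mul_inv, mul_one]

theorem trace_mapRep (φ : A →+* B) (r : Gal →* M2 A) (σ : Gal) :
    Matrix.trace (mapRep φ r σ) = φ (Matrix.trace (r σ)) := by
  simp [Matrix.trace]

end

section Lift

variable {𝒪 : Type} [CommRing 𝒪] [IsLocalRing 𝒪]
variable {A B : Type} [CommRing A] [Algebra 𝒪 A] [CommRing B] [Algebra 𝒪 B]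
variable {rbar : Gal →* M2 (ResidueField 𝒪)}

/-- Strict lifts push forward along algebra maps sending non-units to non-units. -/
theorem IsLift.map (φ : A →ₐ[𝒪] B) (hφ : ∀ a : A, ¬ IsUnit a → ¬ IsUnit (φ a))
    {r : Gal →* M2 A} (h : IsLift rbar r) : IsLift rbar (mapRep (φ : A →+* B) r) := by
  intro σ i j
  obtain ⟨c, hc, hu⟩ := h σ i j
  refine ⟨c, hc, ?_⟩
  have := hφ _ hu
  simpa [mapRep_apply_apply, map_sub] using this

/-- Strict lifts can be detected after pushing forward along any algebra map. -/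
theorem IsLift.of_map (φ : A →ₐ[𝒪] B) {r : Gal →* M2 A}
    (h : IsLift rbar (mapRep (φ : A →+* B) r)) : IsLift rbar r := by
  intro σ i j
  obtain ⟨c, hc, hu⟩ := h σ i j
  refine ⟨c, hc, fun hunit => hu ?_⟩
  have := hunit.map φ
  simpa [mapRep_apply_apply, map_sub] using this

end Lift

end Fermat.Agent.S53
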