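import Fermat.Agent.S53.RepBasic

/-!
# S53 / WP-E1: basic structure theory of artinian test algebras

`IsTest 𝒪 A` : `A` is a local artinian `𝒪`-algebra, `𝒪 → A` local, `𝒪 → A/𝔪_A` surjective.
When the residue field of `𝒪` is finite, such `A` are finite rings.
-/

set_option autoImplicit false

namespace Fermat.Agent.S53

open IsLocalRing

variable {𝒪 : Type} [CommRing 𝒪] [IsLocalRing 𝒪]
variable {A B F : Type} [CommRing A] [Algebra 𝒪 A] [CommRing B] [Algebra 𝒪 B]
  [CommRing F] [Algebra 𝒪 F]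

omit [IsLocalRing 𝒪] in
theorem IsTest.isLocalRing (h : IsTest 𝒪 A) : IsLocalRing A := h.1

namespace TestAlg

/-- A ring map into a finite ring which is injective reflects units. -/
theorem isUnit_of_injective_of_finite {R S : Type} [CommRing R] [CommRing S] [Finite S]
    (φ : R →+* S) (hφ : Function.Injective φ) (x : R) (h : IsUnit (φ x)) : IsUnit x := by
  obtain ⟨u, hu⟩ := h
  have h1 : u ^ orderOf u = 1 := pow_orderOf_eq_one u
  have h2 : 0 < orderOf u := orderOf_pos u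
  refine IsUnit.of_pow_eq_one (n := orderOf u) ?_ h2.ne'
  apply hφ
  rw [map_pow, map_one, ← hu, ← Units.val_pow_eq_pow_val, h1, Units.val_one]

/-- Criterion: an artinian `𝒪`-algebra `F` with an `𝒪`-algebra map `ε` to the residue field
of `𝒪` such that every element outside the kernel of `ε` is a unit, is a test algebra. -/
theorem isTest_of_resK [IsArtinianRing F] (ε : F →ₐ[𝒪] ResidueField 𝒪)
    (h : ∀ x : F, ε x ≠ 0 → IsUnit x) : IsTest 𝒪 F := by
  have : Nontrivial F := (ε : F →+* ResidueField 𝒪).domain_nontrivial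
  have hu : ∀ x : F, IsUnit x ↔ ε x ≠ 0 := fun x =>
    ⟨fun hx => (hx.map ε).ne_zero, h x⟩
  have hloc : IsLocalRing F := by
    refine IsLocalRing.of_nonunits_add ?_
    intro a b ha hb
    rw [mem_nonunits_iff, hu, not_not] at ha hb ⊢
    rw [map_add, ha, hb, add_zero]
  have := hloc
  have hc : ∀ c : 𝒪, ε (algebraMap 𝒪 F c) = residue 𝒪 c := fun c => by
    rw [AlgHom.commutes]; rfl
  refine ⟨hloc, ⟨⟨?_⟩, ?_, inferInstance⟩⟩
  · intro c hcu
    rw [hu, hc] at hcu
    by_contra hc'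
    exact hcu ((residue_eq_zero_iff c).mpr ((mem_maximalIdeal c).mpr hc'))
  · intro y
    obtain ⟨x, rfl⟩ := residue_surjective y
    obtain ⟨c, hcx⟩ := residue_surjective (ε x)
    refine ⟨c, ?_⟩
    have h0 : ε (x - algebraMap 𝒪 F c) = 0 := by rw [map_sub, hc, hcx, sub_self]
    have h1 : ¬ IsUnit (x - algebraMap 𝒪 F c) := by rw [hu, not_not]; exact h0
    have h2 : residue F (x - algebraMap 𝒪 F c) = 0 :=
      (residue_eq_zero_iff _).mpr ((mem_maximalIdeal _).mpr h1)
    rw [map_sub, sub_eq_zero] at h2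
    exact h2.symm

/-- In the quotient of a local ring by the `(n+1)`-st power of its maximal ideal, every ideal
consisting of non-units has vanishing `(n+1)`-st power. -/
theorem pow_eq_bot_of_forall_not_isUnit {R : Type} [CommRing R] [IsLocalRing R] (n : ℕ)
    (J : Ideal (R ⧸ maximalIdeal R ^ (n + 1))) (hJ : ∀ x ∈ J, ¬ IsUnit x) :
    J ^ (n + 1) = ⊥ := by
  have h1 : J ≤ Ideal.map (Ideal.Quotient.mk (maximalIdeal R ^ (n + 1))) (maximalIdeal R) := by
    intro x hx
    obtain ⟨a, rfl⟩ := Ideal.Quotient.mk_surjective x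
    have ha : ¬ IsUnit a := fun h => hJ _ hx (h.map _)
    exact Ideal.mem_map_of_mem _ ((mem_maximalIdeal a).mpr ha)
  rw [eq_bot_iff]
  refine (Ideal.pow_right_mono h1 (n + 1)).trans ?_
  rw [← Ideal.map_pow, Ideal.map_quotient_self]

theorem maximalIdeal_pow_ne_top {R : Type} [CommRing R] [IsLocalRing R] (n : ℕ) :
    maximalIdeal R ^ (n + 1) ≠ ⊤ := by
  intro h
  have h1 : maximalIdeal R ^ (n + 1) ≤ maximalIdeal R := Ideal.pow_le_self (Nat.succ_ne_zero n)
  rw [h] at h1
  exact (maximalIdeal.isMaximal R).ne_top (top_le_iff.mp h1)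

end TestAlg

/-- In a test algebra, the non-units are exactly the nilpotent elements. -/
theorem IsTest.not_isUnit_iff (h : IsTest 𝒪 A) (x : A) : ¬ IsUnit x ↔ IsNilpotent x := by
  obtain ⟨hloc, hA⟩ := h
  have := hloc
  have := hA.isArtinian
  rw [Ring.KrullDimLE.isNilpotent_iff_mem_nonunits, mem_nonunits_iff]

/-- A test algebra over `𝒪` with finite residue field is a finite ring. -/
theorem IsTest.finite [Finite (ResidueField 𝒪)] (h : IsTest 𝒪 A) : Finite A := by
  obtain ⟨hloc, hA⟩ := h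
  have := hloc
  have := hA.isArtinian
  have := hA.isLocalHom
  have : Finite (ResidueField A) := by
    refine Finite.of_surjective (ResidueField.map (algebraMap 𝒪 A)) ?_
    intro y
    obtain ⟨c, hc⟩ := hA.residue_surjective y
    exact ⟨residue 𝒪 c, by rw [ResidueField.map_residue]; exact hc⟩
  obtain ⟨n, hn⟩ := IsArtinianRing.isNilpotent_jacobson_bot (R := A)
  rw [jacobson_eq_maximalIdeal _ bot_ne_top, Ideal.zero_eq_bot] at hn
  have h1 : Finite (A ⧸ (⊥ : Ideal A)) := finite_quotient_iff.mpr ⟨n, hn.le⟩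
  exact Finite.of_equiv _ (RingEquiv.quotientBot A).toEquiv

/-- Every element of a test algebra is a scalar from `𝒪` plus a nilpotent. -/
theorem IsTest.exists_sub_nilpotent (h : IsTest 𝒪 A) (x : A) :
    ∃ c : 𝒪, IsNilpotent (x - algebraMap 𝒪 A c) := by
  have h' := h
  obtain ⟨hloc, hA⟩ := h
  have := hloc
  obtain ⟨c, hc⟩ := hA.residue_surjective (residue A x)
  refine ⟨c, ?_⟩
  rw [← h'.not_isUnit_iff, ← mem_nonunits_iff, ← mem_maximalIdeal, ← residue_eq_zero_iff,
    map_sub, sub_eq_zero]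
  exact hc.symm

theorem IsTest.isNilpotent_algebraMap_iff (h : IsTest 𝒪 A) (c : 𝒪) :
    IsNilpotent (algebraMap 𝒪 A c) ↔ c ∈ maximalIdeal 𝒪 := by
  rw [← h.not_isUnit_iff, mem_maximalIdeal, mem_nonunits_iff]
  obtain ⟨hloc, hA⟩ := h
  have := hloc
  have := hA.isLocalHom
  rw [isUnit_map_iff]

theorem IsTest.exists_nilradical_pow (h : IsTest 𝒪 A) : ∃ n : ℕ, nilradical A ^ n = ⊥ := by
  obtain ⟨hloc, hA⟩ := h
  have := hloc
  have := hA.isArtinian
  obtain ⟨n, hn⟩ := IsArtinianRing.isNilpotent_nilradical (R := A)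
  exact ⟨n, hn⟩

theorem IsTest.nilradical_eq_maximalIdeal [IsLocalRing A] (h : IsTest 𝒪 A) :
    nilradical A = maximalIdeal A := by
  ext x
  rw [mem_nilradical, ← h.not_isUnit_iff, mem_maximalIdeal, mem_nonunits_iff]

/-- The residue map of a test algebra, as an `𝒪`-algebra map to the residue field of `𝒪`. -/
theorem IsTest.exists_resK (h : IsTest 𝒪 A) :
    ∃ ε : A →ₐ[𝒪] ResidueField 𝒪, ∀ a : A, ε a = 0 ↔ ¬ IsUnit a := by
  obtain ⟨hloc, hA⟩ := h
  have := hloc
  have := hA.isLocalHom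
  have hbij : Function.Bijective (ResidueField.map (algebraMap 𝒪 A)) := by
    refine ⟨RingHom.injective _, ?_⟩
    intro y
    obtain ⟨c, hc⟩ := hA.residue_surjective y
    exact ⟨residue 𝒪 c, by rw [ResidueField.map_residue]; exact hc⟩
  let e : ResidueField 𝒪 ≃+* ResidueField A := RingEquiv.ofBijective _ hbij
  have he : ∀ c : 𝒪, e (residue 𝒪 c) = residue A (algebraMap 𝒪 A c) := fun c =>
    ResidueField.map_residue _ c
  let ε : A →ₐ[𝒪] ResidueField 𝒪 :=
    { toRingHom := (e.symm : ResidueField A →+* ResidueField 𝒪).comp (residue A)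
      commutes' := fun c => by
        change e.symm (residue A (algebraMap 𝒪 A c)) = residue 𝒪 c
        rw [← he, RingEquiv.symm_apply_apply] }
  refine ⟨ε, fun a => ?_⟩
  change e.symm (residue A a) = 0 ↔ ¬ IsUnit a
  rw [map_eq_zero_iff _ e.symm.injective, residue_eq_zero_iff, mem_maximalIdeal, mem_nonunits_iff]

/-- A subalgebra (more generally: the source of an injective algebra map) of a test algebra is
a test algebra. -/
theorem IsTest.of_injective [Finite (ResidueField 𝒪)] (hB : IsTest 𝒪 B) (φ : A →ₐ[𝒪] B)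
    (hφ : Function.Injective φ) : IsTest 𝒪 A := by
  have : Finite B := hB.finite
  have : Finite A := Finite.of_injective φ hφ
  obtain ⟨ε, hε⟩ := hB.exists_resK
  refine TestAlg.isTest_of_resK (ε.comp φ) fun x hx => ?_
  refine TestAlg.isUnit_of_injective_of_finite (φ : A →+* B) hφ x ?_
  by_contra hu
  exact hx ((hε (φ x)).mpr hu)

theorem IsTest.subalgebra [Finite (ResidueField 𝒪)] (h : IsTest 𝒪 A) (E : Subalgebra 𝒪 A) :
    IsTest 𝒪 E :=
  h.of_injective E.val Subtype.val_injective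

/-- A nontrivial quotient (more generally: surjective image) of a test algebra is a test
algebra. -/
theorem IsTest.of_surjective (hA : IsTest 𝒪 A) [Nontrivial B] (φ : A →ₐ[𝒪] B)
    (hφ : Function.Surjective φ) : IsTest 𝒪 B := by
  have hA' := hA
  obtain ⟨hloc, hT⟩ := hA
  have := hloc
  have := hT.isArtinian
  have := hT.isLocalHom
  have hlocB : IsLocalRing B := IsLocalRing.of_surjective' (φ : A →+* B) hφ
  have := hlocB
  have hnu : ∀ a : A, ¬ IsUnit a → ¬ IsUnit (φ a) := fun a ha =>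
    (((hA'.not_isUnit_iff a).mp ha).map φ).not_isUnit
  refine ⟨hlocB, ⟨⟨?_⟩, ?_, hφ.isArtinianRing⟩⟩
  · intro c hc
    by_contra hc'
    have h1 : ¬ IsUnit (algebraMap 𝒪 A c) := fun h => hc' ((isUnit_map_iff _ _).mp h)
    apply hnu _ h1
    rwa [AlgHom.commutes]
  · intro y
    obtain ⟨b, rfl⟩ := residue_surjective y
    obtain ⟨a, rfl⟩ := hφ b
    obtain ⟨c, hc⟩ := hA'.exists_sub_nilpotent a
    refine ⟨c, ?_⟩
    have h1 : ¬ IsUnit (φ a - algebraMap 𝒪 B c) := by
      have := (hc.map φ).not_isUnit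
      rwa [map_sub, AlgHom.commutes] at this
    have h2 : residue B (φ a - algebraMap 𝒪 B c) = 0 :=
      (residue_eq_zero_iff _).mpr ((mem_maximalIdeal _).mpr h1)
    rw [map_sub, sub_eq_zero] at h2
    exact h2.symm

theorem IsTest.quotient (h : IsTest 𝒪 A) (I : Ideal A) (hI : I ≠ ⊤) : IsTest 𝒪 (A ⧸ I) := by
  have : Nontrivial (A ⧸ I) := Ideal.Quotient.nontrivial_iff.mpr hI
  exact h.of_surjective (Ideal.Quotient.mkₐ 𝒪 I) (Ideal.Quotient.mkₐ_surjective 𝒪 I)

theorem isTest_residueField : IsTest 𝒪 (ResidueField 𝒪) := by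
  refine TestAlg.isTest_of_resK (AlgHom.id 𝒪 (ResidueField 𝒪)) fun x hx => ?_
  exact isUnit_iff_ne_zero.mpr hx

theorem isTest_dualNumber : IsTest 𝒪 (DualNumber (ResidueField 𝒪)) := by
  have : IsArtinianRing (DualNumber (ResidueField 𝒪)) := by
    have : Module.Finite (ResidueField 𝒪) (DualNumber (ResidueField 𝒪)) :=
      inferInstanceAs (Module.Finite (ResidueField 𝒪) (ResidueField 𝒪 × ResidueField 𝒪))
    exact IsArtinianRing.of_finite (ResidueField 𝒪) _
  refine TestAlg.isTest_of_resK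
    (TrivSqZeroExt.fstHom 𝒪 (ResidueField 𝒪) (ResidueField 𝒪)) fun x hx => ?_
  rw [TrivSqZeroExt.isUnit_iff_isUnit_fst]
  exact isUnit_iff_ne_zero.mpr hx

/-- Algebra maps between test algebras are local. -/
theorem IsTest.not_isUnit_map (hA : IsTest 𝒪 A) (hB : IsTest 𝒪 B) (φ : A →ₐ[𝒪] B) (a : A)
    (ha : ¬ IsUnit a) : ¬ IsUnit (φ a) := by
  rw [hB.not_isUnit_iff]
  exact ((hA.not_isUnit_iff a).mp ha).map φ

omit [IsLocalRing 𝒪] [Algebra 𝒪 A] [Algebra 𝒪 B] in
theorem nilradical_pow_eq_bot_of_injective (φ : A →+* B) (hφ : Function.Injective φ) {n : ℕ}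
    (h : nilradical B ^ n = ⊥) : nilradical A ^ n = ⊥ := by
  have h1 : Ideal.map φ (nilradical A) ≤ nilradical B := by
    rw [Ideal.map_le_iff_le_comap]
    intro x hx
    rw [Ideal.mem_comap, mem_nilradical]
    exact (mem_nilradical.mp hx).map φ
  have h2 : Ideal.map φ (nilradical A ^ n) ≤ ⊥ := by
    rw [Ideal.map_pow, ← h]
    exact Ideal.pow_right_mono h1 n
  rw [eq_bot_iff]
  intro x hx
  have h3 : φ x ∈ (⊥ : Ideal B) := h2 (Ideal.mem_map_of_mem φ hx)
  rw [Ideal.mem_bot] at h3 ⊢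
  exact hφ (by rw [h3, map_zero])

omit [IsLocalRing 𝒪] [Algebra 𝒪 A] in
theorem nilradical_pow_eq_bot_of_le {n m : ℕ} (hnm : n ≤ m) (h : nilradical A ^ n = ⊥) :
    nilradical A ^ m = ⊥ := by
  rw [eq_bot_iff, ← h]
  exact Ideal.pow_le_pow_right hnm

omit [IsLocalRing 𝒪] [Algebra 𝒪 A] [Algebra 𝒪 B] [Algebra 𝒪 F] in
theorem nilradical_pow_eq_bot_of_injective_prod (pA : F →+* A) (pB : F →+* B)
    (hinj : Function.Injective (fun x : F => (pA x, pB x))) {n : ℕ}
    (hA : nilradical A ^ n = ⊥) (hB : nilradical B ^ n = ⊥) : nilradical F ^ n = ⊥ := by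
  have key : ∀ {C : Type} [CommRing C] (p : F →+* C), nilradical C ^ n = ⊥ →
      ∀ x ∈ nilradical F ^ n, p x = 0 := by
    intro C _ p hC x hx
    have h1 : Ideal.map p (nilradical F) ≤ nilradical C := by
      rw [Ideal.map_le_iff_le_comap]
      intro x hx
      rw [Ideal.mem_comap, mem_nilradical]
      exact (mem_nilradical.mp hx).map p
    have h2 : Ideal.map p (nilradical F ^ n) ≤ ⊥ := by
      rw [Ideal.map_pow, ← hC]
      exact Ideal.pow_right_mono h1 n
    have h3 : p x ∈ (⊥ : Ideal C) := h2 (Ideal.mem_map_of_mem p hx)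
    rwa [Ideal.mem_bot] at h3
  rw [eq_bot_iff]
  intro x hx
  rw [Ideal.mem_bot]
  apply hinj
  simp only [map_zero]
  rw [key pA hA x hx, key pB hB x hx]

theorem IsTest.map_nilradical (hA : IsTest 𝒪 A) (hB : IsTest 𝒪 B) (φ : A →ₐ[𝒪] B)
    (hφ : Function.Surjective φ) :
    Ideal.map (φ : A →+* B) (nilradical A) = nilradical B := by
  apply le_antisymm
  · rw [Ideal.map_le_iff_le_comap]
    intro x hx
    rw [Ideal.mem_comap, mem_nilradical]
    exact (mem_nilradical.mp hx).map (φ : A →+* B)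
  · intro b hb
    obtain ⟨a, rfl⟩ := hφ b
    have h1 : ¬ IsUnit (φ a) := (hB.not_isUnit_iff _).mpr (mem_nilradical.mp hb)
    have h2 : ¬ IsUnit a := fun h => h1 (h.map φ)
    exact Ideal.mem_map_of_mem (φ : A →+* B) (mem_nilradical.mpr ((hA.not_isUnit_iff a).mp h2))

theorem IsTest.nilradical_pow_eq_bot_of_surjective (hA : IsTest 𝒪 A) (hB : IsTest 𝒪 B)
    (φ : A →ₐ[𝒪] B) (hφ : Function.Surjective φ) {n : ℕ} (h : nilradical A ^ n = ⊥) :
    nilradical B ^ n = ⊥ := by
  rw [← hA.map_nilradical hB φ hφ, ← Ideal.map_pow, h, Ideal.map_bot]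

/-- The fibre product `A ×ₖ B` of two test algebras over the residue field is a test algebra.
-/
theorem exists_fibK [Finite (ResidueField 𝒪)] (hA : IsTest 𝒪 A) (hB : IsTest 𝒪 B) :
    ∃ (F : Type) (_ : CommRing F) (_ : Algebra 𝒪 F) (pA : F →ₐ[𝒪] A) (pB : F →ₐ[𝒪] B),
      IsTest 𝒪 F ∧ Function.Injective (fun x : F => (pA x, pB x)) ∧
      (∀ (a : A) (b : B), (∃ c : 𝒪, ¬ IsUnit (a - algebraMap 𝒪 A c) ∧
          ¬ IsUnit (b - algebraMap 𝒪 B c)) → ∃ x : F, pA x = a ∧ pB x = b) := by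
  obtain ⟨εA, hεA⟩ := hA.exists_resK
  obtain ⟨εB, hεB⟩ := hB.exists_resK
  have : Finite A := hA.finite
  have : Finite B := hB.finite
  let E : Subalgebra 𝒪 (A × B) :=
    AlgHom.equalizer (εA.comp (AlgHom.fst 𝒪 A B)) (εB.comp (AlgHom.snd 𝒪 A B))
  have hE : ∀ x : A × B, x ∈ E ↔ εA x.1 = εB x.2 := fun x => Iff.rfl
  refine ⟨↥E, inferInstance, inferInstance, (AlgHom.fst 𝒪 A B).comp E.val,
    (AlgHom.snd 𝒪 A B).comp E.val, ?_, ?_, ?_⟩
  · have : Finite E := inferInstance
    refine TestAlg.isTest_of_resK ((εA.comp (AlgHom.fst 𝒪 A B)).comp E.val) fun x hx => ?_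
    refine TestAlg.isUnit_of_injective_of_finite (E.val : E →+* A × B) Subtype.val_injective x ?_
    have hx1 : εA (x : A × B).1 ≠ 0 := hx
    have hx2 : εB (x : A × B).2 ≠ 0 := by rw [← (hE x).mp x.2]; exact hx1
    change IsUnit (x : A × B)
    rw [Prod.isUnit_iff]
    refine ⟨?_, ?_⟩
    · by_contra hu; exact hx1 ((hεA _).mpr hu)
    · by_contra hu; exact hx2 ((hεB _).mpr hu)
  · intro x y hxy
    exact Subtype.ext hxy
  · rintro a b ⟨c, hca, hcb⟩
    have h1 : εA a = εB b := by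
      have ha := (hεA _).mpr hca
      have hb := (hεB _).mpr hcb
      rw [map_sub, AlgHom.commutes, sub_eq_zero] at ha hb
      rw [ha, hb]
    exact ⟨⟨(a, b), h1⟩, rfl, rfl⟩

/-- Quotients of a noetherian local `𝒪`-algebra (local structure map, residue field generated
by `𝒪`) by powers of the maximal ideal are test algebras. -/
theorem isTest_quotient_maximalIdeal_pow [IsLocalRing A] [IsNoetherianRing A]
    [IsLocalHom (algebraMap 𝒪 A)]
    (hres : Function.Surjective (residue A ∘ algebraMap 𝒪 A)) (n : ℕ) :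
    IsTest 𝒪 (A ⧸ maximalIdeal A ^ (n + 1)) := by
  have hne : maximalIdeal A ^ (n + 1) ≠ ⊤ := TestAlg.maximalIdeal_pow_ne_top n
  have : Nontrivial (A ⧸ maximalIdeal A ^ (n + 1)) := Ideal.Quotient.nontrivial_iff.mpr hne
  have hloc : IsLocalRing (A ⧸ maximalIdeal A ^ (n + 1)) :=
    IsLocalRing.of_surjective' (Ideal.Quotient.mk _) Ideal.Quotient.mk_surjective
  have hnil : ∀ a : A, ¬ IsUnit a →
      ¬ IsUnit (Ideal.Quotient.mk (maximalIdeal A ^ (n + 1)) a) := fun a ha => by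
    have h1 : IsNilpotent (Ideal.Quotient.mk (maximalIdeal A ^ (n + 1)) a) := by
      refine ⟨n + 1, ?_⟩
      rw [← map_pow, Ideal.Quotient.eq_zero_iff_mem]
      exact Ideal.pow_mem_pow ((mem_maximalIdeal a).mpr ha) _
    exact h1.not_isUnit
  have hart : IsArtinianRing (A ⧸ maximalIdeal A ^ (n + 1)) := by
    rw [isArtinianRing_iff_isNilpotent_maximalIdeal]
    refine ⟨n + 1, ?_⟩
    exact TestAlg.pow_eq_bot_of_forall_not_isUnit n _ fun x hx =>
      mem_nonunits_iff.mp ((mem_maximalIdeal x).mp hx)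
  refine ⟨hloc, ⟨⟨?_⟩, ?_, hart⟩⟩
  · intro c hc
    by_contra hc'
    have h1 : ¬ IsUnit (algebraMap 𝒪 A c) := fun h => hc' ((isUnit_map_iff _ _).mp h)
    exact hnil _ h1 hc
  · intro y
    obtain ⟨b, rfl⟩ := residue_surjective y
    obtain ⟨a, rfl⟩ := Ideal.Quotient.mk_surjective b
    obtain ⟨c, hc⟩ := hres (residue A a)
    refine ⟨c, ?_⟩
    have h0 : ¬ IsUnit (a - algebraMap 𝒪 A c) := by
      rw [← mem_nonunits_iff, ← mem_maximalIdeal, ← residue_eq_zero_iff, map_sub, sub_eq_zero]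
      exact hc.symm
    have h1 := hnil _ h0
    have h2 : residue (A ⧸ maximalIdeal A ^ (n + 1))
        (Ideal.Quotient.mk (maximalIdeal A ^ (n + 1)) (a - algebraMap 𝒪 A c)) = 0 :=
      (residue_eq_zero_iff _).mpr ((mem_maximalIdeal _).mpr h1)
    rw [map_sub, map_sub, sub_eq_zero] at h2
    exact h2.symm

omit [IsLocalRing 𝒪] [Algebra 𝒪 A] in
theorem nilradical_quotient_maximalIdeal_pow [IsLocalRing A] (n : ℕ) :
    nilradical (A ⧸ maximalIdeal A ^ (n + 1)) ^ (n + 1) = ⊥ := by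
  have hne : maximalIdeal A ^ (n + 1) ≠ ⊤ := TestAlg.maximalIdeal_pow_ne_top n
  have : Nontrivial (A ⧸ maximalIdeal A ^ (n + 1)) := Ideal.Quotient.nontrivial_iff.mpr hne
  exact TestAlg.pow_eq_bot_of_forall_not_isUnit n _ fun x hx => (mem_nilradical.mp hx).not_isUnit

end Fermat.Agent.S53
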